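import Fermat.Agent.Torsion27.Tuples

/-!
# Common avoidance for properties that are finite or everywhere true on lines
-/

set_option autoImplicit false

noncomputable section

open AlgebraicCurve FermatAgent.Curve FermatAgent.MW MvPolynomial

namespace FermatAgent.Torsion27

variable {K F : Type*} [Field K] [Field F] [Algebra K F] [IsAlgClosed K] [IsFunctionField1 K F]

omit [IsAlgClosed K] [IsFunctionField1 K F] in
theorem FinOrAllLine.translate [IsAlgClosed K] [IsFunctionField1 K F] {p : Pic0 K F → Prop}
    (hp : FinOrAllLine p) (t : Pic0 K F) : FinOrAllLine fun y => p (y + t) := fun a P₁ => by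
  simpa only [add_right_comm a _ t] using hp (a + t) P₁

/-- Finitely many properties, none true on all classes of `n`-tuples up to given translations, are
avoided simultaneously by a general tuple. -/
theorem exists_tuple_avoid {ι : Type*} [Finite ι] {p : ι → Pic0 K F → Prop}
    (hp : ∀ i, FinOrAllLine (p i)) (P₀ : Place K F) {n : ℕ} {S : Set (Place K F)} (hS : S.Finite)
    (a : ι → Pic0 K F) (h : ∀ i, ∃ P : Fin n → Place K F, ¬ p i (a i + tupleClass P₀ P)) :
    ∃ P : Fin n → Place K F, Function.Injective P ∧ (∀ j, P j ∉ S) ∧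
      ∀ i, ¬ p i (a i + tupleClass P₀ P) := by
  have := RR.infinite_place (K := K) (F := F)
  induction n generalizing a S with
  | zero =>
    refine ⟨Fin.elim0, Function.injective_of_subsingleton _, fun j => j.elim0, fun i => ?_⟩
    obtain ⟨P, hP⟩ := h i
    rwa [Subsingleton.elim Fin.elim0 P]
  | succ n ih =>
    choose P hP using h
    have hfin : ∀ i, {x : Place K F |
        p i (a i + tupleClass P₀ (Fin.tail (P i)) + classOf x P₀)}.Finite := fun i =>
      (hp i _ P₀).resolve_right fun hall => hP i <| by
        rw [← Fin.cons_self_tail (P i), tupleClass_cons, add_comm (classOf _ _), ← add_assoc]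
        exact hall _
    obtain ⟨x, hx⟩ := (hS.union (Set.finite_iUnion hfin)).infinite_compl.nonempty
    simp only [Set.mem_compl_iff, Set.mem_union, Set.mem_iUnion, not_or, not_exists] at hx
    obtain ⟨Q, hQ, hQS, hQp⟩ := ih (hS.insert x) (fun i => a i + classOf x P₀) fun i =>
      ⟨Fin.tail (P i), by rw [add_right_comm]; exact hx.2 i⟩
    refine ⟨Fin.cons x Q, Fin.cons_injective_iff.mpr ⟨?_, hQ⟩, fun j => ?_, fun i => ?_⟩
    · rintro ⟨j, rfl⟩
      exact hQS j (Set.mem_insert _ _)
    · refine Fin.cases ?_ (fun j => ?_) j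
      · simpa using hx.1
      · simpa using fun hm => hQS j (Set.mem_insert_of_mem _ hm)
    · rw [tupleClass_cons, ← add_assoc]
      exact hQp i

/-- In positive genus distinct places have distinct classes. -/
theorem eq_of_classOf_eq_zero (hg : 1 ≤ genusFF K F) {P Q : Place K F} (h : classOf P Q = 0) :
    P = Q := by
  by_contra hne
  obtain ⟨f, hf0, hf⟩ := RR.mem_principal_iff_divFn.mp
    (sub_mem_principal_of_mk_eq (D' := 0) (h.trans rfl))
  have hord : ∀ v : Place K F,
      v.ord f = Finsupp.single P (1 : ℤ) v - Finsupp.single Q 1 v := fun v => by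
    rw [← RR.divFn_apply, ← hf]
    simp
  have hQ : Q.ord f = -1 := by
    rw [hord, Finsupp.single_eq_of_ne (Ne.symm hne), Finsupp.single_eq_same]
    ring
  have hpow : ∀ n : ℕ, f ^ n ∈ riemannRochSpace (Finsupp.single Q (n : ℤ)) ∧
      Q.ord (f ^ n) = -n := fun n => by
    have e : ∀ v : Place K F, v.ord (f ^ n) = n * v.ord f := fun v => by
      rw [← zpow_natCast, v.ord_zpow]
    refine ⟨mem_riemannRochSpace_iff.mpr fun v => Or.inr ?_, by rw [e, hQ]; ring⟩
    rw [e, hord]
    rcases eq_or_ne v Q with rfl | hv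
    · rw [Finsupp.single_eq_of_ne (Ne.symm hne), Finsupp.single_eq_same, Finsupp.single_eq_same]
      linarith
    · rw [Finsupp.single_eq_of_ne hv, Finsupp.single_eq_of_ne hv, sub_zero, neg_zero]
      rcases eq_or_ne v P with rfl | hvP
      · rw [Finsupp.single_eq_same]; positivity
      · rw [Finsupp.single_eq_of_ne hvP, mul_zero]
  have hell : ∀ n : ℕ, n + 1 ≤ RR.ell (Finsupp.single Q (n : ℤ)) := by
    intro n
    induction n with
    | zero => rw [Nat.cast_zero, Finsupp.single_zero, RR.ell_zero]
    | succ n ih =>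
      obtain ⟨h1, h2⟩ := hpow (n + 1)
      have e : Finsupp.single Q ((n + 1 : ℕ) : ℤ) =
          Finsupp.single Q (n : ℤ) + Finsupp.single Q 1 := by
        rw [Nat.cast_succ, Finsupp.single_add]
      rw [e] at h1 ⊢
      have := RR.ell_add_single_of_notMem h1 fun hcon => by
        have h3 := (mem_riemannRochSpace_iff.mp hcon Q).resolve_left (pow_ne_zero _ hf0)
        rw [h2, Finsupp.single_eq_same] at h3
        push_cast at h3
        omega
      omega
  have h1 := hell (2 * genusFF K F)
  have h2 := RR.ell_eq_of_degree_ge (D := Finsupp.single Q ((2 * genusFF K F : ℕ) : ℤ))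
    (by rw [RR.degree_single]; omega)
  rw [RR.degree_single] at h2
  omega

/-- In positive genus lying in a finite set is finite on every line. -/
theorem finOrAllLine_eq (hg : 1 ≤ genusFF K F) (c : Pic0 K F) :
    FinOrAllLine fun y => y = c := fun a P₁ => Or.inl <| Set.Subsingleton.finite fun P hP Q hQ => by
  refine eq_of_classOf_eq_zero hg ?_
  have h : classOf P P₁ = classOf Q P₁ := add_left_cancel (hP.trans hQ.symm)
  have := classOf_add P Q P₁
  rwa [h, add_eq_right] at this

/-- Finitely many forms, none zero on the cone, are non-zero at a common translate outside a given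
finite set. -/
theorem exists_forall_eval_ne_zero [CharZero K] (hg : 1 ≤ genusFF K F) {M : Divisor K F}
    (hM : IsBig M) {s : Finset (Place K F)} {ι : Type*} [Finite ι]
    (p : ι → MvPolynomial (Fin (rk M) → s) K) (n : ι → ℕ) (hp : ∀ i, (p i).IsHomogeneous (n i))
    (h0 : ∀ i, ∃ x ∈ imgSet M s, eval x (p i) ≠ 0) (t : ι → Pic0 K F) {S : Set (Pic0 K F)}
    (hS : S.Finite) :
    ∃ y : Pic0 K F, y ∉ S ∧ ∀ i, eval (coord M s (y + t i)) (p i) ≠ 0 := by
  have := RR.infinite_place (K := K) (F := F)
  set P₀ := Classical.arbitrary (Place K F)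
  have : Finite S := hS.to_subtype
  obtain ⟨P, -, -, hP⟩ := exists_tuple_avoid
    (p := Sum.elim (fun i y => eval (coord M s (y + t i)) (p i) = 0) fun (c : S) y => y = (c : Pic0 K F))
    (fun j => by
      cases j with
      | inl i => exact (finOrAllLine_eval hM (hp i)).translate (t i)
      | inr c => exact finOrAllLine_eq hg (c : Pic0 K F))
    P₀ (n := genusFF K F) Set.finite_empty 0 (fun j => by
      cases j with
      | inl i =>
        obtain ⟨x, hx, hne⟩ := h0 i
        obtain ⟨c, y, rfl⟩ := exists_eq_smul_of_mem_imgSet hx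
        obtain ⟨P, hP⟩ := exists_tupleClass_eq P₀ (y - t i)
        refine ⟨P, fun h => hne ?_⟩
        simp only [Sum.elim_inl, Pi.zero_apply, zero_add, hP, sub_add_cancel] at h
        rw [eval_smul_of_isHomogeneous (hp i), h, mul_zero]
      | inr c =>
        obtain ⟨Q, hQ⟩ := exists_ne (Classical.arbitrary (Place K F))
        obtain ⟨P, hP⟩ := exists_tupleClass_eq P₀ ((c : Pic0 K F) + classOf Q P₀)
        refine ⟨P, fun h => hQ (eq_of_classOf_eq_zero hg ?_)⟩
        simpa [hP] using h)
  refine ⟨tupleClass P₀ P, fun hy => ?_, fun i => ?_⟩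
  · exact hP (Sum.inr ⟨_, hy⟩) (by simp)
  · simpa using hP (Sum.inl i)

end FermatAgent.Torsion27
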