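import Fermat.Agent.Torsion27.Fibre
import Fermat.Agent.MW.MulDiv.Fibre
import Mathlib.RingTheory.Ideal.MinimalPrime.Localization
import Mathlib.FieldTheory.IntermediateField.Adjoin.Basic

/-!
# Degrees from the number of points in a fibre

Two maps into one finitely generated algebra: the first one with at most one point in every fibre,
the second one with finite fibres. The prime over the first one gives a common function field.
-/

set_option autoImplicit false

noncomputable section

namespace FermatAgent.Torsion27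

open FermatAgent.MW

universe uk uA

variable {k : Type uk} [Field k] [IsAlgClosed k] [CharZero k]

omit [IsAlgClosed k] [CharZero k] in
/-- The subfield generated by the image of a domain is its fraction field. -/
theorem isFractionRing_adjoin {A L : Type uA} [CommRing A] [Algebra k A] [Field L] [Algebra k L]
    (ι : A →ₐ[k] L) (hι : Function.Injective ι)
    [Algebra A (IntermediateField.adjoin k (Set.range ι))]
    (h : ∀ a, (algebraMap A (IntermediateField.adjoin k (Set.range ι)) a : L) = ι a) :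
    IsFractionRing A (IntermediateField.adjoin k (Set.range ι)) := by
  have : FaithfulSMul A (IntermediateField.adjoin k (Set.range ι)) :=
    (faithfulSMul_iff_algebraMap_injective _ _).mpr fun a b hab => hι (by
      rw [← h, ← h, hab])
  refine IsFractionRing.of_field A _ fun z => ?_
  obtain ⟨r, hr, t, ht, hz⟩ := IntermediateField.mem_adjoin_iff_div.mp z.2
  rw [← AlgHom.coe_range, Algebra.adjoin_eq] at hr ht
  obtain ⟨a, rfl⟩ := hr
  obtain ⟨b, rfl⟩ := ht
  exact ⟨a, b, Subtype.ext (by rw [hz, IntermediateField.coe_div, h, h]; rfl)⟩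

omit [CharZero k] in
/-- Finite fibres over an open set make an extension algebraic. -/
theorem isAlgebraic_of_finite_fibres {A S : Type uA} [CommRing A] [CommRing S] [IsDomain S]
    [Algebra k A] [Algebra k S] [Algebra.FiniteType k S] [Algebra A S] [IsScalarTower k A S]
    (hinj : Function.Injective (algebraMap A S))
    (hfin : ∀ φ₀ : S →ₐ[k] k,
      {φ : S →ₐ[k] k | ∀ a, φ (algebraMap A S a) = φ₀ (algebraMap A S a)}.Finite) :
    Algebra.IsAlgebraic A S := by
  by_contra halg
  have : IsDomain A := hinj.isDomain _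
  have : FaithfulSMul A S := (faithfulSMul_iff_algebraMap_injective A S).mpr hinj
  obtain ⟨χ, -, hinf⟩ := exists_infinite_fibre (k := k) (B := A) (R := S) halg (e := 1) one_ne_zero
  obtain ⟨φ₀, hφ₀⟩ := hinf.nonempty
  exact hinf ((hfin φ₀).subset fun φ hφ a => (hφ a).trans (hφ₀ a).symm)

/-- The number of points of a general fibre is the degree. -/
theorem exists_degree_eq_fibre {A S L : Type uA} [CommRing A] [CommRing S] [IsDomain S]
    [Algebra k A] [Algebra k S] [Algebra.FiniteType k S] [Field L] [Algebra k L] [Algebra S L]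
    [IsScalarTower k S L] [IsFractionRing S L] (h : A →ₐ[k] S) (hinj : Function.Injective h)
    (hfin : ∀ φ₀ : S →ₐ[k] k, {φ : S →ₐ[k] k | φ.comp h = φ₀.comp h}.Finite) :
    FiniteDimensional
        (IntermediateField.adjoin k (Set.range ((IsScalarTower.toAlgHom k S L).comp h))) L ∧
      (∀ s : S, s ≠ 0 → ∃ a : A, a ≠ 0 ∧ s ∣ h a) ∧
      ∃ e : A, e ≠ 0 ∧ ∀ χ : A →ₐ[k] k, χ e ≠ 0 →
        {φ : S →ₐ[k] k | φ.comp h = χ}.ncard = Module.finrank
          (IntermediateField.adjoin k (Set.range ((IsScalarTower.toAlgHom k S L).comp h))) L := by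
  classical
  set ι := (IsScalarTower.toAlgHom k S L).comp h with hι
  have hιinj : Function.Injective ι := (IsFractionRing.injective S L).comp hinj
  set E := IntermediateField.adjoin k (Set.range ι)
  let jE : A →+* E := ι.toRingHom.codRestrict E fun a =>
    IntermediateField.subset_adjoin k _ ⟨a, rfl⟩
  let : Algebra A S := h.toRingHom.toAlgebra
  let : Algebra A L := ι.toRingHom.toAlgebra
  let : Algebra A E := jE.toAlgebra
  have : IsScalarTower k A S :=
    IsScalarTower.of_algebraMap_eq fun x => (h.commutes x).symm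
  have : IsScalarTower A S L := IsScalarTower.of_algebraMap_eq fun x => rfl
  have : IsScalarTower A E L := IsScalarTower.of_algebraMap_eq fun x => rfl
  have : IsFractionRing A E := isFractionRing_adjoin ι hιinj fun a => rfl
  have : IsDomain A := hιinj.isDomain _
  have : FaithfulSMul A S := (faithfulSMul_iff_algebraMap_injective A S).mpr hinj
  have halg : Algebra.IsAlgebraic A S := isAlgebraic_of_finite_fibres (k := k) hinj fun φ₀ =>
    (hfin φ₀).subset fun φ hφ => AlgHom.ext hφ
  have : FaithfulSMul A L := (faithfulSMul_iff_algebraMap_injective A L).mpr hιinj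
  have halgL : Algebra.IsAlgebraic A L := (IsFractionRing.isAlgebraic_iff' A S L).mp halg
  have halgE : Algebra.IsAlgebraic E L :=
    ⟨fun x => (IsFractionRing.isAlgebraic_iff A E L).mp (halgL.isAlgebraic x)⟩
  obtain ⟨gen, hgen⟩ := (Algebra.FiniteType.out : (⊤ : Subalgebra k S).FG)
  have hfd : FiniteDimensional E L := by
    have htop : IntermediateField.adjoin E (Set.range fun x : gen => algebraMap S L x) = ⊤ := by
      refine eq_top_iff.mpr fun x _ => ?_
      obtain ⟨p, q, -, rfl⟩ := IsFractionRing.div_surjective (A := S) x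
      have hmem : ∀ y : S, algebraMap S L y ∈
          IntermediateField.adjoin E (Set.range fun x : gen => algebraMap S L x) := fun y => by
        have hy : y ∈ Algebra.adjoin k (gen : Set S) := hgen ▸ Algebra.mem_top
        induction hy using Algebra.adjoin_induction with
        | mem z hz => exact IntermediateField.subset_adjoin _ _ ⟨⟨z, hz⟩, rfl⟩
        | algebraMap c =>
          rw [← IsScalarTower.algebraMap_apply k S L]
          exact IntermediateField.algebraMap_mem _ (algebraMap k E c)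
        | add y z _ _ hy hz => rw [map_add]; exact add_mem hy hz
        | mul y z _ _ hy hz => rw [map_mul]; exact mul_mem hy hz
      exact div_mem (hmem p) (hmem q)
    have : FiniteDimensional E
        (IntermediateField.adjoin E (Set.range fun x : gen => algebraMap S L x)) :=
      IntermediateField.finiteDimensional_adjoin fun x _ =>
        (halgE.isAlgebraic x).isIntegral
    rw [htop] at this
    exact IntermediateField.topEquiv.toLinearEquiv.finiteDimensional
  refine ⟨hfd, fun s hs => ?_, ?_⟩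
  · obtain ⟨a, ha, hd⟩ :=
      (halg.isAlgebraic s).exists_nonzero_dvd (mem_nonZeroDivisors_of_ne_zero hs)
    exact ⟨a, ha, hd⟩
  · have : CharZero E := charZero_of_injective_algebraMap (algebraMap k E).injective
    obtain ⟨e, he, hcard⟩ := exists_fibre_card (k := k) (B := A) (R := S) (E := E) (L := L)
    refine ⟨e, he, fun χ hχ => ?_⟩
    rw [← hcard χ hχ]
    congr 1
    ext φ
    exact ⟨fun hφ b => AlgHom.congr_fun hφ b, fun hφ => AlgHom.ext hφ⟩

omit [CharZero k] in
/-- An algebraic extension by finite fibres has the same transcendence degree. -/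
theorem trdeg_eq_of_finite_fibres {A S : Type uA} [CommRing A] [CommRing S] [IsDomain S]
    [Algebra k A] [Algebra k S] [Algebra.FiniteType k S] (h : A →ₐ[k] S)
    (hinj : Function.Injective h)
    (hfin : ∀ φ₀ : S →ₐ[k] k, {φ : S →ₐ[k] k | φ.comp h = φ₀.comp h}.Finite) :
    Algebra.trdeg k A = Algebra.trdeg k S := by
  let : Algebra A S := h.toRingHom.toAlgebra
  have : IsScalarTower k A S := IsScalarTower.of_algebraMap_eq fun x => (h.commutes x).symm
  have : FaithfulSMul A S := (faithfulSMul_iff_algebraMap_injective A S).mpr hinj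
  have : IsDomain A := hinj.isDomain _
  have halg : Algebra.IsAlgebraic A S := isAlgebraic_of_finite_fibres (k := k) hinj fun φ₀ =>
    (hfin φ₀).subset fun φ hφ => AlgHom.ext hφ
  obtain ⟨t, ht⟩ := exists_isTranscendenceBasis A S
  have := ht.isEmpty_iff_isAlgebraic.mpr halg
  have h0 : Algebra.trdeg A S = 0 := by rw [← ht.cardinalMk_eq_trdeg, Cardinal.mk_eq_zero]
  rw [← trdeg_add_eq k A (A := S), h0, add_zero]

/-- One point over each point of the first map, `N` over a general one of the second: a prime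
whose function field has degree `1` and `N` over the two subfields. -/
theorem exists_prime_degrees {A B R : Type uA} [CommRing A] [IsDomain A] [CommRing B] [IsDomain B]
    [CommRing R] [Algebra k A] [Algebra k B] [Algebra k R] [Algebra.FiniteType k A]
    [Algebra.FiniteType k R] (f : B →ₐ[k] R) (g : A →ₐ[k] R) (hf : Function.Injective f)
    (htr : Algebra.trdeg k A = Algebra.trdeg k B)
    (hone : ∀ φ φ' : R →ₐ[k] k, φ.comp f = φ'.comp f → φ = φ')
    (hfin : ∀ φ₀ : R →ₐ[k] k, {φ : R →ₐ[k] k | φ.comp g = φ₀.comp g}.Finite) {N : ℕ}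
    (hcount : ∀ b : B, b ≠ 0 →
      (∀ χ : B →ₐ[k] k, χ b ≠ 0 → ∃ φ : R →ₐ[k] k, φ.comp f = χ) → ∃ φ₀ : R →ₐ[k] k,
      {φ : R →ₐ[k] k | φ.comp g = φ₀.comp g}.ncard = N ∧
        ∀ φ : R →ₐ[k] k, φ.comp g = φ₀.comp g → φ (f b) ≠ 0) :
    ∃ (P : Ideal R) (_ : P.IsPrime),
      Function.Injective ((Ideal.Quotient.mkₐ k P).comp f) ∧
      Function.Injective ((Ideal.Quotient.mkₐ k P).comp g) ∧
      IntermediateField.adjoin k (Set.range ((IsScalarTower.toAlgHom k (R ⧸ P)
        (FractionRing (R ⧸ P))).comp ((Ideal.Quotient.mkₐ k P).comp f))) = ⊤ ∧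
      FiniteDimensional (IntermediateField.adjoin k (Set.range ((IsScalarTower.toAlgHom k (R ⧸ P)
        (FractionRing (R ⧸ P))).comp ((Ideal.Quotient.mkₐ k P).comp g)))) (FractionRing (R ⧸ P)) ∧
      Module.finrank (IntermediateField.adjoin k (Set.range ((IsScalarTower.toAlgHom k (R ⧸ P)
        (FractionRing (R ⧸ P))).comp ((Ideal.Quotient.mkₐ k P).comp g)))) (FractionRing (R ⧸ P)) =
        N := by
  classical
  obtain ⟨P, hP, hcomap⟩ := Ideal.exists_comap_eq_of_mem_minimalPrimes_of_injective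
    (f := f.toRingHom) hf (⊥ : Ideal B) (by rw [IsDomain.minimalPrimes_eq_singleton_bot]; rfl)
  refine ⟨P, hP, ?_⟩
  set q := Ideal.Quotient.mkₐ k P with hq
  set f' := q.comp f
  set g' := q.comp g
  have hf' : Function.Injective f' := (injective_iff_map_eq_zero _).mpr fun b hb => by
    have : b ∈ P.comap f.toRingHom :=
      (Ideal.Quotient.eq_zero_iff_mem (I := P) (a := f b)).mp hb
    rwa [hcomap, Ideal.mem_bot] at this
  have hsurj : Function.Surjective q := Ideal.Quotient.mk_surjective
  have hqcomp : ∀ φ φ' : R ⧸ P →ₐ[k] k, φ.comp q = φ'.comp q → φ = φ' := fun φ φ' h =>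
    AlgHom.ext fun x => by
      obtain ⟨r, rfl⟩ := hsurj x
      exact AlgHom.congr_fun h r
  have hfib : ∀ φ₀ : R ⧸ P →ₐ[k] k,
      {φ : R ⧸ P →ₐ[k] k | φ.comp f' = φ₀.comp f'} = {φ₀} := fun φ₀ =>
    Set.eq_singleton_iff_unique_mem.mpr ⟨rfl, fun φ hφ => hqcomp _ _ (hone _ _ hφ)⟩
  have hfibg : ∀ φ₀ : R ⧸ P →ₐ[k] k, {φ : R ⧸ P →ₐ[k] k | φ.comp g' = φ₀.comp g'}.Finite :=
    fun φ₀ => ((hfin (φ₀.comp q)).preimage
      (f := fun φ : R ⧸ P →ₐ[k] k => φ.comp q) fun φ _ φ' _ h => hqcomp φ φ' h).subset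
        fun φ hφ => hφ
  obtain ⟨hfdB, -, eB, heB, hcardB⟩ := exists_degree_eq_fibre (L := FractionRing (R ⧸ P)) f' hf'
    fun φ₀ => hfib φ₀ ▸ Set.finite_singleton _
  obtain ⟨φ₁, hφ₁⟩ := exists_algHom_apply_ne_zero (k := k) (R := R ⧸ P)
    ((map_ne_zero_iff _ hf').mpr heB)
  have hfr1 := (hcardB (φ₁.comp f') hφ₁).symm
  rw [hfib φ₁, Set.ncard_singleton] at hfr1
  have hlift : ∀ ψ : R →ₐ[k] k, ψ (f eB) ≠ 0 → ∃ φ : R ⧸ P →ₐ[k] k, φ.comp q = ψ := fun ψ hψ => by
    have h1 := hcardB (ψ.comp f) hψ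
    rw [hfr1] at h1
    obtain ⟨φ, hφ⟩ := Set.nonempty_of_ncard_ne_zero (by rw [h1]; exact one_ne_zero)
    exact ⟨φ, hone _ _ hφ⟩
  have hg' : Function.Injective g' := by
    have h1 : Algebra.trdeg k g'.range = Algebra.trdeg k (R ⧸ P) :=
      trdeg_eq_of_finite_fibres g'.range.val Subtype.val_injective fun φ₀ =>
        (hfibg φ₀).subset fun φ hφ => AlgHom.ext fun a => AlgHom.congr_fun hφ ⟨g' a, a, rfl⟩
    have h2 : Algebra.trdeg k B = Algebra.trdeg k (R ⧸ P) :=
      trdeg_eq_of_finite_fibres f' hf' fun φ₀ => hfib φ₀ ▸ Set.finite_singleton _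
    have h3 := injective_of_trdeg_eq g'.rangeRestrict g'.rangeRestrict_surjective
      (h1.trans (h2.symm.trans htr.symm))
    exact fun a b h => h3 (Subtype.ext h)
  obtain ⟨hfd, hdvd, eA, heA, hcardA⟩ :=
    exists_degree_eq_fibre (L := FractionRing (R ⧸ P)) g' hg' hfibg
  refine ⟨hf', hg', IntermediateField.finrank_eq_one_iff_eq_top.mp hfr1, hfd, ?_⟩
  -- a point of the first kind over which everything is general
  have hdvdB : ∃ b : B, b ≠ 0 ∧ g' eA ∣ f' b := by
    obtain ⟨-, hd, -⟩ := exists_degree_eq_fibre (L := FractionRing (R ⧸ P)) f' hf'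
      fun φ₀ => hfib φ₀ ▸ Set.finite_singleton _
    exact hd _ ((map_ne_zero_iff _ hg').mpr heA)
  obtain ⟨b, hb, hdb⟩ := hdvdB
  obtain ⟨φ₀, hN, hne⟩ := hcount (eB * b) (mul_ne_zero heB hb) fun χ hχ => by
    have h1 := hcardB χ (mul_ne_zero_iff.mp (by rwa [← map_mul])).1
    rw [hfr1] at h1
    obtain ⟨φ, hφ⟩ := Set.nonempty_of_ncard_ne_zero (by rw [h1]; exact one_ne_zero)
    exact ⟨φ.comp q, hφ⟩
  have hne' : ∀ φ : R →ₐ[k] k, φ.comp g = φ₀.comp g → φ (f eB) ≠ 0 ∧ φ (f b) ≠ 0 := fun φ hφ =>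
    mul_ne_zero_iff.mp (by rw [← map_mul, ← map_mul]; exact hne φ hφ)
  obtain ⟨φ₀', hφ₀'⟩ := hlift φ₀ (hne' φ₀ rfl).1
  have heA' : (φ₀'.comp g') eA ≠ 0 := fun h => by
    obtain ⟨c, hc⟩ := hdb
    refine (hne' φ₀ rfl).2 ?_
    rw [← hφ₀']
    show φ₀' (f' b) = 0
    rw [hc, map_mul]
    exact mul_eq_zero_of_left h _
  rw [← hcardA _ heA', ← hN]
  refine Set.ncard_congr (fun φ _ => φ.comp q) (fun φ hφ => ?_)
    (fun φ φ' _ _ h => hqcomp φ φ' h) fun ψ hψ => ?_
  · rw [← hφ₀']
    exact hφ
  · obtain ⟨φ, rfl⟩ := hlift ψ (hne' ψ hψ).1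
    exact ⟨φ, show φ.comp g' = φ₀'.comp g' by rw [← hφ₀'] at hψ; exact hψ, rfl⟩

end FermatAgent.Torsion27
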