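import Fermat.Agent.Torsion27.Graph
import Mathlib.RingTheory.Ideal.MinimalPrime.Noetherian
import Mathlib.FieldTheory.Minpoly.Field

/-!
# Weights of the multiples and finiteness of the torsion

At every valuation the weight of the `i`-th block is the `i ^ 2`-th power of that of the first
block, up to the value of a fixed element.
-/

set_option autoImplicit false

noncomputable section

open AlgebraicCurve FermatAgent.Curve FermatAgent.MW MvPolynomial

namespace FermatAgent.Torsion27

section Algebraic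

variable {L : Type*} [Field L]

theorem mem_valuationSubring_of_isIntegral {R : Type*} [CommRing R] [Algebra R L]
    {V : ValuationSubring L} (hV : ∀ r : R, algebraMap R L r ∈ V) {x : L} (hx : IsIntegral R x) :
    x ∈ V := by
  obtain ⟨p, hm, hp⟩ := hx
  refine (V.valuation_le_one_iff _).mp (val_le_of_monic le_rfl (hm.map (algebraMap R L))
    (by rwa [Polynomial.eval_map]) fun i _ => ?_)
  rw [Polynomial.coeff_map]
  exact (V.valuation_le_one_iff _).mpr (hV _)

/-- A tuple whose weights are a power of a fixed element consists of algebraic elements. -/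
theorem isAlgebraic_of_wt {K₀ : Type*} [Field K₀] [Algebra K₀ L] {ι : Type*} [Fintype ι]
    {a : ι → L} {j : ι} (hj : a j = 1) {N : ℕ} (hN : 0 < N) {u : L}
    (h : ∀ V : ValuationSubring L, (∀ c : K₀, algebraMap K₀ L c ∈ V) →
      wt V a ^ N * V.valuation u = 1) (i : ι) : IsAlgebraic K₀ (a i) := by
  have hint : IsIntegral K₀ u := isIntegral_of_forall_mem fun V hV => by
    refine (V.valuation_le_one_iff _).mp ?_
    rw [← h V hV]
    exact le_mul_of_one_le_left zero_le (one_le_pow_of_one_le' (one_le_wt hj) N)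
  refine (isIntegral_of_forall_mem fun V hV => (V.valuation_le_one_iff _).mp ?_).isAlgebraic
  have h1 : V.valuation u⁻¹ ≤ 1 :=
    (V.valuation_le_one_iff _).mpr (mem_valuationSubring_of_isIntegral hV hint.inv)
  refine (val_le_wt V a i).trans ?_
  have h2 : wt V a ^ N ≤ 1 := by
    rw [eq_inv_of_mul_eq_one_left (h V hV), ← map_inv₀]
    exact h1
  exact (pow_le_one_iff_of_nonneg zero_le hN.ne').mp h2

end Algebraic

namespace Setup

variable {K F : Type*} [Field K] [Field F] [Algebra K F] [IsAlgClosed K] [IsFunctionField1 K F]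
  [CharZero K] (S : Setup K F) {n : ℕ} {j : Fin (n + 1) → S.T} {L : Type*} [Field L] [Algebra K L]

variable (L) in
/-- The points of the graph over a field. -/
def graphPts (n : ℕ) (j : Fin (n + 1) → S.T) : Set (S.W n → L) :=
  {x | ∀ p ∈ vanishingIdeal K (S.graphSet n j), aeval x p = 0}

theorem mem_graphPts_of_forall {A : Type*} [CommRing A] [Algebra K A] (f : A →ₐ[K] L)
    (v : S.W n → A) (h : ∀ p ∈ vanishingIdeal K (S.graphSet n j), aeval v p = 0) :
    (fun t => f (v t)) ∈ S.graphPts L n j := fun p hp => by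
  rw [← comp_aeval_apply, h p hp, map_zero]

variable {x : S.W n → L} (hx : x ∈ S.graphPts L n j)

include hx

theorem block_mem_conePts (i : Fin (n + 1)) : S.block x i ∈ conePts L S.cone := fun np hnp => by
  have h := hx (rename (Prod.mk i) np.2) fun z hz => by
    rw [aeval_eq_eval, eval_rename]
    exact hnp.2 _ (hz.1 i).1
  rwa [aeval_rename] at h

theorem block_apply_self (i : Fin (n + 1)) : S.block x i (j i) = 1 := by
  have h := hx (X (i, j i) - C 1) fun z hz => by
    simp [aeval_eq_eval, (hz.1 i).2]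
  simpa [block, sub_eq_zero] using h

theorem block_zero_mul (Q : S.T) :
    x (0, Q) * algebraMap K L (S.cd 0 (j 0)) = algebraMap K L (S.cd 0 Q) := by
  have h := hx (X ((0 : Fin (n + 1)), Q) * C (S.cd 0 (j 0)) - C (S.cd 0 Q)) fun z hz => by
    simp [aeval_eq_eval, hz.2.1 Q]
  simpa [sub_eq_zero] using h

theorem block_ne_zero (i : Fin (n + 1)) : S.block x i ≠ 0 := fun h =>
  one_ne_zero ((S.block_apply_self hx i).symm.trans (congrFun h (j i)))

theorem wt_block_zero {V : ValuationSubring L} (hV : OverConst K V) :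
    wt V (S.block x 0) = 1 := by
  refine le_antisymm (wt_le fun Q => ?_) (one_le_wt (S.block_apply_self hx 0))
  have h := S.block_zero_mul hx Q
  have hne : algebraMap K L (S.cd 0 (j 0)) ≠ 0 := fun h0 => by
    obtain ⟨R, hR⟩ := Function.ne_iff.mp (S.cd_ne_zero 0)
    have h1 := S.block_zero_mul hx R
    rw [h0, mul_zero] at h1
    exact hR ((algebraMap K L).injective (h1.symm.trans (map_zero _).symm))
  rw [show S.block x 0 Q = x (0, Q) from rfl, eq_div_of_mul_eq hne h, ← map_div₀]
  exact hV.val_le_one _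

theorem exists_step {p i q o : Fin (n + 1)} (hi : (i : ℕ) = p + 1) (hq : (q : ℕ) = i + 1)
    (ho : (o : ℕ) = 1) : ∃ c : L, c ≠ 0 ∧ ∀ V : ValuationSubring L, OverConst K V →
      wt V (S.block x i) ^ 2 * wt V (S.block x o) ^ 2 =
        V.valuation c * (wt V (S.block x q) * wt V (S.block x p)) := by
  let bf : S.T₀ → L := fun Q => aeval (Sum.elim (S.block x i) (S.block x o)) (S.bilForm Q)
  let pf : S.T₀ → L := fun Q => aeval (Sum.elim (S.block x q) (S.block x p)) (S.prodForm Q)
  have hcross : ∀ Q R, bf Q * pf R = bf R * pf Q := fun Q R => by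
    have h := hx (S.crossPoly p i q o Q R) fun z hz => by
      rw [aeval_eq_eval]
      exact hz.2.2 p i q o hi hq ho Q R
    have e : ∀ a b : Fin (n + 1),
        x ∘ Sum.elim (Prod.mk a) (Prod.mk b) = Sum.elim (S.block x a) (S.block x b) := fun a b => by
      funext t; cases t <;> rfl
    simpa [crossPoly, aeval_rename, e, sub_eq_zero] using h
  have hb : ∀ V : ValuationSubring L, OverConst K V →
      wt V bf = wt V (S.block x i) ^ 2 * wt V (S.block x o) ^ 2 := fun V hV =>
    wt_aeval_eq S.isAlg_cone (isCone_imgSet _ _) S.isAlg_cone (isCone_imgSet _ _) S.bilForm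
      S.aeval_bilForm_smul (fun v hv w hw => S.exists_bilForm_ne_zero hv hw)
      (S.block_mem_conePts hx i) (S.block_mem_conePts hx o) (S.block_ne_zero hx i)
      (S.block_ne_zero hx o) hV
  have hp : ∀ V : ValuationSubring L, OverConst K V →
      wt V pf = wt V (S.block x q) ^ 1 * wt V (S.block x p) ^ 1 := fun V hV =>
    wt_aeval_eq S.isAlg_cone (isCone_imgSet _ _) S.isAlg_cone (isCone_imgSet _ _) S.prodForm
      S.aeval_prodForm_smul (fun v hv w hw => S.exists_prodForm_ne_zero hv hw)
      (S.block_mem_conePts hx q) (S.block_mem_conePts hx p) (S.block_ne_zero hx q)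
      (S.block_ne_zero hx p) hV
  have htop : OverConst K (⊤ : ValuationSubring L) := fun _ => ValuationSubring.mem_top _
  have hne : ∀ a : Fin (n + 1), wt (⊤ : ValuationSubring L) (S.block x a) ≠ 0 := fun a =>
    wt_ne_zero (j := j a) (by rw [S.block_apply_self hx a]; exact one_ne_zero)
  have hzero : ∀ {f : S.T₀ → L}, wt (⊤ : ValuationSubring L) f ≠ 0 → ∃ R, f R ≠ 0 := fun {f} h => by
    by_contra hall
    push Not at hall
    exact h (le_antisymm (wt_le fun R => by rw [hall R, map_zero]) zero_le)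
  obtain ⟨R, hR⟩ := hzero (f := pf) (by rw [hp ⊤ htop]; simp [hne])
  refine ⟨bf R / pf R, fun hc => ?_, fun V hV => ?_⟩
  · rw [div_eq_zero_iff, or_iff_left hR] at hc
    obtain ⟨Q, hQ⟩ := hzero (f := bf) (by rw [hb ⊤ htop]; simp [hne])
    have := hcross Q R
    rw [hc, zero_mul, mul_eq_zero] at this
    exact hR (this.resolve_left hQ)
  · have hbp : bf = (bf R / pf R) • pf := funext fun Q => by
      rw [Pi.smul_apply, smul_eq_mul, div_mul_eq_mul_div, eq_div_iff hR]
      exact hcross Q R
    rw [← hb V hV]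
    conv_lhs => rw [hbp]
    rw [wt_smul, hp V hV, pow_one, pow_one]

/-- The weight of the `i`-th block is the `i ^ 2`-th power of the first one. -/
theorem exists_wt_block (o : Fin (n + 1)) (ho : (o : ℕ) = 1) (i : Fin (n + 1)) :
    ∃ u : L, u ≠ 0 ∧ ∀ V : ValuationSubring L, OverConst K V →
      wt V (S.block x i) = wt V (S.block x o) ^ ((i : ℕ) ^ 2) * V.valuation u := by
  suffices H : ∀ (k : ℕ) (hk : k < n + 1), ∃ u : L, u ≠ 0 ∧ ∀ V : ValuationSubring L,
      OverConst K V →
      wt V (S.block x ⟨k, hk⟩) = wt V (S.block x o) ^ (k ^ 2) * V.valuation u from H i i.2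
  intro k
  induction k using Nat.strong_induction_on with
  | _ k ih =>
    intro hk
    match k with
    | 0 => exact ⟨1, one_ne_zero, fun V hV => by
        rw [map_one, mul_one, zero_pow two_ne_zero, pow_zero]; exact S.wt_block_zero hx hV⟩
    | 1 => exact ⟨1, one_ne_zero, fun V _ => by
        rw [map_one, mul_one, one_pow, pow_one, show (⟨1, hk⟩ : Fin (n + 1)) = o from Fin.ext ho.symm]⟩
    | k + 2 =>
      obtain ⟨u₁, hu₁, h₁⟩ := ih (k + 1) (by omega) (by omega)
      obtain ⟨u₀, hu₀, h₀⟩ := ih k (by omega) (by omega)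
      obtain ⟨c, hc, hstep⟩ := S.exists_step hx (p := ⟨k, by omega⟩) (i := ⟨k + 1, by omega⟩)
        (q := ⟨k + 2, hk⟩) rfl rfl ho
      refine ⟨u₁ ^ 2 / (c * u₀), div_ne_zero (pow_ne_zero _ hu₁) (mul_ne_zero hc hu₀),
        fun V hV => ?_⟩
      have h := hstep V hV
      rw [h₁ V hV, h₀ V hV] at h
      set w := wt V (S.block x o)
      have hw : w ≠ 0 := wt_ne_zero (j := j o) (by rw [S.block_apply_self hx o]; exact one_ne_zero)
      have hcv : V.valuation c ≠ 0 := (map_ne_zero _).mpr hc
      have huv : V.valuation u₀ ≠ 0 := (map_ne_zero _).mpr hu₀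
      refine mul_right_cancel₀ (mul_ne_zero (mul_ne_zero hcv huv) (pow_ne_zero (k ^ 2) hw)) ?_
      calc _ = V.valuation c * (wt V (S.block x ⟨k + 2, hk⟩) * (w ^ (k ^ 2) * V.valuation u₀)) := by
            ac_rfl
        _ = (w ^ ((k + 1) ^ 2) * V.valuation u₁) ^ 2 * w ^ 2 := h.symm
        _ = _ := by
          rw [map_div₀, map_pow, map_mul, mul_pow, ← pow_mul]
          field_simp
          ring_nf
          rw [mul_right_comm, ← pow_add, mul_assoc, ← pow_add, mul_comm]
          congr 2
          ring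

/-- If the last block is that of the zero class then the first block is constant. -/
theorem exists_algebraMap_eq (hn : 1 ≤ n) {o : Fin (n + 1)} (ho : (o : ℕ) = 1)
    (he : ∀ Q, x (Fin.last n, Q) * algebraMap K L (S.cd 0 (j (Fin.last n))) =
      algebraMap K L (S.cd 0 Q)) (Q : S.T) : ∃ c : K, algebraMap K L c = x (o, Q) := by
  set e : Fin (n + 1) := Fin.last n
  have hwe : ∀ V : ValuationSubring L, OverConst K V → wt V (S.block x e) = 1 := fun V hV => by
    refine le_antisymm (wt_le fun Q => ?_) (one_le_wt (S.block_apply_self hx e))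
    have hne : algebraMap K L (S.cd 0 (j e)) ≠ 0 := fun h0 => by
      obtain ⟨R, hR⟩ := Function.ne_iff.mp (S.cd_ne_zero 0)
      have h1 := he R
      rw [h0, mul_zero] at h1
      exact hR ((algebraMap K L).injective (h1.symm.trans (map_zero _).symm))
    rw [show S.block x e Q = x (e, Q) from rfl, eq_div_of_mul_eq hne (he Q), ← map_div₀]
    exact hV.val_le_one _
  obtain ⟨u, -, hwu⟩ := S.exists_wt_block hx o ho e
  have halg := isAlgebraic_of_wt (K₀ := K) (a := S.block x o) (S.block_apply_self hx o)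
    (N := n ^ 2) (pow_pos hn 2) (u := u) fun V hV => by
      rw [← hwe V hV, hwu V hV]; rfl
  exact minpoly.mem_range_of_degree_eq_one K _ (IsAlgClosed.degree_eq_one_of_irreducible _
    (minpoly.irreducible (halg Q).isIntegral))

omit hx

/-- The points of the graph whose last block is that of the zero class. -/
def torsionLocus (n : ℕ) (j : Fin (n + 1) → S.T) : Set (S.W n → K) :=
  {x | x ∈ S.graphSet n j ∧ ∀ Q, x (Fin.last n, Q) * S.cd 0 (j (Fin.last n)) = S.cd 0 Q}

/-- On each component of the torsion locus the first block is constant. -/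
theorem exists_const_mem {n : ℕ} (hn : 1 ≤ n) {j : Fin (n + 1) → S.T} {o : Fin (n + 1)}
    (ho : (o : ℕ) = 1) {P : Ideal (CoordRing (S.torsionLocus n j))} (hP : P.IsPrime) :
    ∃ c : S.T → K, ∀ Q,
      Ideal.Quotient.mk (vanishingIdeal K (S.torsionLocus n j)) (X (o, Q) - C (c Q)) ∈ P := by
  suffices H : ∀ (L : Type _) [Field L] [Algebra K L] (f : CoordRing (S.torsionLocus n j) →ₐ[K] L),
      ∃ c : S.T → K, ∀ Q,
        f (Ideal.Quotient.mk (vanishingIdeal K (S.torsionLocus n j)) (X (o, Q) - C (c Q))) = 0 by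
    obtain ⟨c, hc⟩ := H (FractionRing (CoordRing (S.torsionLocus n j) ⧸ P))
      ((IsScalarTower.toAlgHom K (CoordRing (S.torsionLocus n j) ⧸ P)
        (FractionRing (CoordRing (S.torsionLocus n j) ⧸ P))).comp (Ideal.Quotient.mkₐ K P))
    exact ⟨c, fun Q => Ideal.Quotient.eq_zero_iff_mem.mp
      (IsFractionRing.injective (CoordRing (S.torsionLocus n j) ⧸ P)
        (FractionRing (CoordRing (S.torsionLocus n j) ⧸ P)) ((hc Q).trans (map_zero _).symm))⟩
  intro L _ _ f
  let q := f.comp (Ideal.Quotient.mkₐ K (vanishingIdeal K (S.torsionLocus n j)))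
  have hev : ∀ p, aeval (fun t => q (X t)) p = q p := fun p =>
    (AlgHom.congr_fun (aeval_unique q) p).symm
  have hvan : ∀ p, (∀ z ∈ S.torsionLocus n j, eval z p = 0) → q p = 0 := fun p hp => by
    show f (Ideal.Quotient.mk _ p) = 0
    rw [Ideal.Quotient.eq_zero_iff_mem.mpr fun z hz => by rw [aeval_eq_eval]; exact hp z hz,
      map_zero]
  have hx : (fun t => q (X t)) ∈ S.graphPts L n j := fun p hp => by
    rw [hev]
    exact hvan p fun z hz => by simpa [aeval_eq_eval] using hp z hz.1
  choose c hc using fun Q => S.exists_algebraMap_eq hx hn ho (fun R => by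
    have h := hvan (X (Fin.last n, R) * C (S.cd 0 (j (Fin.last n))) - C (S.cd 0 R)) fun z hz => by
      rw [map_sub, map_mul, eval_X, eval_C, eval_C, hz.2 R, sub_self]
    rwa [map_sub, map_mul, algHom_C, algHom_C, sub_eq_zero] at h) Q
  refine ⟨c, fun Q => ?_⟩
  show q (X (o, Q) - C (c Q)) = 0
  rw [map_sub, algHom_C, hc Q, sub_self]

/-- The torsion is finite. -/
theorem finite_torsion (S : Setup K F) {n : ℕ} (hn : 1 ≤ n) :
    {y : Pic0 K F | n • y = 0}.Finite := by
  classical
  set o : Fin (n + 1) := ⟨1, by omega⟩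
  set e : Fin (n + 1) := Fin.last n
  let Y : (Fin (n + 1) → S.T) → Set (S.W n → K) := fun j => S.torsionLocus n j
  have hY : ∀ j, IsAlg (Y j) := fun j => (S.isAlg_graphSet n j).and (isAlg_forall fun Q =>
    ⟨{X (e, Q) * C (S.cd 0 (j e)) - C (S.cd 0 Q)}, by ext x; simp [e, sub_eq_zero]⟩)
  have key := fun (j : Fin (n + 1) → S.T) (P : Ideal (CoordRing (Y j))) (hP : P.IsPrime) =>
    S.exists_const_mem hn (j := j) (o := o) rfl hP
  choose c hc using key
  have hfin : ∀ (j : Fin (n + 1) → S.T) (v : S.T → K),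
      {y : Pic0 K F | S.cd y (j o) ≠ 0 ∧ (S.cd y (j o))⁻¹ • S.cd y = v}.Finite := fun j v => by
    rcases Set.eq_empty_or_nonempty
      {y : Pic0 K F | S.cd y (j o) ≠ 0 ∧ (S.cd y (j o))⁻¹ • S.cd y = v} with h | ⟨y₀, h₀, hv₀⟩
    · rw [h]; exact Set.finite_empty
    refine (Set.toFinite ({y₀, -y₀} : Set (Pic0 K F))).subset fun y ⟨hy, hv⟩ => ?_
    exact eq_or_eq_neg_of_smul_coord S.isBig' S.large' (inv_ne_zero hy) (hv.trans hv₀.symm)
  refine (Set.finite_iUnion fun j : Fin (n + 1) → S.T =>
    ((minimalPrimes.finite_of_isNoetherianRing (CoordRing (Y j))).dependent_image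
      fun P hP => c j P hP.1.1).biUnion fun v _ => hfin j v).subset fun y hy => ?_
  choose j hj using fun i : Fin (n + 1) => Function.ne_iff.mp (S.cd_ne_zero ((i : ℕ) • y))
  let z : S.W n → K := fun t =>
    (S.cd ((t.1 : ℕ) • y) (j t.1))⁻¹ * S.cd ((t.1 : ℕ) • y) t.2
  have hz : z ∈ S.graphSet n j :=
    (S.mem_graphSet_iff hn).mpr ⟨y, fun i => ⟨hj i, funext fun Q => rfl⟩⟩
  have hzY : z ∈ Y j := ⟨hz, fun Q => by
    have h0 : (n : ℕ) • y = 0 := hy
    have hje := hj e
    simp only [z, e, Fin.val_last, h0] at hje ⊢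
    rw [mul_comm _ (S.cd 0 (j (Fin.last n))), mul_inv_cancel_left₀ hje]⟩
  have := RingHom.ker_isPrime (evalAt hzY).toRingHom
  obtain ⟨P, hP, hPle⟩ := Ideal.exists_minimalPrimes_le (bot_le (a := RingHom.ker (evalAt hzY).toRingHom))
  refine Set.mem_iUnion.mpr ⟨j, Set.mem_biUnion ⟨P, hP, rfl⟩ ⟨by simpa [o] using hj o, funext fun Q => ?_⟩⟩
  have h1 : evalAt hzY (Ideal.Quotient.mk _ (X (o, Q) - C (c j P hP.1.1 Q))) = 0 :=
    hPle (hc j P hP.1.1 Q)
  rw [evalAt_mk, map_sub, eval_X, eval_C, sub_eq_zero] at h1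
  rw [← h1]
  simp [z, o]

end Setup

end FermatAgent.Torsion27
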