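import Fermat.Agent.Torsion27.Dim.Main
import Fermat.Agent.MW.Dominant
import Mathlib.RingTheory.NoetherNormalization

/-!
# The normalised cone
-/

set_option autoImplicit false

noncomputable section

open AlgebraicCurve FermatAgent.Curve MvPolynomial FermatAgent.MW

namespace FermatAgent.Torsion27

universe u v w

variable {K : Type u} [Field K] {σ : Type w}

/-- The form obtained by homogenising with the coordinate `j`. -/
def homogAt (j : σ) (p : MvPolynomial σ K) : MvPolynomial σ K :=
  ∑ i ∈ Finset.range (p.totalDegree + 1), X j ^ (p.totalDegree - i) * homogeneousComponent i p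

theorem isHomogeneous_homogAt (j : σ) (p : MvPolynomial σ K) :
    (homogAt j p).IsHomogeneous p.totalDegree := by
  refine MvPolynomial.IsHomogeneous.sum _ _ _ fun i hi => ?_
  have h := ((isHomogeneous_X K j).pow (p.totalDegree - i)).mul
    (homogeneousComponent_isHomogeneous i p)
  rwa [one_mul, Nat.sub_add_cancel (Nat.lt_succ_iff.mp (Finset.mem_range.mp hi))] at h

theorem eval_homogAt_of_eq_one {j : σ} {x : σ → K} (hx : x j = 1) (p : MvPolynomial σ K) :
    eval x (homogAt j p) = eval x p := by
  conv_rhs => rw [← sum_homogeneousComponent p]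
  simp [homogAt, map_sum, hx]

theorem eval_homogAt {j : σ} {x : σ → K} (hx : x j ≠ 0) (p : MvPolynomial σ K) :
    eval x (homogAt j p) = x j ^ p.totalDegree * eval ((x j)⁻¹ • x) p := by
  have h1 := eval_smul_of_isHomogeneous (isHomogeneous_homogAt j p) (x j) ((x j)⁻¹ • x)
  rw [smul_inv_smul₀ hx, eval_homogAt_of_eq_one (x := (x j)⁻¹ • x) (inv_mul_cancel₀ hx)] at h1
  exact h1

variable {F : Type v} [Field F] [Algebra K F] [IsAlgClosed K] [IsFunctionField1 K F]

/-- The points of the cone with coordinate `j` equal to one. -/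
def normSet (M : Divisor K F) (s : Finset (Place K F)) (j : Fin (rk M) → s) :
    Set ((Fin (rk M) → s) → K) :=
  {x | x ∈ imgSet M s ∧ x j = 1}

theorem inv_smul_coord_mem_normSet {M : Divisor K F} {s : Finset (Place K F)}
    {j : Fin (rk M) → s} {y : Pic0 K F} (hy : coord M s y j ≠ 0) :
    (coord M s y j)⁻¹ • coord M s y ∈ normSet M s j :=
  ⟨smul_mem_imgSet (coord_mem_imgSet M s y) _, inv_mul_cancel₀ hy⟩

theorem inv_smul_mem_normSet {M : Divisor K F} {s : Finset (Place K F)} {j : Fin (rk M) → s}
    {x : (Fin (rk M) → s) → K} (hx : x ∈ imgSet M s) (hxj : x j ≠ 0) :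
    (x j)⁻¹ • x ∈ normSet M s j :=
  ⟨smul_mem_imgSet hx _, inv_mul_cancel₀ hxj⟩

theorem X_notMem_vanishingIdeal_imgSet {M : Divisor K F} {s : Finset (Place K F)}
    {j : Fin (rk M) → s} (hj : ∃ y, coord M s y j ≠ 0) :
    (X j : MvPolynomial (Fin (rk M) → s) K) ∉ vanishingIdeal K (imgSet M s) := fun h => by
  obtain ⟨y, hy⟩ := hj
  exact hy (by simpa using h _ (coord_mem_imgSet M s y))

/-- A form vanishing on the normalised cone vanishes on the cone. -/
theorem isPrime_vanishingIdeal_normSet [CharZero K] {M : Divisor K F} (hM : IsBig M)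
    {s : Finset (Place K F)} (hs : Large M s) {j : Fin (rk M) → s}
    (hj : ∃ y, coord M s y j ≠ 0) : (vanishingIdeal K (normSet M s j)).IsPrime := by
  have hI := isPrime_vanishingIdeal_imgSet hM hs
  refine ⟨fun h => ?_, fun {p q} h => ?_⟩
  · obtain ⟨y, hy⟩ := hj
    have h1 : (1 : MvPolynomial (Fin (rk M) → s) K) ∈ vanishingIdeal K (normSet M s j) := by
      rw [h]; trivial
    exact one_ne_zero (by simpa using h1 _ (inv_smul_coord_mem_normSet hy) : (1 : K) = 0)
  · have hkey : X j * (homogAt j p * homogAt j q) ∈ vanishingIdeal K (imgSet M s) := fun x hx => by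
      rw [aeval_eq_eval]
      rcases eq_or_ne (x j) 0 with h0 | h0
      · simp [h0]
      · have h1 : eval ((x j)⁻¹ • x) p * eval ((x j)⁻¹ • x) q = 0 := by
          simpa [aeval_eq_eval] using h _ (inv_smul_mem_normSet hx h0)
        rw [map_mul, map_mul, eval_homogAt h0, eval_homogAt h0, mul_mul_mul_comm, h1, mul_zero,
          mul_zero]
    have hback : ∀ r, homogAt j r ∈ vanishingIdeal K (imgSet M s) →
        r ∈ vanishingIdeal K (normSet M s j) := fun r hr x hx => by
      rw [aeval_eq_eval, ← eval_homogAt_of_eq_one hx.2]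
      simpa [aeval_eq_eval] using hr x hx.1
    exact (hI.mem_or_mem ((hI.mem_or_mem hkey).resolve_left
      (X_notMem_vanishingIdeal_imgSet hj))).imp (hback p) (hback q)

/-- A function on the normalised cone is non-zero wherever a suitable form is. -/
theorem exists_form_of_ne_zero {M : Divisor K F} {s : Finset (Place K F)} {j : Fin (rk M) → s}
    {f : CoordRing (normSet M s j)} (hf : f ≠ 0) :
    ∃ (n : ℕ) (p : MvPolynomial (Fin (rk M) → s) K), p.IsHomogeneous n ∧
      (∃ x ∈ imgSet M s, eval x p ≠ 0) ∧
      ∀ y : Pic0 K F, eval (coord M s y) p ≠ 0 →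
        ∃ hy : coord M s y j ≠ 0, evalAt (inv_smul_coord_mem_normSet hy) f ≠ 0 := by
  obtain ⟨r, rfl⟩ := Ideal.Quotient.mk_surjective f
  refine ⟨1 + r.totalDegree, X j * homogAt j r,
    (isHomogeneous_X K j).mul (isHomogeneous_homogAt j r), ?_, fun y hy => ?_⟩
  · by_contra hall
    push Not at hall
    refine hf (Ideal.Quotient.eq_zero_iff_mem.mpr fun x hx => ?_)
    have := hall x hx.1
    rw [map_mul, eval_X, hx.2, one_mul, eval_homogAt_of_eq_one hx.2] at this
    rwa [aeval_eq_eval]
  · rw [map_mul, eval_X, mul_ne_zero_iff] at hy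
    refine ⟨hy.1, ?_⟩
    rw [evalAt_mk]
    exact fun h => hy.2 (by rw [eval_homogAt hy.1, h, mul_zero])

/-- **The dimension of the normalised cone.** -/
theorem trdeg_coordRing_normSet [CharZero K] {M : Divisor K F} (hM : IsBig M)
    {s : Finset (Place K F)} (hs : Large M s) {j : Fin (rk M) → s}
    (hj : ∃ y, coord M s y j ≠ 0) :
    Algebra.trdeg K (CoordRing (normSet M s j)) = (genusFF K F : Cardinal) := by
  classical
  have hI := isPrime_vanishingIdeal_imgSet hM hs
  have := isPrime_vanishingIdeal_normSet hM hs hj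
  have hA := trdeg_coordRing_imgSet hM hs
  set Z := imgSet M s
  set N := normSet M s j
  -- restriction
  have hle : vanishingIdeal K Z ≤ vanishingIdeal K N := fun p hp x hx => hp x hx.1
  let res : CoordRing Z →ₐ[K] CoordRing N := Ideal.Quotient.factorₐ K hle
  have hres : Function.Surjective res := Ideal.Quotient.factor_surjective hle
  -- the cone over the normalised cone
  let Φ₀ : MvPolynomial (Fin (rk M) → s) K →ₐ[K] Polynomial (CoordRing N) :=
    aeval fun i => Polynomial.C (Ideal.Quotient.mk (vanishingIdeal K N) (X i)) * Polynomial.X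
  have hΦ₀ : ∀ (p : MvPolynomial (Fin (rk M) → s) K) (x) (hx : x ∈ N) (c : K),
      (Polynomial.map (evalAt hx).toRingHom (Φ₀ p)).eval c = eval (c • x) p := by
    intro p x hx c
    induction p using MvPolynomial.induction_on with
    | C a =>
      rw [eval_C, MvPolynomial.algHom_C,
        IsScalarTower.algebraMap_apply K (CoordRing N) (Polynomial (CoordRing N)),
        Polynomial.algebraMap_apply, Polynomial.map_C, Polynomial.eval_C, Algebra.algebraMap_self,
        RingHom.id_apply]
      exact (evalAt hx).commutes a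
    | add p q hp hq => rw [map_add, Polynomial.map_add, Polynomial.eval_add, hp, hq, map_add]
    | mul_X p i hp =>
      rw [map_mul, Polynomial.map_mul, Polynomial.eval_mul, hp, map_mul]
      congr 1
      simp only [Φ₀, aeval_X, Polynomial.map_mul, Polynomial.map_C, Polynomial.map_X,
        Polynomial.eval_mul, Polynomial.eval_C, Polynomial.eval_X, eval_X, Pi.smul_apply,
        smul_eq_mul]
      show evalAt hx (Ideal.Quotient.mk _ (X i)) * c = _
      rw [evalAt_mk, eval_X, mul_comm]
  have hker : ∀ p, Φ₀ p = 0 ↔ p ∈ vanishingIdeal K Z := fun p => by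
    constructor
    · intro h
      have h1 : X j * p ∈ vanishingIdeal K Z := fun x hx => by
        rw [aeval_eq_eval, map_mul, eval_X]
        rcases eq_or_ne (x j) 0 with h0 | h0
        · rw [h0, zero_mul]
        · have h2 := hΦ₀ p _ (inv_smul_mem_normSet hx h0) (x j)
          rw [h, Polynomial.map_zero, Polynomial.eval_zero, smul_inv_smul₀ h0] at h2
          rw [← h2, mul_zero]
      exact (hI.mem_or_mem h1).resolve_left (X_notMem_vanishingIdeal_imgSet hj)
    · intro h
      refine Polynomial.ext fun m => coordRing_ext fun x hx => ?_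
      have h2 : Polynomial.map (evalAt hx).toRingHom (Φ₀ p) = 0 := Polynomial.funext fun c => by
        rw [Polynomial.eval_zero, hΦ₀]
        simpa [aeval_eq_eval] using h _ (smul_mem_imgSet hx.1 c)
      have h3 := congrArg (fun q => Polynomial.coeff q m) h2
      simp only [Polynomial.coeff_map, Polynomial.coeff_zero] at h3
      rw [Polynomial.coeff_zero, map_zero]
      exact h3
  let Φ : CoordRing Z →ₐ[K] Polynomial (CoordRing N) :=
    Ideal.Quotient.liftₐ _ Φ₀ fun p hp => (hker p).mpr hp
  have hΦ : Function.Injective Φ := (injective_iff_map_eq_zero Φ).mpr fun a ha => by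
    obtain ⟨p, rfl⟩ := Ideal.Quotient.mk_surjective a
    exact Ideal.Quotient.eq_zero_iff_mem.mpr ((hker p).mp ha)
  have hpoly : Algebra.trdeg K (Polynomial (CoordRing N)) = Algebra.trdeg K (CoordRing N) + 1 := by
    rw [← trdeg_add_eq K (CoordRing N) (A := Polynomial (CoordRing N)),
      Polynomial.trdeg_of_isDomain]
  have h1 : Algebra.trdeg K (CoordRing Z) ≤ Algebra.trdeg K (Polynomial (CoordRing N)) :=
    trdeg_le_of_injective (R := K) Φ hΦ
  have h2 := trdeg_le_of_surjective res hres
  rw [hA] at h2
  obtain ⟨m, hm⟩ := Cardinal.lt_aleph0.mp (h2.trans_lt Cardinal.natCast_lt_aleph0)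
  have h3 : Algebra.trdeg K (CoordRing N) ≠ ((genusFF K F + 1 : ℕ) : Cardinal) := fun he => by
    obtain ⟨y, hy⟩ := hj
    have hinj := injective_of_trdeg_eq res hres (he.trans hA.symm)
    have h0 : res (Ideal.Quotient.mk _ (X j - 1)) = 0 :=
      Ideal.Quotient.eq_zero_iff_mem.mpr fun x hx => by simp [hx.2]
    have h4 := Ideal.Quotient.eq_zero_iff_mem.mp (hinj (h0.trans (map_zero res).symm))
      _ (smul_mem_imgSet (coord_mem_imgSet M s y) 0)
    simp at h4
  rw [hpoly, hA, hm] at h1
  rw [hm] at h2 h3 ⊢
  norm_cast at h1 h2 h3 ⊢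
  omega

/-- Noether normalisation of the normalised cone. -/
theorem exists_noether_normSet [CharZero K] {M : Divisor K F} (hM : IsBig M)
    {s : Finset (Place K F)} (hs : Large M s) {j : Fin (rk M) → s}
    (hj : ∃ y, coord M s y j ≠ 0) :
    ∃ t : Fin (genusFF K F) → CoordRing (normSet M s j),
      AlgebraicIndependent K t ∧ (aeval (R := K) t).toRingHom.IsIntegral := by
  classical
  have := isPrime_vanishingIdeal_normSet hM hs hj
  obtain ⟨n, φ, hφ, hint⟩ := exists_integral_inj_algHom_of_fg K (CoordRing (normSet M s j))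
  have hai : AlgebraicIndependent K fun i : Fin n => φ (X i) := by
    rw [algebraicIndependent_iff_injective_aeval, show (fun i => φ (X i)) = ⇑φ ∘ X from rfl,
      ← MvPolynomial.aeval_unique φ]
    exact hφ
  have hn : n = genusFF K F := by
    let := φ.toRingHom.toAlgebra
    have : IsScalarTower K (MvPolynomial (Fin n) K) (CoordRing (normSet M s j)) :=
      IsScalarTower.of_algebraMap_eq fun c => (φ.commutes c).symm
    have : FaithfulSMul (MvPolynomial (Fin n) K) (CoordRing (normSet M s j)) :=
      (faithfulSMul_iff_algebraMap_injective _ _).mpr hφ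
    have : Algebra.IsIntegral (MvPolynomial (Fin n) K) (CoordRing (normSet M s j)) := ⟨hint⟩
    have h := lift_trdeg_add_eq K (MvPolynomial (Fin n) K) (CoordRing (normSet M s j))
    have h0 : Algebra.trdeg (MvPolynomial (Fin n) K) (CoordRing (normSet M s j)) = 0 := by
      obtain ⟨t, ht⟩ := exists_isTranscendenceBasis (MvPolynomial (Fin n) K)
        (CoordRing (normSet M s j))
      have := (ht.isEmpty_iff_isAlgebraic).mpr inferInstance
      rw [← ht.cardinalMk_eq_trdeg, Cardinal.mk_eq_zero]
    rw [h0, MvPolynomial.trdeg_of_isDomain, trdeg_coordRing_normSet hM hs hj] at h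
    simpa using h
  subst hn
  refine ⟨fun i => φ (X i), hai, ?_⟩
  rw [show (fun i => φ (X i)) = ⇑φ ∘ X from rfl, ← MvPolynomial.aeval_unique φ]
  exact hint

end FermatAgent.Torsion27
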