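import Fermat.Agent.Torsion27.Graph
import Fermat.Agent.Torsion27.DegreeGen
import Fermat.Agent.Torsion27.Avoid
import Fermat.Agent.Torsion27.Norm
import Fermat.Agent.Torsion27.GraphWeight

/-!
# The degree of multiplication by `n` on normalised coordinates is the number of `n`-torsion points
-/

set_option autoImplicit false

noncomputable section

open AlgebraicCurve FermatAgent.Curve FermatAgent.MW MvPolynomial

namespace FermatAgent.Torsion27

section Algebra

variable {k : Type*} [Field k] {σ τ : Type*}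

/-- Pulling functions back along a change of variables. -/
def pullHom {Z : Set (σ → k)} {W : Set (τ → k)} (e : τ → σ) (h : ∀ x ∈ Z, x ∘ e ∈ W) :
    CoordRing W →ₐ[k] CoordRing Z :=
  Ideal.Quotient.liftₐ _ ((Ideal.Quotient.mkₐ k (vanishingIdeal k Z)).comp (rename e))
    fun p hp => Ideal.Quotient.eq_zero_iff_mem.mpr fun x hx => by
      show aeval x (rename e p) = 0
      rw [aeval_rename]
      exact hp _ (h x hx)

end Algebra

variable {K F : Type*} [Field K] [Field F] [Algebra K F] [IsAlgClosed K] [IsFunctionField1 K F]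

namespace Setup

variable (S : Setup K F)

/-- The classes with all normalisations defined. -/
def goodClasses (n : ℕ) (j : Fin (n + 1) → S.T) : Set (Pic0 K F) :=
  {y | ∀ i : Fin (n + 1), S.cd ((i : ℕ) • y) (j i) ≠ 0}

/-- The indices can be chosen so that the good classes are dense. -/
theorem exists_dense_index [CharZero K] (hg : 1 ≤ genusFF K F) (n : ℕ) :
    ∃ j : Fin (n + 1) → S.T, ∀ (p : MvPolynomial S.T K) (d : ℕ), p.IsHomogeneous d →
      (∀ y ∈ S.goodClasses n j, eval (S.cd y) p = 0) → ∀ x ∈ S.cone, eval x p = 0 := by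
  classical
  by_contra hcon
  push Not at hcon
  choose p d hp hp0 x hx hne using hcon
  obtain ⟨y, -, hy⟩ := exists_forall_eval_ne_zero hg S.isBig' (s := S.s') p d hp
    (fun j => ⟨x j, hx j, hne j⟩) (fun _ => 0) Set.finite_empty
  choose j hj using fun i : Fin (n + 1) => Function.ne_iff.mp (S.cd_ne_zero ((i : ℕ) • y))
  exact hy j (by rw [add_zero]; exact hp0 j y hj)

variable [CharZero K]

/-- The block as a point of the normalised cone. -/
theorem block_mem {n : ℕ} {j : Fin (n + 1) → S.T} (i : Fin (n + 1)) :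
    ∀ x ∈ S.graphSet n j, x ∘ Prod.mk i ∈ normSet (S.M + S.G₀) S.s' (j i) :=
  fun _ hx => hx.1 i

/-- The coordinate ring of a normalised cone. -/
abbrev BlockRing (j : S.T) : Type _ := CoordRing (normSet (S.M + S.G₀) S.s' j)

/-- The inclusion of the functions of one block. -/
def blockHom {n : ℕ} (j : Fin (n + 1) → S.T) (i : Fin (n + 1)) :
    S.BlockRing (j i) →ₐ[K] CoordRing (S.graphSet n j) :=
  pullHom (Prod.mk i) (S.block_mem i)

/-- The tuple of a class. -/
def tupleOf (n : ℕ) (j : Fin (n + 1) → S.T) (y : Pic0 K F) : S.W n → K :=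
  fun w => (S.cd ((w.1 : ℕ) • y) (j w.1))⁻¹ * S.cd ((w.1 : ℕ) • y) w.2

theorem tupleOf_mem {n : ℕ} (hn : 1 ≤ n) {j : Fin (n + 1) → S.T} {y : Pic0 K F}
    (hy : y ∈ S.goodClasses n j) : S.tupleOf n j y ∈ S.graphSet n j :=
  (S.mem_graphSet_iff hn).mpr ⟨y, fun i => ⟨hy i, rfl⟩⟩

/-- Every point of the coordinate ring is a tuple of a good class. -/
theorem exists_class_of_algHom {n : ℕ} (hn : 1 ≤ n) {j : Fin (n + 1) → S.T}
    (φ : CoordRing (S.graphSet n j) →ₐ[K] K) : ∃ y ∈ S.goodClasses n j,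
      ∀ p, φ (Ideal.Quotient.mk _ p) = eval (S.tupleOf n j y) p := by
  obtain ⟨x, hx, hφ⟩ := exists_point_of_algHom (S.isAlg_graphSet n j) φ
  obtain ⟨y, hy⟩ := (S.mem_graphSet_iff hn).mp hx
  refine ⟨y, fun i => (hy i).1, fun p => ?_⟩
  rw [hφ, show S.tupleOf n j y = x from funext fun w => (congrFun (hy w.1).2 w.2).symm]

/-- Points with proportional coordinates in one block. -/
theorem comp_blockHom_eq_iff {n : ℕ} {j : Fin (n + 1) → S.T} (i : Fin (n + 1))
    (φ φ' : CoordRing (S.graphSet n j) →ₐ[K] K) {y y' : Pic0 K F}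
    (hy : y ∈ S.goodClasses n j) (hy' : y' ∈ S.goodClasses n j)
    (hφ : ∀ p, φ (Ideal.Quotient.mk _ p) = eval (S.tupleOf n j y) p)
    (hφ' : ∀ p, φ' (Ideal.Quotient.mk _ p) = eval (S.tupleOf n j y') p) :
    φ.comp (S.blockHom j i) = φ'.comp (S.blockHom j i) ↔
      (i : ℕ) • y = (i : ℕ) • y' ∨ (i : ℕ) • y = -((i : ℕ) • y') := by
  have e : φ.comp (S.blockHom j i) = φ'.comp (S.blockHom j i) ↔
      ∀ Q, S.tupleOf n j y (i, Q) = S.tupleOf n j y' (i, Q) := by
    constructor
    · intro h Q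
      have hX := AlgHom.congr_fun h (Ideal.Quotient.mk _ (X Q))
      simp only [AlgHom.comp_apply, blockHom, pullHom] at hX
      erw [hφ, hφ'] at hX
      simpa using hX
    · intro h
      refine AlgHom.ext fun a => ?_
      obtain ⟨p, rfl⟩ := Ideal.Quotient.mk_surjective a
      show φ (Ideal.Quotient.mk _ (rename (Prod.mk i) p)) =
        φ' (Ideal.Quotient.mk _ (rename (Prod.mk i) p))
      rw [hφ, hφ', eval_rename, eval_rename]
      exact congrArg (fun v => eval v p) (funext h)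
  rw [e]
  constructor
  · intro h
    exact eq_or_eq_neg_of_smul_coord S.isBig' S.large'
      (c' := (S.cd ((i : ℕ) • y') (j i))⁻¹) (inv_ne_zero (hy i)) (funext fun Q => h Q)
  · intro h Q
    rcases h with h | h
    · simp only [tupleOf, h]
    · obtain ⟨a, ha, hneg⟩ := sameLine_coord_neg S.isBig' S.s' ((i : ℕ) • y')
      have hne := hy' i
      simp only [tupleOf, h,
        show S.cd (-((i : ℕ) • y')) = a • S.cd ((i : ℕ) • y') from hneg, Pi.smul_apply, smul_eq_mul]
      field_simp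

/-- The function fields of the normalised cones in the graph of multiplication by `n`. -/
theorem exists_degrees (hg : 1 ≤ genusFF K F) {n : ℕ} (hn : 1 ≤ n) {o : Fin (n + 1)}
    (ho : (o : ℕ) = 1) :
    ∃ (j : Fin (n + 1) → S.T) (P : Ideal (CoordRing (S.graphSet n j))) (_ : P.IsPrime),
      Function.Injective ((Ideal.Quotient.mkₐ K P).comp (S.blockHom j o)) ∧
      Function.Injective ((Ideal.Quotient.mkₐ K P).comp (S.blockHom j (Fin.last n))) ∧
      IntermediateField.adjoin K (Set.range ((IsScalarTower.toAlgHom K (CoordRing (S.graphSet n j) ⧸ P)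
        (FractionRing (CoordRing (S.graphSet n j) ⧸ P))).comp
          ((Ideal.Quotient.mkₐ K P).comp (S.blockHom j o)))) = ⊤ ∧
      FiniteDimensional (IntermediateField.adjoin K (Set.range
        ((IsScalarTower.toAlgHom K (CoordRing (S.graphSet n j) ⧸ P)
        (FractionRing (CoordRing (S.graphSet n j) ⧸ P))).comp
          ((Ideal.Quotient.mkₐ K P).comp (S.blockHom j (Fin.last n))))))
        (FractionRing (CoordRing (S.graphSet n j) ⧸ P)) ∧
      Module.finrank (IntermediateField.adjoin K (Set.range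
        ((IsScalarTower.toAlgHom K (CoordRing (S.graphSet n j) ⧸ P)
        (FractionRing (CoordRing (S.graphSet n j) ⧸ P))).comp
          ((Ideal.Quotient.mkₐ K P).comp (S.blockHom j (Fin.last n))))))
        (FractionRing (CoordRing (S.graphSet n j) ⧸ P)) = {t : Pic0 K F | n • t = 0}.ncard := by
  classical
  have hfin : {t : Pic0 K F | n • t = 0}.Finite := finite_torsion S hn
  have hfin2 : {t : Pic0 K F | (2 * n) • t = 0}.Finite := finite_torsion S (by omega)
  obtain ⟨j, hj⟩ := S.exists_dense_index hg n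
  have hne : ∃ y, y ∈ S.goodClasses n j := by
    by_contra h
    push Not at h
    exact one_ne_zero (by
      simpa using hj 1 0 (isHomogeneous_one _ _) (fun y hy => absurd hy (h y)) _
        (coord_mem_imgSet _ _ (0 : Pic0 K F)) : (1 : K) = 0)
  obtain ⟨y₁, hy₁⟩ := hne
  have hex : ∀ i : Fin (n + 1), ∃ y, S.cd y (j i) ≠ 0 := fun i => ⟨_, hy₁ i⟩
  have hlast : ((Fin.last n : Fin (n + 1)) : ℕ) = n := Fin.val_last n
  have := isPrime_vanishingIdeal_normSet S.isBig' S.large' (hex o)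
  have := isPrime_vanishingIdeal_normSet S.isBig' S.large' (hex (Fin.last n))
  -- a form attached to a function on the first block
  have hform : ∀ b : S.BlockRing (j o), b ≠ 0 → ∃ (p : MvPolynomial S.T K) (d : ℕ),
      p.IsHomogeneous d ∧ (∃ x ∈ S.cone, eval x p ≠ 0) ∧ ∀ y, eval (S.cd y) p ≠ 0 →
        ∃ h : (S.cd y (j o))⁻¹ • S.cd y ∈ normSet (S.M + S.G₀) S.s' (j o), evalAt h b ≠ 0 := by
    intro b hb
    obtain ⟨d, p, hp, hp0, hpy⟩ := exists_form_of_ne_zero hb
    refine ⟨p, d, hp, hp0, fun y hy => ?_⟩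
    obtain ⟨hy0, h⟩ := hpy y hy
    exact ⟨inv_smul_coord_mem_normSet hy0, h⟩
  have hblock : ∀ (y : Pic0 K F) (hy : y ∈ S.goodClasses n j) (b : S.BlockRing (j o))
      (φ : CoordRing (S.graphSet n j) →ₐ[K] K),
      (∀ p, φ (Ideal.Quotient.mk _ p) = eval (S.tupleOf n j y) p) →
      ∀ h : (S.cd y (j o))⁻¹ • S.cd y ∈ normSet (S.M + S.G₀) S.s' (j o),
        φ (S.blockHom j o b) = evalAt h b := by
    intro y hy b φ hφ h
    obtain ⟨q, rfl⟩ := Ideal.Quotient.mk_surjective b
    show φ (Ideal.Quotient.mk _ (rename (Prod.mk o) q)) = _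
    rw [hφ, evalAt_mk, eval_rename]
    refine congrArg (fun v => eval v q) (funext fun Q => ?_)
    simp only [Function.comp_apply, tupleOf, ho, one_nsmul, Pi.smul_apply, smul_eq_mul]
  have hpt : ∀ y ∈ S.goodClasses n j, ∃ φ : CoordRing (S.graphSet n j) →ₐ[K] K,
      ∀ p, φ (Ideal.Quotient.mk _ p) = eval (S.tupleOf n j y) p := fun y hy =>
    ⟨evalAt (S.tupleOf_mem hn hy), fun p => evalAt_mk _ p⟩
  have hinj : Function.Injective (S.blockHom j o) := by
    refine (injective_iff_map_eq_zero _).mpr fun b hb => by_contra fun hb0 => ?_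
    obtain ⟨p, d, hp, ⟨x, hx, hxp⟩, hpy⟩ := hform b hb0
    refine hxp (hj p d hp (fun y hy => by_contra fun hne' => ?_) x hx)
    obtain ⟨h, hh⟩ := hpy y hne'
    obtain ⟨φ, hφ⟩ := hpt y hy
    exact hh (by rw [← hblock y hy b φ hφ h, hb, map_zero])
  have hone : ∀ φ φ' : CoordRing (S.graphSet n j) →ₐ[K] K,
      φ.comp (S.blockHom j o) = φ'.comp (S.blockHom j o) → φ = φ' := by
    intro φ φ' h
    obtain ⟨y, hy, hφ⟩ := S.exists_class_of_algHom hn φ
    obtain ⟨y', hy', hφ'⟩ := S.exists_class_of_algHom hn φ'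
    rw [S.comp_blockHom_eq_iff o φ φ' hy hy' hφ hφ', ho, one_nsmul, one_nsmul] at h
    refine AlgHom.ext fun a => ?_
    obtain ⟨p, rfl⟩ := Ideal.Quotient.mk_surjective a
    rw [hφ, hφ']
    refine congrArg (fun v => eval v p) (S.eq_of_block_one hn (S.tupleOf_mem hn hy)
      (S.tupleOf_mem hn hy') ho (funext fun Q => ?_))
    rcases h with rfl | rfl
    · rfl
    · obtain ⟨a, ha, hneg⟩ := sameLine_coord_neg S.isBig' S.s' y'
      have h1 := hy' o
      rw [ho, one_nsmul] at h1
      simp only [block, tupleOf, ho, one_nsmul,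
        show S.cd (-y') = a • S.cd y' from hneg, Pi.smul_apply, smul_eq_mul]
      field_simp
  choose cls hcls hclsφ using fun φ => S.exists_class_of_algHom hn (j := j) φ
  have hclsinj : Function.Injective cls := fun φ φ' h => AlgHom.ext fun a => by
    obtain ⟨p, rfl⟩ := Ideal.Quotient.mk_surjective a
    rw [hclsφ, hclsφ, h]
  have hn' : ∀ φ φ' : CoordRing (S.graphSet n j) →ₐ[K] K,
      φ.comp (S.blockHom j (Fin.last n)) = φ'.comp (S.blockHom j (Fin.last n)) ↔
        n • cls φ = n • cls φ' ∨ n • cls φ = -(n • cls φ') := fun φ φ' => by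
    rw [S.comp_blockHom_eq_iff (Fin.last n) φ φ' (hcls φ) (hcls φ') (hclsφ φ) (hclsφ φ'), hlast]
  have hfib : ∀ φ₀ : CoordRing (S.graphSet n j) →ₐ[K] K,
      {φ : CoordRing (S.graphSet n j) →ₐ[K] K |
      φ.comp (S.blockHom j (Fin.last n)) = φ₀.comp (S.blockHom j (Fin.last n))}.Finite := by
    intro φ₀
    refine Set.Finite.of_finite_image ((((hfin.image fun t => cls φ₀ + t)).union
      (hfin.image fun t => -cls φ₀ + t)).subset ?_) hclsinj.injOn
    rintro _ ⟨φ, hφ, rfl⟩
    rcases (hn' φ φ₀).mp hφ with h | h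
    · exact Or.inl ⟨cls φ - cls φ₀, by simp [nsmul_sub, h], by simp⟩
    · exact Or.inr ⟨cls φ + cls φ₀, by simp [nsmul_add, h], by simp⟩
  refine ⟨j, exists_prime_degrees (k := K) (S.blockHom j o) (S.blockHom j (Fin.last n)) hinj
    ((trdeg_coordRing_normSet S.isBig' S.large' (hex (Fin.last n))).trans
      (trdeg_coordRing_normSet S.isBig' S.large' (hex o)).symm) hone hfib fun b hb hpoints => ?_⟩
  obtain ⟨p, d, hp, hp0, hpy⟩ := hform b hb
  have : Finite {t : Pic0 K F | n • t = 0} := hfin.to_subtype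
  obtain ⟨y₀, hy₀S, hy₀⟩ := exists_forall_eval_ne_zero hg S.isBig' (s := S.s')
    (fun _ : {t : Pic0 K F | n • t = 0} => p) (fun _ => d) (fun _ => hp) (fun _ => hp0)
    (fun t => (t : Pic0 K F)) hfin2
  have hkey : ∀ t : {t : Pic0 K F | n • t = 0},
      ∃ φ : CoordRing (S.graphSet n j) →ₐ[K] K,
        (cls φ = y₀ + t ∨ cls φ = -(y₀ + t)) ∧ φ (S.blockHom j o b) ≠ 0 := by
    intro t
    obtain ⟨h, hh⟩ := hpy (y₀ + t) (hy₀ t)
    obtain ⟨φ, hφ⟩ := hpoints (evalAt h) hh
    refine ⟨φ, ?_, by rwa [← AlgHom.comp_apply, hφ]⟩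
    have h1 : ∀ Q, S.tupleOf n j (cls φ) (o, Q) = ((S.cd (y₀ + t) (j o))⁻¹ • S.cd (y₀ + t)) Q :=
      fun Q => by
        have hX := AlgHom.congr_fun hφ (Ideal.Quotient.mk _ (X Q))
        rw [evalAt_mk, eval_X] at hX
        rw [← hX]
        show _ = φ (Ideal.Quotient.mk _ (rename (Prod.mk o) (X Q)))
        rw [hclsφ, eval_rename, eval_X]
        rfl
    refine eq_or_eq_neg_of_smul_coord S.isBig' S.large' (c := (S.cd (cls φ) (j o))⁻¹)
      (c' := (S.cd (y₀ + t) (j o))⁻¹) (inv_ne_zero ?_) (funext fun Q => ?_)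
    · have := hcls φ o
      rwa [ho, one_nsmul] at this
    · have := h1 Q
      simp only [tupleOf, ho, one_nsmul] at this
      exact this
  choose pt hpt' hptb using hkey
  have hzero : n • (0 : Pic0 K F) = 0 := nsmul_zero n
  have hfibre : ∀ φ : CoordRing (S.graphSet n j) →ₐ[K] K,
      φ.comp (S.blockHom j (Fin.last n)) = (pt ⟨0, hzero⟩).comp (S.blockHom j (Fin.last n)) →
        ∃ (t : Pic0 K F) (ht : n • t = 0), pt ⟨t, ht⟩ = φ := fun φ hφ => by
    have hc := (hn' φ (pt ⟨0, hzero⟩)).mp hφ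
    have hc' : n • cls φ = n • y₀ ∨ n • cls φ = -(n • y₀) := by
      rcases hpt' ⟨0, hzero⟩ with e | e <;> rw [e] at hc <;>
        simpa [neg_nsmul, or_comm] using hc
    obtain ⟨t, ht, hφt⟩ : ∃ t, n • t = 0 ∧ (cls φ = y₀ + t ∨ cls φ = -(y₀ + t)) := by
      rcases hc' with h | h
      · exact ⟨cls φ - y₀, by rw [nsmul_sub, h, sub_self], Or.inl (by abel)⟩
      · exact ⟨-cls φ - y₀, by rw [nsmul_sub, neg_nsmul, h, neg_neg, sub_self], Or.inr (by abel)⟩
    refine ⟨t, ht, hone _ _ ?_⟩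
    rw [S.comp_blockHom_eq_iff o _ _ (hcls _) (hcls φ) (hclsφ _) (hclsφ φ), ho, one_nsmul,
      one_nsmul]
    rcases hpt' ⟨t, ht⟩ with e | e <;> rcases hφt with e' | e' <;> rw [e, e'] <;> simp
  refine ⟨pt ⟨0, hzero⟩, ?_, fun φ hφ => ?_⟩
  · refine (Set.ncard_congr (fun t ht => pt ⟨t, ht⟩) (fun t ht => ?_) ?_ fun φ hφ => ?_).symm
    · refine (hn' _ _).mpr ?_
      have h0 : n • t = 0 := ht
      rcases hpt' ⟨t, ht⟩ with h | h <;> rcases hpt' ⟨0, hzero⟩ with h' | h' <;>
        simp [h, h', nsmul_add, neg_nsmul, h0]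
    · intro t t' ht ht' h
      have h0 : n • t = 0 := ht
      have h0' : n • t' = 0 := ht'
      have hbad : y₀ + t ≠ -(y₀ + t') := fun hc => hy₀S <| by
        show (2 * n) • y₀ = 0
        have h2 : n • (y₀ + t) = n • -(y₀ + t') := congrArg (n • ·) hc
        rw [nsmul_add, neg_nsmul, nsmul_add, h0, h0', add_zero] at h2
        rw [mul_comm, mul_nsmul, two_nsmul]
        exact eq_neg_iff_add_eq_zero.mp h2
      rcases hpt' ⟨t, ht⟩ with e | e <;> rcases hpt' ⟨t', ht'⟩ with e' | e' <;>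
        rw [h] at e <;> rw [e] at e'
      · exact add_left_cancel e'
      · exact absurd e' hbad
      · exact absurd (neg_eq_iff_eq_neg.mp e') hbad
      · exact add_left_cancel (neg_injective e')
    · obtain ⟨t, ht, rfl⟩ := hfibre φ hφ
      exact ⟨t, ht, rfl⟩
  · obtain ⟨t, ht, rfl⟩ := hfibre φ hφ
    exact hptb ⟨t, ht⟩

end Setup

end FermatAgent.Torsion27
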