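import Fermat.Agent.Torsion27.Compare
import Mathlib.FieldTheory.IntermediateField.Adjoin.Basic
import Mathlib.RingTheory.Algebraic.Integral
import Mathlib.FieldTheory.Perfect

/-!
# Degree and weight data of a Noether normalisation

For an affine domain `B` with generators `x`, `x j = 1`, and a Noether normalisation `t`, the
tuples `x` and `(1, t)` bound each other in every extension field, and an embedding of `B` into a
field gives an embedding of the rational functions of multiplied degree.
-/

set_option autoImplicit false

noncomputable section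

open MvPolynomial

namespace FermatAgent.Torsion27

universe uK uB uL

variable {K : Type uK} [Field K] {g : ℕ}

local notation "P" => MvPolynomial (Fin g) K
local notation "E" => FractionRing (MvPolynomial (Fin g) K)

/-- Mutual bounds of generators and of a normalisation, uniformly in the extension field. -/
theorem exists_exponent {B : Type uB} [CommRing B] [Algebra K B] {ι : Type*} [Fintype ι]
    (x : ι → B) (hx : Function.Surjective (aeval x : MvPolynomial ι K →ₐ[K] B)) {j : ι}
    (hj : x j = 1) (t : Fin g → B) (ht : (aeval t : P →ₐ[K] B).toRingHom.IsIntegral) :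
    ∃ e : ℕ, ∀ (L : Type uL) [Field L] [Algebra K L] (φ : B →ₐ[K] L),
      (∀ i, φ (x i) ∈ growth K (fun o : Option (Fin g) => o.elim 1 fun l => φ (t l)) e) ∧
        ∀ o : Option (Fin g),
          (fun o : Option (Fin g) => o.elim 1 fun l => φ (t l)) o ∈ growth K (fun i => φ (x i)) e := by
  classical
  choose p hp using fun l => hx (t l)
  choose q hqm hq using fun i => ht (x i)
  set e₁ := Finset.univ.sup fun l => (p l).totalDegree
  set e₂ := Finset.univ.sup fun i => (Finset.range (q i).natDegree).sup fun m =>
    ((q i).coeff m).totalDegree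
  refine ⟨max e₁ e₂, fun L _ _ φ => ?_⟩
  set u : Option (Fin g) → L := fun o => o.elim 1 fun l => φ (t l)
  have hxj : (fun i => φ (x i)) j = 1 := by simp [hj]
  constructor
  · intro i V hV
    have h0 := congrArg φ (hq i)
    rw [map_zero, ← AlgHom.coe_toRingHom, Polynomial.hom_eval₂, ← Polynomial.eval_map] at h0
    refine val_le_of_monic (one_le_pow_of_one_le' (one_le_wt (j := none) rfl) _)
      ((hqm i).map _) h0 fun m hm => ?_
    rw [Polynomial.coeff_map]
    have hm' : m ∈ Finset.range (q i).natDegree :=
      Finset.mem_range.mpr (hm.trans_le (Polynomial.natDegree_map_le ..))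
    have hdeg : (rename some ((q i).coeff m) : MvPolynomial (Option (Fin g)) K).totalDegree ≤
        max e₁ e₂ :=
      (totalDegree_rename_le _ _).trans ((Finset.le_sup (f := fun m => ((q i).coeff m).totalDegree)
        hm').trans ((Finset.le_sup (f := fun i => (Finset.range (q i).natDegree).sup fun m =>
          ((q i).coeff m).totalDegree) (Finset.mem_univ i)).trans (le_max_right _ _)))
    have := aeval_mem_growth (a := u) (j := none) rfl _ hdeg V hV
    rw [aeval_rename, show u ∘ some = fun l => φ (t l) from rfl, ← comp_aeval_apply] at this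
    exact this
  · intro o V hV
    cases o with
    | none =>
      show V.valuation 1 ≤ _
      rw [map_one]
      exact one_le_pow_of_one_le' (one_le_wt (a := fun i => φ (x i)) hxj) _
    | some l =>
      have := aeval_mem_growth (a := fun i => φ (x i)) hxj (p l)
        ((Finset.le_sup (f := fun l => (p l).totalDegree) (Finset.mem_univ l)).trans
          (le_max_left e₁ e₂)) V hV
      rw [← comp_aeval_apply, hp l] at this
      exact this

variable {B : Type uB} [CommRing B] [Algebra K B] {L : Type uL} [Field L]
  [Algebra K L]

/-- The embedding of the rational functions given by a normalisation. -/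
def normHom (t : Fin g → B) (φ : B →ₐ[K] L) (hφ : Function.Injective φ)
    (ht : AlgebraicIndependent K t) : E →ₐ[K] L :=
  IsFractionRing.liftAlgHom (A := P) (K := E) (g := φ.comp (aeval t)) (hφ.comp ht)

theorem normHom_algebraMap (t : Fin g → B) (φ : B →ₐ[K] L) (hφ : Function.Injective φ)
    (ht : AlgebraicIndependent K t) (p : P) :
    normHom t φ hφ ht (algebraMap P E p) = φ (aeval t p) := by
  exact IsFractionRing.lift_algebraMap (A := P) (g := (φ.comp (aeval t)).toRingHom) (hφ.comp ht) p

theorem homTuple_normHom (t : Fin g → B) (φ : B →ₐ[K] L) (hφ : Function.Injective φ)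
    (ht : AlgebraicIndependent K t) :
    homTuple (normHom t φ hφ ht) = fun o : Option (Fin g) => o.elim 1 fun l => φ (t l) := by
  funext o
  cases o with
  | none => rfl
  | some l =>
    show normHom t φ hφ ht (algebraMap P E (X l)) = φ (t l)
    rw [normHom_algebraMap, aeval_X]

theorem finrank_adjoin_of_eq_top {S : Set L} (h : IntermediateField.adjoin K S = ⊤) :
    FiniteDimensional (IntermediateField.adjoin K S) L ∧
      Module.finrank (IntermediateField.adjoin K S) L = 1 := by
  rw [h]
  exact ⟨Module.finite_of_finrank_pos (by rw [IntermediateField.finrank_top]; exact one_pos),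
    IntermediateField.finrank_top⟩

variable [CharZero K]

/-- The degree of the normalisation of an embedded affine domain. -/
theorem exists_degreeOf_normHom [IsDomain B] [Algebra.FiniteType K B] (t : Fin g → B)
    (ht : AlgebraicIndependent K t) (hint : (aeval t : P →ₐ[K] B).toRingHom.IsIntegral) :
    ∃ m : ℕ, 0 < m ∧ ∀ (L : Type uL) [Field L] [Algebra K L] (φ : B →ₐ[K] L)
      (hφ : Function.Injective φ),
      FiniteDimensional (IntermediateField.adjoin K (Set.range φ)) L →
        IsFiniteSepHom (normHom t φ hφ ht) ∧
          degreeOf (normHom t φ hφ ht) =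
            m * Module.finrank (IntermediateField.adjoin K (Set.range φ)) L := by
  classical
  let FB := FractionRing B
  let ι₀ : E →ₐ[K] FB := normHom t (IsScalarTower.toAlgHom K B FB) (IsFractionRing.injective B FB) ht
  let : Algebra E FB := ι₀.toRingHom.toAlgebra
  have : IsScalarTower K E FB := IsScalarTower.of_algebraMap_eq fun c => (ι₀.commutes c).symm
  obtain ⟨s, hs⟩ := (Algebra.FiniteType.out : (⊤ : Subalgebra K B).FG)
  let S : Set FB := algebraMap B FB '' s
  have hSfin : Finite S := (s.finite_toSet.image _).to_subtype
  have hSint : ∀ z ∈ S, IsIntegral E z := by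
    rintro _ ⟨b, -, rfl⟩
    obtain ⟨q, hqm, hq⟩ := hint b
    refine ⟨q.map (algebraMap P E), hqm.map _, ?_⟩
    rw [Polynomial.eval₂_map, show (algebraMap E FB).comp (algebraMap P E) =
      (algebraMap B FB).comp (aeval t : P →ₐ[K] B).toRingHom from RingHom.ext fun p =>
        normHom_algebraMap t (IsScalarTower.toAlgHom K B FB) (IsFractionRing.injective B FB) ht p,
      ← Polynomial.hom_eval₂, hq, map_zero]
  have htop : IntermediateField.adjoin E S = ⊤ := by
    refine eq_top_iff.mpr fun z _ => ?_
    have hmem : ∀ b : B, algebraMap B FB b ∈ IntermediateField.adjoin E S := fun b => by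
      have hb : b ∈ Algebra.adjoin K (s : Set B) := hs ▸ Algebra.mem_top
      induction hb using Algebra.adjoin_induction with
      | mem b hb => exact IntermediateField.subset_adjoin E S ⟨b, hb, rfl⟩
      | algebraMap c =>
        rw [← IsScalarTower.algebraMap_apply K B FB, IsScalarTower.algebraMap_apply K E FB]
        exact IntermediateField.algebraMap_mem _ _
      | add b c _ _ h h' => rw [map_add]; exact add_mem h h'
      | mul b c _ _ h h' => rw [map_mul]; exact mul_mem h h'
    obtain ⟨a, b, -, rfl⟩ := IsFractionRing.div_surjective (A := B) z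
    exact div_mem (hmem a) (hmem b)
  have hfinFB : FiniteDimensional E FB := by
    have := IntermediateField.finiteDimensional_adjoin hSint
    rw [htop] at this
    exact Module.Finite.equiv IntermediateField.topEquiv.toLinearEquiv
  refine ⟨Module.finrank E FB, Module.finrank_pos, fun L _ _ φ hφ hfin => ?_⟩
  let φ' : FB →ₐ[K] L := IsFractionRing.liftAlgHom (A := B) (K := FB) (g := φ) hφ
  have hφ' : ∀ b, φ' (algebraMap B FB b) = φ b := fun b => by
    simp only [φ', IsFractionRing.liftAlgHom_apply]
    exact IsFractionRing.lift_algebraMap hφ b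
  have hcomp : normHom t φ hφ ht = φ'.comp ι₀ :=
    IsLocalization.algHom_ext (nonZeroDivisors P) (AlgHom.ext fun p => by
      show normHom t φ hφ ht (algebraMap P E p) = φ' (ι₀ (algebraMap P E p))
      rw [normHom_algebraMap, show ι₀ (algebraMap P E p) = algebraMap B FB (aeval t p) from
        normHom_algebraMap t (IsScalarTower.toAlgHom K B FB) (IsFractionRing.injective B FB) ht p,
        hφ'])
  set F₁ := IntermediateField.adjoin K (Set.range φ)
  have hrange : φ'.fieldRange = F₁ := by
    refine le_antisymm ?_ (IntermediateField.adjoin_le_iff.mpr ?_)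
    · rintro _ ⟨z, rfl⟩
      obtain ⟨a, b, -, rfl⟩ := IsFractionRing.div_surjective (A := B) z
      show φ' _ ∈ F₁
      rw [map_div₀, hφ', hφ']
      exact div_mem (IntermediateField.subset_adjoin K _ ⟨a, rfl⟩)
        (IntermediateField.subset_adjoin K _ ⟨b, rfl⟩)
    · rintro _ ⟨b, rfl⟩
      exact ⟨algebraMap B FB b, hφ' b⟩
  let : Algebra FB L := φ'.toRingHom.toAlgebra
  let e : FB ≃+* F₁ := RingEquiv.ofBijective
    (φ'.toRingHom.codRestrict F₁ fun z => hrange ▸ ⟨z, rfl⟩)
    ⟨fun a b h => φ'.toRingHom.injective (congrArg Subtype.val h), fun z => by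
      obtain ⟨w, hw⟩ : (z : L) ∈ φ'.fieldRange := hrange.symm ▸ z.2
      exact ⟨w, Subtype.ext hw⟩⟩
  have hdeg : Module.finrank FB L = Module.finrank F₁ L :=
    Algebra.finrank_eq_of_equiv_equiv e (RingEquiv.refl L) (RingHom.ext fun z => rfl)
  have hfinL : FiniteDimensional FB L := by
    have hpos : 0 < Module.finrank F₁ L := Module.finrank_pos
    exact Module.finite_of_finrank_pos (hdeg ▸ hpos)
  let : Algebra E L := (φ'.comp ι₀).toRingHom.toAlgebra
  have : IsScalarTower E FB L := IsScalarTower.of_algebraMap_eq fun z => rfl
  have : FiniteDimensional E L := Module.Finite.trans FB L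
  have : CharZero E := charZero_of_injective_algebraMap (algebraMap K E).injective
  rw [hcomp]
  refine ⟨⟨‹FiniteDimensional E L›, Algebra.IsAlgebraic.isSeparable_of_perfectField⟩, ?_⟩
  rw [← hdeg]
  exact (Module.finrank_mul_finrank E FB L).symm

end FermatAgent.Torsion27
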