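import Fermat.Agent.Torsion27.Main
import Fermat.Agent.Torsion27.Uniform
import Fermat.Agent.Torsion27.Degree

/-!
# The torsion grows like `n ^ (2 g)` up to constants
-/

set_option autoImplicit false

noncomputable section

open AlgebraicCurve FermatAgent.Curve FermatAgent.MW MvPolynomial

namespace FermatAgent.Torsion27

universe uK uF

variable {K : Type uK} {F : Type uF} [Field K] [Field F] [Algebra K F] [IsAlgClosed K]
  [IsFunctionField1 K F] [CharZero K]

namespace Setup

variable (S : Setup K F)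

/-- The index of a coordinate which is not identically zero. -/
abbrev LiveIndex : Type _ := {j : S.T // ∃ y : Pic0 K F, S.cd y j ≠ 0}

/-- The functions of a coordinate. -/
def gen (j : S.T) (Q : S.T) : S.BlockRing j := Ideal.Quotient.mk _ (X Q)

omit [CharZero K] in
theorem gen_self (j : S.T) : S.gen j j = 1 := by
  refine coordRing_ext fun x hx => ?_
  rw [gen, evalAt_mk, eval_X, map_one]
  exact hx.2

omit [CharZero K] in
theorem surjective_aeval_gen (j : S.T) :
    Function.Surjective (aeval (S.gen j) : MvPolynomial S.T K →ₐ[K] S.BlockRing j) := fun b => by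
  obtain ⟨p, rfl⟩ := Ideal.Quotient.mk_surjective b
  exact ⟨p, (AlgHom.congr_fun (aeval_unique (Ideal.Quotient.mkₐ K _)) p).symm⟩

/-- Normalisation data uniform in the multiple. -/
theorem exists_blockData (j : S.LiveIndex) :
    ∃ (t : Fin (genusFF K F) → S.BlockRing j.1) (ht : AlgebraicIndependent K t) (m e : ℕ), 0 < m ∧
      ∀ (L : Type (max uK uF)) [Field L] [Algebra K L] (φ : S.BlockRing j.1 →ₐ[K] L)
        (hφ : Function.Injective φ),
        FiniteDimensional (IntermediateField.adjoin K (Set.range φ)) L →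
          IsFiniteSepHom (normHom t φ hφ ht) ∧
            degreeOf (normHom t φ hφ ht) =
              m * Module.finrank (IntermediateField.adjoin K (Set.range φ)) L ∧
            (∀ Q, φ (S.gen j.1 Q) ∈ growth K (homTuple (normHom t φ hφ ht)) e) ∧
            ∀ o, homTuple (normHom t φ hφ ht) o ∈ growth K (fun Q => φ (S.gen j.1 Q)) e := by
  have := isPrime_vanishingIdeal_normSet S.isBig' S.large' j.2
  obtain ⟨t, ht, hint⟩ := exists_noether_normSet S.isBig' S.large' j.2
  have : Algebra.FiniteType K (S.BlockRing j.1) :=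
    Algebra.FiniteType.of_surjective _ (S.surjective_aeval_gen j.1)
  obtain ⟨m, hm, hmdeg⟩ := exists_degreeOf_normHom.{uK, max uK uF, max uK uF} t ht hint
  obtain ⟨e, he⟩ := exists_exponent.{uK, max uK uF, max uK uF} (S.gen j.1)
    (S.surjective_aeval_gen j.1) (S.gen_self j.1) t hint
  refine ⟨t, ht, m, e, hm, fun L _ _ φ hφ hfin => ?_⟩
  obtain ⟨h1, h2⟩ := hmdeg L φ hφ hfin
  rw [homTuple_normHom]
  exact ⟨h1, h2, (he L φ).1, (he L φ).2⟩

/-- The torsion grows like `n ^ (2 g)`. -/
theorem exists_torsion_bounds (S : Setup K F) (hg : 1 ≤ genusFF K F) : ∃ C : ℕ, ∀ n : ℕ, 1 ≤ n →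
    {t : Pic0 K F | n • t = 0}.ncard ≤ C * n ^ (2 * genusFF K F) ∧
      n ^ (2 * genusFF K F) ≤ C * {t : Pic0 K F | n • t = 0}.ncard := by
  classical
  choose t ht m e hm hdata using fun j : S.LiveIndex => S.exists_blockData j
  set g := genusFF K F with hgdef
  set e₀ := Finset.univ.sup e
  set m₀ := Finset.univ.sup m
  set C := m₀ * (e₀ ^ 2 * (g + 1) + 1) ^ g
  refine ⟨C, fun n hn => ?_⟩
  set o : Fin (n + 1) := ⟨1, by omega⟩
  obtain ⟨j, P, hP, hinjo, hinjn, htop, hfin, hcard⟩ := S.exists_degrees hg hn (o := o) rfl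
  let L := FractionRing (CoordRing (S.graphSet n j) ⧸ P)
  let f : (i : Fin (n + 1)) → S.BlockRing (j i) →ₐ[K] L := fun i =>
    (IsScalarTower.toAlgHom K (CoordRing (S.graphSet n j) ⧸ P) L).comp
      ((Ideal.Quotient.mkₐ K P).comp (S.blockHom j i))
  have hinj : ∀ {i}, Function.Injective ((Ideal.Quotient.mkₐ K P).comp (S.blockHom j i)) →
      Function.Injective (f i) := fun h a b hab => h (IsFractionRing.injective _ L hab)
  let x : S.W n → L := fun w => f w.1 (S.gen (j w.1) w.2)
  have hx : x ∈ S.graphPts L n j := by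
    let q : CoordRing (S.graphSet n j) →ₐ[K] L :=
      (IsScalarTower.toAlgHom K (CoordRing (S.graphSet n j) ⧸ P) L).comp (Ideal.Quotient.mkₐ K P)
    have hxq : x = fun w => q (Ideal.Quotient.mk _ (X w)) := funext fun w => by
      show q (Ideal.Quotient.mk _ (rename (Prod.mk w.1) (X w.2))) = _
      rw [rename_X]
    rw [hxq]
    refine S.mem_graphPts_of_forall q _ fun p hp => ?_
    exact (AlgHom.congr_fun (aeval_unique (Ideal.Quotient.mkₐ K _)) p).symm.trans
      (Ideal.Quotient.eq_zero_iff_mem.mpr hp)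
  have hlive : ∀ i, ∃ y : Pic0 K F, S.cd y (j i) ≠ 0 := fun i => by
    obtain ⟨φ, -⟩ := exists_algHom_of_ne_top (k := K) hP.ne_top
    obtain ⟨y, hy, -⟩ := S.exists_class_of_algHom hn φ
    exact ⟨_, hy i⟩
  let ja : S.LiveIndex := ⟨j o, hlive o⟩
  let jb : S.LiveIndex := ⟨j (Fin.last n), hlive (Fin.last n)⟩
  obtain ⟨hfino, hdego⟩ := finrank_adjoin_of_eq_top (K := K) (L := L) (S := Set.range (f o)) htop
  obtain ⟨ha1, ha2, ha3, ha4⟩ := hdata ja L (f o) (hinj hinjo) hfino
  obtain ⟨hb1, hb2, hb3, hb4⟩ := hdata jb L (f (Fin.last n)) (hinj hinjn) hfin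
  obtain ⟨u, hu, hwt⟩ := S.exists_wt_block hx o rfl (Fin.last n)
  have hone : ∀ {ψ : FractionRing (MvPolynomial (Fin g) K) →ₐ[K] L},
      homTuple ψ none = 1 := rfl
  obtain ⟨h1, h2⟩ := degreeOf_bounds (Nat.lt_of_lt_of_le zero_lt_one hg) ha1 hb1 (e := e₀)
    (fun Q => growth_mono hone (Finset.le_sup (Finset.mem_univ ja)) (ha3 Q))
    (fun o' => growth_mono (j := j o)
      (show f o (S.gen (j o) (j o)) = 1 by rw [gen_self, map_one])
      (Finset.le_sup (Finset.mem_univ ja)) (ha4 o'))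
    (fun Q => growth_mono hone (Finset.le_sup (Finset.mem_univ jb)) (hb3 Q))
    (fun o' => growth_mono (j := j (Fin.last n))
      (show f (Fin.last n) (S.gen (j (Fin.last n)) (j (Fin.last n))) = 1 by rw [gen_self, map_one])
      (Finset.le_sup (Finset.mem_univ jb))
      (hb4 o'))
    (N := n ^ 2) (pow_pos hn 2) hu fun V hV => by
      have := hwt V hV
      rw [Fin.val_last] at this
      exact this
  rw [ha2, hb2, hdego, mul_one, hcard] at h1
  rw [ha2, hb2, hdego, mul_one, hcard] at h2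
  set N := {t : Pic0 K F | n • t = 0}.ncard
  have hpow : (n ^ 2) ^ g = n ^ (2 * g) := (pow_mul n 2 g).symm
  refine ⟨?_, ?_⟩
  · calc N ≤ m jb * N := Nat.le_mul_of_pos_left _ (hm jb)
      _ ≤ _ := h1
      _ ≤ m₀ * ((n ^ 2) * (e₀ ^ 2 * (g + 1) + 1)) ^ g :=
          Nat.mul_le_mul_right _ (Finset.le_sup (Finset.mem_univ ja))
      _ = C * n ^ (2 * g) := by rw [mul_pow, hpow]; ring
  · calc n ^ (2 * g) ≤ m ja * (n ^ 2) ^ g := by rw [hpow]; exact Nat.le_mul_of_pos_left _ (hm ja)
      _ ≤ _ := h2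
      _ ≤ m₀ * N * (e₀ ^ 2 * (g + 1) + 1) ^ g :=
          Nat.mul_le_mul_right _ (Nat.mul_le_mul_right _ (Finset.le_sup (Finset.mem_univ jb)))
      _ = C * N := by ring

end Setup

/-- The order of the prime power torsion of a curve in characteristic zero. -/
theorem natCard_torsion_pow (l : ℕ) [Fact l.Prime] (k : ℕ) :
    Nat.card (Pic0.torsion K F (l ^ k)) = l ^ (2 * genusFF K F * k) := by
  rcases Nat.eq_zero_or_pos (genusFF K F) with hg | hg
  · exact natCard_torsion_pow_of_genus_eq_zero hg l k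
  obtain ⟨S⟩ := exists_setup (K := K) (F := F)
  obtain ⟨C, hC⟩ := S.exists_torsion_bounds hg
  have hl : 1 ≤ l := (Fact.out : l.Prime).one_lt.le
  refine natCard_torsion_pow_of_bounds hl (C := C) (fun k => ?_) k
  have hker : Nat.card (nsmulAddMonoidHom (α := Pic0 K F) (l ^ k)).ker =
      {t : Pic0 K F | (l ^ k) • t = 0}.ncard := Nat.card_coe_set_eq _
  rw [hker]
  exact hC _ (Nat.one_le_pow _ _ hl)

end FermatAgent.Torsion27
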