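import Fermat.Agent.Torsion27.Growth

/-!
# Degrees from weights

If the weight of a tuple is the `N`-th power of the weight of another one, up to the value of a
fixed element, then the degrees over the rational function fields differ by `N ^ g` up to constants.
-/

set_option autoImplicit false

noncomputable section

open MvPolynomial

namespace FermatAgent.Torsion27

section

variable {K L : Type*} [Field K] [Field L] [Algebra K L]
  {ι ι' : Type*} [Fintype ι] [Fintype ι']

theorem growth_le_growth_mul {a : ι → L} {b : ι' → L} {e : ℕ}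
    (h : ∀ i, a i ∈ growth K b e) (d : ℕ) : growth K a d ≤ growth K b (e * d) := fun f hf V hV => by
  rw [pow_mul]
  exact (hf V hV).trans (pow_le_pow_left' (wt_le fun i => h i V hV) d)

variable {a : ι → L} {b : ι' → L} {N : ℕ} {u : L} (hu : u ≠ 0)
  (h : ∀ V : ValuationSubring L, OverConst K V → wt V b = wt V a ^ N * V.valuation u) (d : ℕ)

include hu h

theorem finrank_growth_le [FiniteDimensional K (growth K a (N * d))] :
    FiniteDimensional K (growth K b d) ∧
      Module.finrank K (growth K b d) ≤ Module.finrank K (growth K a (N * d)) := by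
  let Φ : growth K b d →ₗ[K] growth K a (N * d) :=
    ((LinearMap.mulLeft K (u⁻¹ ^ d)).comp (Submodule.subtype _)).codRestrict _ fun f V hV => by
      show V.valuation (u⁻¹ ^ d * (f : L)) ≤ _
      rw [map_mul, map_pow, map_inv₀, inv_pow, inv_mul_le_iff₀ (pow_pos
        (zero_lt_iff.mpr ((map_ne_zero V.valuation).mpr hu)) d), pow_mul, ← mul_pow, mul_comm, ← h V hV]
      exact f.2 V hV
  have hΦ : Function.Injective Φ := fun f g hfg => Subtype.ext
    (mul_left_cancel₀ (pow_ne_zero d (inv_ne_zero hu)) (congrArg Subtype.val hfg))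
  exact ⟨Module.Finite.of_injective Φ hΦ, LinearMap.finrank_le_finrank_of_injective hΦ⟩

theorem finrank_growth_ge [FiniteDimensional K (growth K b d)] :
    FiniteDimensional K (growth K a (N * d)) ∧
      Module.finrank K (growth K a (N * d)) ≤ Module.finrank K (growth K b d) := by
  let Φ : growth K a (N * d) →ₗ[K] growth K b d :=
    ((LinearMap.mulLeft K (u ^ d)).comp (Submodule.subtype _)).codRestrict _ fun f V hV => by
      show V.valuation (u ^ d * (f : L)) ≤ _
      rw [map_mul, map_pow, h V hV, mul_pow, ← pow_mul, mul_comm]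
      exact mul_le_mul_left (f.2 V hV) _
  have hΦ : Function.Injective Φ := fun f g hfg => Subtype.ext
    (mul_left_cancel₀ (pow_ne_zero d hu) (congrArg Subtype.val hfg))
  exact ⟨Module.Finite.of_injective Φ hΦ, LinearMap.finrank_le_finrank_of_injective hΦ⟩

end

variable {K : Type*} [Field K] {g : ℕ} {L : Type*} [Field L] [Algebra K L]

/-- The degree of the extension given by an embedding. -/
def degreeOf (φ : FractionRing (MvPolynomial (Fin g) K) →ₐ[K] L) : ℕ :=
  letI := φ.toRingHom.toAlgebra
  Module.finrank (FractionRing (MvPolynomial (Fin g) K)) L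

/-- The embedding makes `L` finite separable over the rational functions. -/
def IsFiniteSepHom (φ : FractionRing (MvPolynomial (Fin g) K) →ₐ[K] L) : Prop :=
  letI := φ.toRingHom.toAlgebra
  FiniteDimensional (FractionRing (MvPolynomial (Fin g) K)) L ∧
    Algebra.IsSeparable (FractionRing (MvPolynomial (Fin g) K)) L

/-- The tuple `(1, t₁, …, t_g)` of an embedding. -/
def homTuple (φ : FractionRing (MvPolynomial (Fin g) K) →ₐ[K] L) : Option (Fin g) → L :=
  fun o => o.elim 1 fun i => φ (algebraMap _ _ (X i : MvPolynomial (Fin g) K))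

theorem exists_homTuple_bounds (hg : 0 < g) {φ : FractionRing (MvPolynomial (Fin g) K) →ₐ[K] L}
    (hφ : IsFiniteSepHom φ) : ∃ c : ℕ, ∀ d : ℕ,
      FiniteDimensional K (growth K (homTuple φ) d) ∧
        Module.finrank K (growth K (homTuple φ) d) ≤ degreeOf φ * (d + c + 1) ^ g ∧
        ∀ q : ℕ, g * q + c ≤ d →
          degreeOf φ * (q + 1) ^ g ≤ Module.finrank K (growth K (homTuple φ) d) := by
  let := φ.toRingHom.toAlgebra
  have : IsScalarTower K (FractionRing (MvPolynomial (Fin g) K)) L :=
    IsScalarTower.of_algebraMap_eq fun c => (φ.commutes c).symm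
  have := hφ.1
  have := hφ.2
  exact exists_growth_bounds (K := K) (L := L) hg

/-- The degree is multiplied by `N ^ g` up to constants. -/
theorem degreeOf_bounds (hg : 0 < g) {φ ψ : FractionRing (MvPolynomial (Fin g) K) →ₐ[K] L}
    (hφ : IsFiniteSepHom φ) (hψ : IsFiniteSepHom ψ) {ι ι' : Type*} [Fintype ι] [Fintype ι']
    {a : ι → L} {b : ι' → L} {e : ℕ}
    (haφ : ∀ i, a i ∈ growth K (homTuple φ) e) (hφa : ∀ o, homTuple φ o ∈ growth K a e)
    (hbψ : ∀ i, b i ∈ growth K (homTuple ψ) e) (hψb : ∀ o, homTuple ψ o ∈ growth K b e)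
    {N : ℕ} (hN : 0 < N) {u : L} (hu : u ≠ 0)
    (h : ∀ V : ValuationSubring L, OverConst K V → wt V b = wt V a ^ N * V.valuation u) :
    degreeOf ψ ≤ degreeOf φ * (N * (e ^ 2 * (g + 1) + 1)) ^ g ∧
      degreeOf φ * N ^ g ≤ degreeOf ψ * (e ^ 2 * (g + 1) + 1) ^ g := by
  obtain ⟨ca, hca⟩ := exists_homTuple_bounds hg hφ
  obtain ⟨cb, hcb⟩ := exists_homTuple_bounds hg hψ
  set q := ca + cb + 1
  set K₁ := e ^ 2 * (g + 1) + 1
  constructor
  · set d := g * q + cb
    obtain ⟨hfin₂, hup, -⟩ := hca (e * (N * (e * d)))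
    have hle₂ := growth_le_growth_mul haφ (N * (e * d))
    have := hfin₂
    have : FiniteDimensional K (growth K a (N * (e * d))) := Submodule.finiteDimensional_of_le hle₂
    obtain ⟨hfin₁, h₁⟩ := finrank_growth_le hu h (e * d)
    have := hfin₁
    have hlow := (hcb d).2.2 q le_rfl
    have h3 : degreeOf ψ * (q + 1) ^ g ≤ degreeOf φ * (N * K₁ * (q + 1)) ^ g :=
      calc degreeOf ψ * (q + 1) ^ g ≤ _ := hlow
        _ ≤ _ := Submodule.finrank_mono (growth_le_growth_mul hψb d)
        _ ≤ _ := h₁
        _ ≤ _ := Submodule.finrank_mono hle₂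
        _ ≤ _ := hup
        _ ≤ _ := Nat.mul_le_mul_left _ (Nat.pow_le_pow_left (by
          simp only [d, K₁, q]
          have hN1 : ca + 1 ≤ N * (ca + cb + 2) := le_trans (by omega) (Nat.le_mul_of_pos_left _ hN)
          nlinarith [Nat.zero_le (N * e ^ 2 * (g + 1 + ca)), Nat.zero_le (N * e ^ 2 * g)]) _)
    rw [mul_pow _ (q + 1), ← mul_assoc] at h3
    exact Nat.le_of_mul_le_mul_right h3 (pow_pos (Nat.succ_pos q) g)
  · set r := g * q + ca
    obtain ⟨hfin₂, hup, -⟩ := hcb (e * (e * r))
    have hle₂ := growth_le_growth_mul hbψ (e * r)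
    have := hfin₂
    have : FiniteDimensional K (growth K b (e * r)) := Submodule.finiteDimensional_of_le hle₂
    obtain ⟨hfin₁, h₁⟩ := finrank_growth_ge hu h (e * r)
    have := hfin₁
    have hlow := (hca (N * r)).2.2 (N * q) (by
      simp only [r]
      have h1 : ca ≤ N * ca := Nat.le_mul_of_pos_left _ hN
      rw [show g * (N * q) = N * (g * q) by ring, mul_add N (g * q) ca]
      exact Nat.add_le_add_left h1 _)
    have hsub : growth K (homTuple φ) (N * r) ≤ growth K a (N * (e * r)) := by
      have := growth_le_growth_mul hφa (N * r)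
      rwa [show e * (N * r) = N * (e * r) by ring] at this
    have h3 : degreeOf φ * (N * q) ^ g ≤ degreeOf ψ * (K₁ * q) ^ g :=
      calc degreeOf φ * (N * q) ^ g ≤ degreeOf φ * (N * q + 1) ^ g :=
            Nat.mul_le_mul_left _ (Nat.pow_le_pow_left (Nat.le_succ _) _)
        _ ≤ _ := hlow
        _ ≤ _ := Submodule.finrank_mono hsub
        _ ≤ _ := h₁
        _ ≤ _ := Submodule.finrank_mono hle₂
        _ ≤ _ := hup
        _ ≤ _ := Nat.mul_le_mul_left _ (Nat.pow_le_pow_left (by
          simp only [r, K₁, q]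
          nlinarith [Nat.zero_le (e ^ 2 * (g + 1 + cb)), Nat.zero_le (e ^ 2)]) _)
    rw [mul_pow, mul_pow _ q, ← mul_assoc, ← mul_assoc] at h3
    exact Nat.le_of_mul_le_mul_right h3 (pow_pos (Nat.succ_pos (ca + cb)) g)

end FermatAgent.Torsion27
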