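import Mathlib.GroupTheory.Index
import Mathlib.GroupTheory.Coset.Card
import Mathlib.Algebra.Order.Ring.Basic
import Mathlib.Tactic.Ring

/-!
# Orders of prime power torsion from divisibility and a bound up to constants
-/

set_option autoImplicit false

namespace FermatAgent.Torsion27

variable {A : Type*} [AddCommGroup A]

/-- If multiplication by `l` is surjective, the kernel of `l ^ k` has order `(#A[l]) ^ k`. -/
theorem natCard_ker_pow {l : ℕ} (hdiv : ∀ a : A, ∃ x : A, l • x = a) (k : ℕ) :
    Nat.card (nsmulAddMonoidHom (α := A) (l ^ k)).ker =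
      Nat.card (nsmulAddMonoidHom (α := A) l).ker ^ k := by
  induction k with
  | zero =>
    rw [pow_zero, pow_zero, Nat.card_eq_one_iff_unique]
    refine ⟨⟨fun a b => Subtype.ext ?_⟩, inferInstance⟩
    have ha : (1 : ℕ) • (a : A) = 0 := a.2
    have hb : (1 : ℕ) • (b : A) = 0 := b.2
    rw [one_nsmul] at ha hb
    rw [ha, hb]
  | succ k ih =>
    let φ : (nsmulAddMonoidHom (α := A) (l ^ (k + 1))).ker →+
        (nsmulAddMonoidHom (α := A) (l ^ k)).ker :=
      ((nsmulAddMonoidHom (α := A) l).comp (AddSubgroup.subtype _)).codRestrict _ fun x => by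
        show l ^ k • (l • (x : A)) = 0
        rw [smul_smul, ← pow_succ]
        exact x.2
    have hsurj : Function.Surjective φ := fun y => by
      obtain ⟨x, hx⟩ := hdiv y
      refine ⟨⟨x, ?_⟩, Subtype.ext hx⟩
      show l ^ (k + 1) • x = 0
      rw [pow_succ, ← smul_smul, hx]
      exact y.2
    let e : φ.ker ≃ (nsmulAddMonoidHom (α := A) l).ker :=
      { toFun := fun x => ⟨(x : (nsmulAddMonoidHom (α := A) (l ^ (k + 1))).ker),
          (congrArg Subtype.val x.2 :)⟩
        invFun := fun x => ⟨⟨x, show l ^ (k + 1) • (x : A) = 0 by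
            rw [pow_succ, ← smul_smul, show l • (x : A) = 0 from x.2, smul_zero]⟩,
          Subtype.ext x.2⟩
        left_inv := fun _ => rfl
        right_inv := fun _ => rfl }
    rw [pow_succ (Nat.card _), ← ih, AddSubgroup.card_eq_card_quotient_mul_card_addSubgroup φ.ker,
      Nat.card_congr (QuotientAddGroup.quotientKerEquivOfSurjective φ hsurj).toEquiv,
      Nat.card_congr e]

/-- Two numbers with powers comparable up to a constant are equal. -/
theorem eq_of_pow_bounds {f N C : ℕ} (h₁ : ∀ k, f ^ k ≤ C * N ^ k) (h₂ : ∀ k, N ^ k ≤ C * f ^ k) :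
    f = N := by
  have key : ∀ a b : ℕ, (∀ k, b ^ k ≤ C * a ^ k) → b ≤ a := fun a b h => by
    by_contra hlt
    rw [not_le] at hlt
    rcases Nat.eq_zero_or_pos a with rfl | ha
    · have := h 1
      simp at this
      omega
    have hbern : ∀ k : ℕ, a ^ k * (a + k) ≤ a * b ^ k := by
      intro k
      induction k with
      | zero => simp
      | succ k ih =>
        calc a ^ (k + 1) * (a + (k + 1)) ≤ a ^ k * (a + k) * (a + 1) := by
              rw [pow_succ, mul_assoc, mul_assoc]
              exact Nat.mul_le_mul_left _ (by ring_nf; omega)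
          _ ≤ a * b ^ k * b := Nat.mul_le_mul ih hlt
          _ = a * b ^ (k + 1) := by rw [pow_succ, mul_assoc]
    have h3 := hbern (C * a + 1)
    have h4 := Nat.mul_le_mul_left a (h (C * a + 1))
    have hpos : 0 < a ^ (C * a + 1) := pow_pos ha _
    have h5 : a ^ (C * a + 1) * (a + (C * a + 1)) ≤ a ^ (C * a + 1) * (a * C) :=
      h3.trans (h4.trans (le_of_eq (by ring)))
    have := Nat.le_of_mul_le_mul_left h5 hpos
    rw [mul_comm a C] at this
    omega
  exact le_antisymm (key N f h₁) (key f N h₂)

end FermatAgent.Torsion27
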