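import Mathlib.RingTheory.Localization.Integral
import Mathlib.RingTheory.Algebraic.Integral
import Mathlib.FieldTheory.PrimitiveElement
import Mathlib.FieldTheory.IsAlgClosed.Basic
import Mathlib.RingTheory.FiniteType

/-!
# A general fibre of a generically finite map has as many points as the field degree
-/

set_option autoImplicit false

noncomputable section

open Polynomial

namespace FermatAgent.Torsion27

variable {k : Type*} [Field k] [IsAlgClosed k]
  {B R E L : Type*} [CommRing B] [CommRing R] [Field E] [Field L]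
  [Algebra k B] [Algebra k R] [Algebra B R] [IsScalarTower k B R]
  [Algebra B E] [IsFractionRing B E] [Algebra R L] [IsFractionRing R L]
  [Algebra E L] [Algebra B L] [IsScalarTower B R L] [IsScalarTower B E L]
  [FiniteDimensional E L] [Algebra.IsSeparable E L] [Algebra.FiniteType k R]

omit [IsAlgClosed k] in
/-- A polynomial over the base vanishing at the primitive element vanishes at every root. -/
theorem eval_map_eq_zero_of_aeval {θ : L} {f₀ : B[X]}
    (hlow : ∀ p : B[X], p.natDegree < f₀.natDegree → aeval θ p = 0 → p = 0)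
    (hf₀ : aeval θ f₀ = 0) (χ : B →ₐ[k] k) (hlead : χ f₀.leadingCoeff ≠ 0) {r : k}
    (hr : (f₀.map χ.toRingHom).eval r = 0) :
    ∀ p : B[X], aeval θ p = 0 → (p.map χ.toRingHom).eval r = 0 := by
  suffices H : ∀ n, ∀ p : B[X], p.natDegree < n → aeval θ p = 0 →
      (p.map χ.toRingHom).eval r = 0 from fun p hp => H _ p (Nat.lt_succ_self _) hp
  intro n
  induction n with
  | zero => intro p hp; omega
  | succ n ih =>
    intro p hp hpθ
    by_cases hsmall : p.natDegree < f₀.natDegree
    · rw [hlow p hsmall hpθ, Polynomial.map_zero, eval_zero]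
    rw [not_lt] at hsmall
    set q := C f₀.leadingCoeff * p - C p.leadingCoeff * X ^ (p.natDegree - f₀.natDegree) * f₀
    have hqθ : aeval θ q = 0 := by simp [q, hpθ, hf₀]
    have hq : (q.map χ.toRingHom).eval r = χ f₀.leadingCoeff * (p.map χ.toRingHom).eval r := by
      simp only [q, Polynomial.map_sub, Polynomial.map_mul, Polynomial.map_C, eval_sub, eval_mul,
        eval_C, hr, mul_zero, sub_zero]
      rfl
    rcases Nat.eq_zero_or_pos p.natDegree with h0 | hpos
    · -- both are constants
      have hf0 : f₀.natDegree = 0 := by omega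
      exfalso
      rw [eq_C_of_natDegree_eq_zero hf0, Polynomial.map_C, eval_C] at hr
      rw [leadingCoeff, hf0] at hlead
      exact hlead hr
    have hdeg : q.natDegree < p.natDegree := by
      refine Nat.lt_of_le_of_lt (natDegree_le_iff_coeff_eq_zero.mpr fun i hi => ?_)
        (Nat.sub_lt hpos one_pos)
      have hi' : p.natDegree ≤ i := by omega
      have hsplit : i = p.natDegree - f₀.natDegree + (i - (p.natDegree - f₀.natDegree)) := by omega
      simp only [q, coeff_sub, coeff_C_mul, mul_assoc (C p.leadingCoeff)]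
      rw [show coeff (X ^ (p.natDegree - f₀.natDegree) * f₀) i =
          f₀.coeff (i - (p.natDegree - f₀.natDegree)) by
        conv_lhs => rw [hsplit, add_comm, mul_comm, coeff_mul_X_pow]]
      rcases hi'.eq_or_lt with rfl | hlt
      · rw [show p.natDegree - (p.natDegree - f₀.natDegree) = f₀.natDegree by omega,
          coeff_natDegree, coeff_natDegree]
        ring
      · rw [coeff_eq_zero_of_natDegree_lt hlt, coeff_eq_zero_of_natDegree_lt (p := f₀) (by omega)]
        ring
    have h1 := ih q (by omega) hqθ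
    rw [hq, mul_eq_zero] at h1
    exact h1.resolve_left hlead

/-- Over a general point the fibre has as many points as the degree. -/
theorem exists_fibre_card :
    ∃ e : B, e ≠ 0 ∧ ∀ χ : B →ₐ[k] k, χ e ≠ 0 →
      {φ : R →ₐ[k] k | ∀ b, φ (algebraMap B R b) = χ b}.ncard = Module.finrank E L := by
  classical
  have hBE : Function.Injective (algebraMap B E) := IsFractionRing.injective B E
  have : IsDomain B := hBE.isDomain _
  have hRL : Function.Injective (algebraMap R L) := IsFractionRing.injective R L
  have : IsDomain R := hRL.isDomain _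
  have hBL : Function.Injective (algebraMap B L) := by
    rw [IsScalarTower.algebraMap_eq B E L]
    exact (algebraMap E L).injective.comp hBE
  obtain ⟨θ₀, hθ₀⟩ := Field.exists_primitive_element E L
  obtain ⟨r₀, s₀, hs₀, hrs⟩ := IsFractionRing.div_surjective (A := R) θ₀
  have hs₀' : s₀ ≠ 0 := nonZeroDivisors.ne_zero hs₀
  have halg : IsAlgebraic B s₀ := by
    rw [← isAlgebraic_algebraMap_iff hRL]
    exact (IsFractionRing.isAlgebraic_iff B E L).mpr (Algebra.IsAlgebraic.isAlgebraic _)
  obtain ⟨b₀, hb₀, u₀, hu₀⟩ := halg.exists_nonzero_dvd (mem_nonZeroDivisors_of_ne_zero hs₀')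
  set ρ : R := u₀ * r₀
  set θ : L := algebraMap R L ρ
  have hθ : θ = algebraMap E L (algebraMap B E b₀) * θ₀ := by
    rw [← IsScalarTower.algebraMap_apply, IsScalarTower.algebraMap_apply B R L, hu₀, map_mul, ← hrs]
    show algebraMap R L (u₀ * r₀) = _
    have hs₀L : algebraMap R L s₀ ≠ 0 := (map_ne_zero_iff _ hRL).mpr hs₀'
    rw [map_mul]
    field_simp
  have hb₀E : algebraMap B E b₀ ≠ 0 := (map_ne_zero_iff _ hBE).mpr hb₀
  have htop : IntermediateField.adjoin E ({θ} : Set L) = ⊤ := by
    rw [eq_top_iff, ← hθ₀]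
    refine IntermediateField.adjoin_simple_le_iff.mpr ?_
    have hmem := IntermediateField.mem_adjoin_simple_self E θ
    have := mul_mem ((IntermediateField.adjoin E ({θ} : Set L)).algebraMap_mem (algebraMap B E b₀)⁻¹)
      hmem
    rw [show algebraMap E L (algebraMap B E b₀)⁻¹ * θ = θ₀ by
      rw [hθ, ← mul_assoc, ← map_mul, inv_mul_cancel₀ hb₀E, map_one, one_mul]] at this
    exact this
  have hint : IsIntegral E θ := IsIntegral.of_finite E θ
  set f := minpoly E θ
  have hm : f.natDegree = Module.finrank E L := by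
    rw [← IntermediateField.adjoin.finrank hint, htop, IntermediateField.finrank_top']
  obtain ⟨a, ha, hfa⟩ := IsLocalization.integerNormalization_spec (nonZeroDivisors B) f
  set f₀ := IsLocalization.integerNormalization (nonZeroDivisors B) f
  have ha0 : a ≠ 0 := nonZeroDivisors.ne_zero ha
  have hfa' : f₀.map (algebraMap B E) = C (algebraMap B E a) * f := by
    rw [hfa, ← IsScalarTower.algebraMap_smul E, smul_eq_C_mul]
  have hdeg : f₀.natDegree = f.natDegree := by
    rw [← natDegree_map_eq_of_injective hBE, hfa', natDegree_C_mul ((map_ne_zero_iff _ hBE).mpr ha0)]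
  have hlead : f₀.leadingCoeff = a := hBE (by
    rw [← leadingCoeff_map_of_injective hBE, hfa', leadingCoeff_mul, leadingCoeff_C,
      (minpoly.monic hint).leadingCoeff, mul_one])
  have haev : ∀ p : B[X], aeval θ p = aeval θ (p.map (algebraMap B E)) := fun p =>
    (aeval_map_algebraMap E θ p).symm
  have hf₀θ : aeval θ f₀ = 0 := by rw [haev, hfa', map_mul, minpoly.aeval, mul_zero]
  have hlow : ∀ p : B[X], p.natDegree < f₀.natDegree → aeval θ p = 0 → p = 0 := fun p hp h0 => by
    by_contra hne
    rw [haev] at h0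
    have := natDegree_le_natDegree
      (minpoly.degree_le_of_ne_zero E θ ((Polynomial.map_ne_zero_iff hBE).mpr hne) h0)
    rw [natDegree_map_eq_of_injective hBE, ← hdeg] at this
    omega
  -- separability certificate
  obtain ⟨u, v, huv⟩ := (show f.Separable from Algebra.IsSeparable.isSeparable E θ)
  obtain ⟨cu, hcu, hu⟩ := IsLocalization.integerNormalization_spec (nonZeroDivisors B) u
  obtain ⟨cv, hcv, hv⟩ := IsLocalization.integerNormalization_spec (nonZeroDivisors B) v
  set U := IsLocalization.integerNormalization (nonZeroDivisors B) u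
  set W := IsLocalization.integerNormalization (nonZeroDivisors B) v
  have hsep : C cv * U * f₀ + C cu * W * derivative f₀ = C (cu * cv * a) := by
    refine map_injective (algebraMap B E) hBE ?_
    have hu' : U.map (algebraMap B E) = C (algebraMap B E cu) * u := by
      rw [hu, ← IsScalarTower.algebraMap_smul E, smul_eq_C_mul]
    have hv' : W.map (algebraMap B E) = C (algebraMap B E cv) * v := by
      rw [hv, ← IsScalarTower.algebraMap_smul E, smul_eq_C_mul]
    rw [Polynomial.map_add, Polynomial.map_mul, Polynomial.map_mul, Polynomial.map_mul,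
      Polynomial.map_mul, ← derivative_map, hu', hv', hfa', derivative_C_mul]
    simp only [Polynomial.map_C, Polynomial.map_mul, map_mul]
    linear_combination (C (algebraMap B E cu) * C (algebraMap B E cv) * C (algebraMap B E a)) * huv
  -- generators
  obtain ⟨gen, hgen⟩ := (Algebra.FiniteType.out : (⊤ : Subalgebra k R).FG)
  have hexp : ∀ x : R, ∃ (c : B) (p : B[X]), c ≠ 0 ∧ algebraMap B R c * x = aeval ρ p := fun x => by
    have hx : algebraMap R L x ∈ IntermediateField.adjoin E ({θ} : Set L) :=
      htop ▸ IntermediateField.mem_top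
    rw [← IntermediateField.mem_toSubalgebra,
      IntermediateField.adjoin_simple_toSubalgebra_of_isAlgebraic hint.isAlgebraic,
      Algebra.adjoin_singleton_eq_range_aeval] at hx
    obtain ⟨p, hp⟩ := hx
    obtain ⟨c, hc, hcp⟩ := IsLocalization.integerNormalization_spec (nonZeroDivisors B) p
    refine ⟨c, IsLocalization.integerNormalization (nonZeroDivisors B) p, nonZeroDivisors.ne_zero hc,
      hRL ?_⟩
    rw [← aeval_algebraMap_apply, show algebraMap R L ρ = θ from rfl, haev, hcp,
      ← IsScalarTower.algebraMap_smul E, map_smul, Algebra.smul_def, map_mul,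
      ← IsScalarTower.algebraMap_apply, ← IsScalarTower.algebraMap_apply]
    exact congrArg _ hp.symm
  choose cden pnum hcden hpnum using hexp
  set e := cu * cv * a * ∏ x ∈ gen, cden x
  refine ⟨e, mul_ne_zero (mul_ne_zero (mul_ne_zero (nonZeroDivisors.ne_zero hcu)
    (nonZeroDivisors.ne_zero hcv)) ha0) (Finset.prod_ne_zero_iff.mpr fun x _ => hcden x),
    fun χ hχ => ?_⟩
  simp only [e, map_mul, map_prod, mul_ne_zero_iff, Finset.prod_ne_zero_iff] at hχ
  obtain ⟨⟨⟨hχu, hχv⟩, hχa⟩, hχc⟩ := hχ
  set g := f₀.map χ.toRingHom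
  have hgdeg : g.natDegree = f.natDegree := by
    rw [natDegree_map_of_leadingCoeff_ne_zero _ (by rwa [hlead]), hdeg]
  have hgsep : g.Separable := by
    refine ⟨C ((χ (cu * cv * a))⁻¹) * (C cv * U).map χ.toRingHom,
      C ((χ (cu * cv * a))⁻¹) * (C cu * W).map χ.toRingHom, ?_⟩
    rw [derivative_map, mul_assoc (C _) _ g, mul_assoc (C _) _ (Polynomial.map _ (derivative f₀)),
      ← mul_add, ← Polynomial.map_mul, ← Polynomial.map_mul,
      ← Polynomial.map_add, hsep, Polynomial.map_C, ← C_mul, ← C_1]
    congr 1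
    exact inv_mul_cancel₀ (by simp [hχu, hχv, hχa])
  have hval : ∀ (φ : R →ₐ[k] k), (∀ b, φ (algebraMap B R b) = χ b) → ∀ p : B[X],
      φ (aeval ρ p) = (p.map χ.toRingHom).eval (φ ρ) := fun φ hφ p => by
    rw [aeval_def, ← AlgHom.coe_toRingHom, Polynomial.hom_eval₂, eval_map]
    congr 1
    exact RingHom.ext fun b => hφ b
  set S := {φ : R →ₐ[k] k | ∀ b, φ (algebraMap B R b) = χ b}
  have hroot : ∀ φ ∈ S, φ ρ ∈ g.roots.toFinset := fun φ hφ => by
    rw [Multiset.mem_toFinset, mem_roots (fun h0 => hgsep.ne_zero h0), IsRoot, ← hval φ hφ]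
    have : aeval ρ f₀ = 0 := hRL (by rw [map_zero, ← aeval_algebraMap_apply]; exact hf₀θ)
    rw [this, map_zero]
  have hinj : Set.InjOn (fun φ : R →ₐ[k] k => φ ρ) S := fun φ hφ φ' hφ' h => by
    refine AlgHom.ext_of_adjoin_eq_top hgen fun x hx => ?_
    have h1 := congrArg φ (hpnum x)
    have h2 := congrArg φ' (hpnum x)
    rw [map_mul, hφ, hval φ hφ] at h1
    rw [map_mul, hφ', hval φ' hφ', ← show φ ρ = φ' ρ from h, ← h1] at h2
    exact mul_left_cancel₀ (hχc x hx) h2.symm
  have hsurj : ∀ r ∈ g.roots.toFinset, ∃ φ ∈ S, φ ρ = r := fun r hr => by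
    rw [Multiset.mem_toFinset, mem_roots hgsep.ne_zero] at hr
    have hkey := eval_map_eq_zero_of_aeval hlow hf₀θ χ (by rwa [hlead]) (r := r) hr
    set D := ∏ x ∈ gen, cden x
    have hχD : χ D ≠ 0 := by rw [map_prod]; exact Finset.prod_ne_zero_iff.mpr hχc
    let val : B[X] →+* k := (evalRingHom r).comp (mapRingHom χ.toRingHom)
    have hvalC : ∀ b, val (C b) = χ b := fun b => by simp [val]
    have hrep : ∀ x : R, ∃ (N : ℕ) (p : B[X]), algebraMap B R D ^ N * x = aeval ρ p := fun x => by
      have hx : x ∈ Algebra.adjoin k (gen : Set R) := hgen ▸ Algebra.mem_top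
      induction hx using Algebra.adjoin_induction with
      | mem x hx =>
        refine ⟨1, C (∏ y ∈ gen.erase x, cden y) * pnum x, ?_⟩
        rw [map_mul (aeval ρ), aeval_C, ← hpnum, pow_one, ← mul_assoc, ← map_mul,
          Finset.prod_erase_mul _ _ hx]
      | algebraMap c =>
        exact ⟨0, C (algebraMap k B c), by
          rw [pow_zero, one_mul, aeval_C, ← IsScalarTower.algebraMap_apply]⟩
      | add x y _ _ hx hy =>
        obtain ⟨N, p, hp⟩ := hx
        obtain ⟨N', q, hq⟩ := hy
        refine ⟨N + N', C (D ^ N') * p + C (D ^ N) * q, ?_⟩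
        rw [map_add, map_mul, map_mul, aeval_C, aeval_C, ← hp, ← hq, map_pow, map_pow]
        ring
      | mul x y _ _ hx hy =>
        obtain ⟨N, p, hp⟩ := hx
        obtain ⟨N', q, hq⟩ := hy
        refine ⟨N + N', p * q, ?_⟩
        rw [map_mul, ← hp, ← hq]
        ring
    choose N p hp using hrep
    let ψ : R → k := fun x => val (p x) / χ D ^ N x
    have hψ : ∀ x (M : ℕ) (q : B[X]), algebraMap B R D ^ M * x = aeval ρ q →
        ψ x = val q / χ D ^ M := fun x M q hq => by
      have h0 := hkey (C (D ^ M) * p x - C (D ^ N x) * q) (by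
        rw [show θ = algebraMap R L ρ from rfl, aeval_algebraMap_apply]
        convert map_zero (algebraMap R L)
        rw [map_sub, map_mul, map_mul, aeval_C, aeval_C, ← hp, ← hq, map_pow, map_pow]
        ring)
      change val (C (D ^ M) * p x - C (D ^ N x) * q) = 0 at h0
      rw [map_sub, map_mul, map_mul, hvalC, hvalC, map_pow, map_pow, sub_eq_zero] at h0
      rw [div_eq_div_iff (pow_ne_zero _ hχD) (pow_ne_zero _ hχD)]
      linear_combination h0
    have hψb : ∀ b : B, ψ (algebraMap B R b) = χ b := fun b => by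
      rw [hψ _ 0 (C b) (by rw [pow_zero, one_mul, aeval_C]), hvalC, pow_zero, div_one]
    let φ : R →ₐ[k] k :=
      { toFun := ψ
        map_one' := by
          rw [hψ 1 0 1 (by rw [pow_zero, one_mul, map_one]), map_one, pow_zero, div_one]
        map_mul' := fun x y => by
          rw [hψ (x * y) (N x + N y) (p x * p y) (by rw [map_mul, ← hp, ← hp]; ring), map_mul,
            pow_add, ← div_mul_div_comm]
        map_zero' := by
          rw [hψ 0 0 0 (by rw [pow_zero, one_mul, map_zero]), map_zero, zero_div]
        map_add' := fun x y => by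
          rw [hψ (x + y) (N x + N y) (C (D ^ N y) * p x + C (D ^ N x) * p y)
            (by rw [map_add, map_mul, map_mul, aeval_C, aeval_C, ← hp, ← hp, map_pow, map_pow]; ring),
            map_add, map_mul, map_mul, hvalC, hvalC, map_pow, map_pow]
          simp only [ψ]
          field_simp
          ring
        commutes' := fun c => by
          rw [IsScalarTower.algebraMap_apply k B R, hψb, AlgHom.commutes] }
    exact ⟨φ, hψb, (hψ ρ 0 X (by rw [pow_zero, one_mul, aeval_X])).trans (by simp [val])⟩
  have hbij : Set.BijOn (fun φ : R →ₐ[k] k => φ ρ) S g.roots.toFinset :=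
    ⟨fun φ hφ => Finset.mem_coe.mpr (hroot φ hφ), hinj, fun r hr => hsurj r (Finset.mem_coe.mp hr)⟩
  rw [Set.ncard_congr (fun φ _ => φ ρ) (fun φ hφ => hbij.mapsTo hφ)
      (fun φ φ' hφ hφ' h => hinj hφ hφ' h) (fun r hr => by
        obtain ⟨φ, hφ, h⟩ := hbij.surjOn hr
        exact ⟨φ, hφ, h⟩), Set.ncard_coe_finset,
    Multiset.toFinset_card_of_nodup (nodup_roots hgsep), IsAlgClosed.card_roots_eq_natDegree,
    hgdeg, hm]

end FermatAgent.Torsion27
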