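import Fermat.Agent.Torsion27.Valuation
import Fermat.Agent.MW.MulDiv.Graph
import Fermat.Agent.MW.Multiplication

/-!
# Normalised multiples of a class as the points of an algebraic set

For indices `j i` the tuples `(coord (i • y) / coord (i • y) (j i))_{i ≤ n}` form an algebraic set,
cut out by the parallelogram identities.
-/

set_option autoImplicit false

noncomputable section

open AlgebraicCurve FermatAgent.Curve FermatAgent.MW MvPolynomial

namespace FermatAgent.Torsion27

variable (K F : Type*) [Field K] [Field F] [Algebra K F] [IsAlgClosed K] [IsFunctionField1 K F]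

/-- The divisors and samples of two compatible coordinate systems. -/
structure Setup where
  /-- The divisor of the embedding. -/
  M : Divisor K F
  /-- The divisor of the second embedding, relative to the first. -/
  G₀ : Divisor K F
  /-- The places of evaluation for `M`. -/
  s : Finset (Place K F)
  /-- The places of evaluation for `M + G₀`. -/
  s' : Finset (Place K F)
  isBig : IsBig M
  degree_le : 2 * (genusFF K F : ℤ) + 1 ≤ Divisor.degree G₀
  large : Large M s
  large' : Large (M + G₀) s'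

variable {K F}

namespace Setup

variable (S : Setup K F)

/-- Indices of the larger coordinates. -/
abbrev T : Type _ := Fin (rk (S.M + S.G₀)) → S.s'

/-- Indices of the smaller coordinates. -/
abbrev T₀ : Type _ := Fin (rk S.M) → S.s

omit [IsAlgClosed K] [IsFunctionField1 K F] in
theorem isBig' : IsBig (S.M + S.G₀) := isBig_add S.isBig (by have := S.degree_le; omega)

/-- The larger coordinates of a class. -/
abbrev cd (y : Pic0 K F) : S.T → K := coord (S.M + S.G₀) S.s' y

theorem cd_ne_zero (y : Pic0 K F) : S.cd y ≠ 0 := coord_ne_zero S.isBig' S.large' y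

/-- The cone of the larger coordinates. -/
abbrev cone : Set (S.T → K) := imgSet (S.M + S.G₀) S.s'

variable [CharZero K]

theorem isAlg_cone : IsAlg S.cone := isAlg_imgSet S.isBig' S.large'

/-- The bilinear map of the parallelogram. -/
def bil : (S.T × S.T → K) →ₗ[K] (S.T × S.T → K) →ₗ[K] (S.T₀ → K) :=
  (exists_bilinear S.isBig S.degree_le S.large S.large').choose

theorem bil_spec (x y : Pic0 K F) :
    SameLine (S.bil (pairs (S.cd x)) (pairs (S.cd y))) (parFun S.M S.s x y) :=
  (exists_bilinear S.isBig S.degree_le S.large S.large').choose_spec x y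

/-- The linear map to the smaller coordinates. -/
def lin : (S.T → K) →ₗ[K] (S.T₀ → K) :=
  (exists_halfTorsion S.isBig S.degree_le S.s S.large' (R := 0) (add_zero 0)).choose

theorem lin_spec (x : Pic0 K F) : SameLine (S.lin (S.cd x)) (coord S.M S.s x) := by
  have := (exists_halfTorsion S.isBig S.degree_le S.s S.large' (R := 0) (add_zero 0)).choose_spec x
  rwa [add_zero] at this

/-- The left hand sides of the identities as polynomials. -/
def bilForm (Q : S.T₀) : MvPolynomial (S.T ⊕ S.T) K := bilPoly S.bil Sum.inl Sum.inr Q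

/-- The right hand sides of the identities as polynomials. -/
def prodForm (Q : S.T₀) : MvPolynomial (S.T ⊕ S.T) K :=
  haveI := Classical.decEq S.T
  (∑ R, C (S.lin (Pi.single R 1) Q) * X (Sum.inl R)) *
    ∑ R, C (S.lin (Pi.single R 1) Q) * X (Sum.inr R)

theorem eval_bilForm (v w : S.T → K) (Q : S.T₀) :
    eval (Sum.elim v w) (S.bilForm Q) = S.bil (pairs v) (pairs w) Q := by
  rw [bilForm, eval_bilPoly, Sum.elim_comp_inl, Sum.elim_comp_inr]

theorem eval_prodForm (v w : S.T → K) (Q : S.T₀) :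
    eval (Sum.elim v w) (S.prodForm Q) = S.lin v Q * S.lin w Q := by
  classical
  have h : ∀ u : S.T → K, S.lin u Q = ∑ R, S.lin (Pi.single R 1) Q * u R := fun u => by
    conv_lhs => rw [pi_eq_sum_univ' u]
    simp only [map_sum, map_smul, Finset.sum_apply, Pi.smul_apply, smul_eq_mul]
    exact Finset.sum_congr rfl fun R _ => mul_comm _ _
  simp only [prodForm, map_mul, map_sum, eval_C, eval_X, Sum.elim_inl, Sum.elim_inr]
  rw [h v, h w]
  convert rfl

theorem aeval_bilForm_smul {L : Type*} [Field L] [Algebra K L] (Q : S.T₀) (c c' : L)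
    (v w : S.T → L) : aeval (Sum.elim (c • v) (c' • w)) (S.bilForm Q) =
      c ^ 2 * c' ^ 2 * aeval (Sum.elim v w) (S.bilForm Q) := by
  classical
  simp only [bilForm, bilPoly, map_sum, map_mul, aeval_C, aeval_X, Sum.elim_inl, Sum.elim_inr, Pi.smul_apply,
    smul_eq_mul, Finset.mul_sum]
  exact Finset.sum_congr rfl fun p _ => Finset.sum_congr rfl fun q _ => by ring

theorem aeval_prodForm_smul {L : Type*} [Field L] [Algebra K L] (Q : S.T₀) (c c' : L)
    (v w : S.T → L) : aeval (Sum.elim (c • v) (c' • w)) (S.prodForm Q) =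
      c ^ 1 * c' ^ 1 * aeval (Sum.elim v w) (S.prodForm Q) := by
  classical
  simp only [prodForm, map_sum, map_mul, aeval_C, aeval_X, Sum.elim_inl, Sum.elim_inr, Pi.smul_apply,
    smul_eq_mul, Finset.mul_sum, Finset.sum_mul]
  exact Finset.sum_congr rfl fun p _ => Finset.sum_congr rfl fun q _ => by ring

theorem exists_bilForm_ne_zero {v w : S.T → K} (hv : v ∈ S.cone) (hw : w ∈ S.cone) (hv0 : v ≠ 0)
    (hw0 : w ≠ 0) : ∃ Q, eval (Sum.elim v w) (S.bilForm Q) ≠ 0 := by
  obtain ⟨a, x, rfl⟩ := exists_eq_smul_of_mem_imgSet hv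
  obtain ⟨b, y, rfl⟩ := exists_eq_smul_of_mem_imgSet hw
  obtain ⟨e, he, hB⟩ := S.bil_spec x y
  obtain ⟨Q, hQ⟩ := Function.ne_iff.mp (parFun_ne_zero S.isBig S.large x y)
  refine ⟨Q, ?_⟩
  simp only [S.eval_bilForm, pairs_smul, map_smul, LinearMap.smul_apply, hB, Pi.smul_apply,
    smul_eq_mul]
  exact mul_ne_zero (pow_ne_zero _ (smul_ne_zero_iff.mp hw0).1)
    (mul_ne_zero (pow_ne_zero _ (smul_ne_zero_iff.mp hv0).1) (mul_ne_zero he hQ))

theorem exists_prodForm_ne_zero {v w : S.T → K} (hv : v ∈ S.cone) (hw : w ∈ S.cone) (hv0 : v ≠ 0)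
    (hw0 : w ≠ 0) : ∃ Q, eval (Sum.elim v w) (S.prodForm Q) ≠ 0 := by
  obtain ⟨a, x, rfl⟩ := exists_eq_smul_of_mem_imgSet hv
  obtain ⟨b, y, rfl⟩ := exists_eq_smul_of_mem_imgSet hw
  obtain ⟨e, he, hx⟩ := S.lin_spec x
  obtain ⟨e', he', hy⟩ := S.lin_spec y
  obtain ⟨Q, hQ⟩ := Function.ne_iff.mp (coord_mul_ne_zero S.isBig S.large x y)
  refine ⟨Q, ?_⟩
  simp only [Pi.mul_apply, Pi.zero_apply, mul_ne_zero_iff] at hQ
  simp only [S.eval_prodForm, map_smul, hx, hy, Pi.smul_apply, smul_eq_mul]
  exact mul_ne_zero (mul_ne_zero (smul_ne_zero_iff.mp hv0).1 (mul_ne_zero he hQ.1))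
    (mul_ne_zero (smul_ne_zero_iff.mp hw0).1 (mul_ne_zero he' hQ.2))

/-- Coordinates of tuples of `n + 1` blocks. -/
abbrev W (n : ℕ) : Type _ := Fin (n + 1) × S.T

/-- A block of a point. -/
def block {A : Type*} {n : ℕ} (x : S.W n → A) (i : Fin (n + 1)) : S.T → A := fun Q => x (i, Q)

/-- The crossed identity between four blocks. -/
def crossPoly {n : ℕ} (p i q o : Fin (n + 1)) (Q R : S.T₀) : MvPolynomial (S.W n) K :=
  rename (Sum.elim (Prod.mk i) (Prod.mk o)) (S.bilForm Q) *
      rename (Sum.elim (Prod.mk q) (Prod.mk p)) (S.prodForm R) -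
    rename (Sum.elim (Prod.mk i) (Prod.mk o)) (S.bilForm R) *
      rename (Sum.elim (Prod.mk q) (Prod.mk p)) (S.prodForm Q)

/-- The normalised tuples satisfying the parallelogram identities. -/
def graphSet (n : ℕ) (j : Fin (n + 1) → S.T) : Set (S.W n → K) :=
  {x | (∀ i, S.block x i ∈ S.cone ∧ x (i, j i) = 1) ∧
    (∀ Q, x (0, Q) * S.cd 0 (j 0) = S.cd 0 Q) ∧
    ∀ p i q o : Fin (n + 1), (i : ℕ) = p + 1 → (q : ℕ) = i + 1 → (o : ℕ) = 1 →
      ∀ Q R, eval x (S.crossPoly p i q o Q R) = 0}

theorem isAlg_graphSet (n : ℕ) (j : Fin (n + 1) → S.T) : IsAlg (S.graphSet n j) := by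
  refine (isAlg_forall fun i => (S.isAlg_cone.comp (Prod.mk i)).and
    ⟨{X (i, j i) - C 1}, by ext x; simp [sub_eq_zero]⟩).and
    ((isAlg_forall fun Q => ⟨{X ((0 : Fin (n + 1)), Q) * C (S.cd 0 (j 0)) - C (S.cd 0 Q)}, by
      ext x; simp [sub_eq_zero]⟩).and ?_)
  exact isAlg_forall fun p => isAlg_forall fun i => isAlg_forall fun q => isAlg_forall fun o =>
    isAlg_forall fun _ => isAlg_forall fun _ => isAlg_forall fun _ => isAlg_forall fun Q =>
      isAlg_forall fun R => isAlg_setOf_eval_eq_zero _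

theorem eval_crossPoly {n : ℕ} (x : S.W n → K) (p i q o : Fin (n + 1)) (Q R : S.T₀) :
    eval x (S.crossPoly p i q o Q R) =
      S.bil (pairs (S.block x i)) (pairs (S.block x o)) Q *
          (S.lin (S.block x q) R * S.lin (S.block x p) R) -
        S.bil (pairs (S.block x i)) (pairs (S.block x o)) R *
          (S.lin (S.block x q) Q * S.lin (S.block x p) Q) := by
  have h : ∀ a b : Fin (n + 1),
      x ∘ Sum.elim (Prod.mk a) (Prod.mk b) = Sum.elim (S.block x a) (S.block x b) := fun a b => by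
    funext t; cases t <;> rfl
  simp only [crossPoly, map_sub, map_mul, eval_rename, h, eval_bilForm, eval_prodForm]

/-- The points are the normalised multiples of one class. -/
theorem mem_graphSet_iff {n : ℕ} (hn : 1 ≤ n) {j : Fin (n + 1) → S.T} {x : S.W n → K} :
    x ∈ S.graphSet n j ↔ ∃ y : Pic0 K F, ∀ i : Fin (n + 1),
      S.cd ((i : ℕ) • y) (j i) ≠ 0 ∧
        S.block x i = (S.cd ((i : ℕ) • y) (j i))⁻¹ • S.cd ((i : ℕ) • y) := by
  constructor
  · rintro ⟨hb, h0, hid⟩
    set o : Fin (n + 1) := ⟨1, by omega⟩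
    obtain ⟨e, y, hy⟩ := exists_eq_smul_of_mem_imgSet (hb o).1
    have norm : ∀ (i : Fin (n + 1)) (z : Pic0 K F) (c : K), S.block x i = c • S.cd z →
        S.cd z (j i) ≠ 0 ∧ S.block x i = (S.cd z (j i))⁻¹ • S.cd z := fun i z c h => by
      have h1 : c * S.cd z (j i) = 1 := (congrFun h (j i)).symm.trans (hb i).2
      exact ⟨right_ne_zero_of_mul_eq_one h1, by rw [← eq_inv_of_mul_eq_one_left h1]; exact h⟩
    refine ⟨y, fun i => ?_⟩
    suffices H : ∀ (k : ℕ) (hk : k < n + 1), ∃ c : K, S.block x ⟨k, hk⟩ = c • S.cd (k • y) by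
      obtain ⟨c, hc⟩ := H i i.2
      exact norm i _ c hc
    intro k
    induction k using Nat.strong_induction_on with
    | _ k ih =>
      intro hk
      match k with
      | 0 =>
        have hne : S.cd 0 (j 0) ≠ 0 := fun h => by
          obtain ⟨Q, hQ⟩ := Function.ne_iff.mp (S.cd_ne_zero 0)
          exact hQ (by rw [← h0 Q, h, mul_zero]; rfl)
        refine ⟨(S.cd 0 (j 0))⁻¹, funext fun Q => ?_⟩
        rw [zero_nsmul, Pi.smul_apply, smul_eq_mul, ← h0 Q, mul_comm (x (0, Q)),
          inv_mul_cancel_left₀ hne]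
        rfl
      | 1 => exact ⟨e, by rw [one_nsmul]; exact hy⟩
      | k + 2 =>
        obtain ⟨c₁, h1⟩ := ih (k + 1) (by omega) (by omega)
        obtain ⟨c₀, h2⟩ := ih k (by omega) (by omega)
        obtain ⟨c, z, hz⟩ := exists_eq_smul_of_mem_imgSet (hb ⟨k + 2, hk⟩).1
        have hne : ∀ {m : Fin (n + 1)} {a : K} {w : Pic0 K F}, S.block x m = a • S.cd w → a ≠ 0 :=
          fun {m a w} h ha => by
            have h3 : S.block x m (j m) = 1 := (hb m).2
            rw [h, ha, zero_smul, Pi.zero_apply] at h3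
            exact zero_ne_one h3
        obtain ⟨d₁, hd₁, hB⟩ := S.bil_spec ((k + 1) • y) y
        obtain ⟨d₂, hd₂, hz'⟩ := S.lin_spec z
        obtain ⟨d₃, hd₃, hk'⟩ := S.lin_spec (k • y)
        have hpar : parFun S.M S.s ((k + 1) • y) y =
            coord S.M S.s ((k + 2) • y) * coord S.M S.s (k • y) := by
          rw [parFun, ← succ_nsmul, succ_nsmul y k, add_sub_cancel_right]
        have hcross : ∀ Q R, parFun S.M S.s ((k + 1) • y) y Q *
            ((coord S.M S.s z * coord S.M S.s (k • y)) R) =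
            parFun S.M S.s ((k + 1) • y) y R *
              ((coord S.M S.s z * coord S.M S.s (k • y)) Q) := fun Q R => by
          have := hid ⟨k, by omega⟩ ⟨k + 1, by omega⟩ ⟨k + 2, hk⟩ o rfl rfl rfl Q R
          rw [eval_crossPoly, h1, h2, show S.block x o = e • S.cd y from hy,
            show S.block x ⟨k + 2, hk⟩ = c • S.cd z from hz] at this
          simp only [pairs_smul, map_smul, LinearMap.smul_apply, hB, hz', hk', Pi.smul_apply,
            Pi.mul_apply, smul_eq_mul] at this ⊢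
          refine mul_left_cancel₀ (mul_ne_zero (mul_ne_zero (pow_ne_zero 2 (hne h1))
            (pow_ne_zero 2 (hne hy))) (mul_ne_zero (mul_ne_zero (mul_ne_zero (hne hz) hd₂)
            (mul_ne_zero (hne h2) hd₃)) hd₁)) (sub_eq_zero.mp ?_)
          linear_combination this
        obtain ⟨a, ha⟩ := exists_eq_smul_of_mul_eq (parFun_ne_zero S.isBig S.large _ y)
          (u := coord S.M S.s z * coord S.M S.s (k • y)) fun Q R => by
            linear_combination (hcross Q R).symm
        rw [hpar] at ha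
        rcases eq_or_eq_neg_of_mul_coord S.isBig S.large ha with h | h
        · exact ⟨c, by rw [← h]; exact hz⟩
        · obtain ⟨a', -, ha'⟩ := sameLine_coord_neg S.isBig' S.s' ((k + 2) • y)
          refine ⟨c * a', ?_⟩
          rw [show S.block x ⟨k + 2, hk⟩ = c • S.cd z from hz, h,
            show S.cd (-((k + 2) • y)) = a' • S.cd ((k + 2) • y) from ha', smul_smul]
  · rintro ⟨y, hy⟩
    refine ⟨fun i => ⟨(hy i).2 ▸ smul_mem_imgSet (coord_mem_imgSet _ _ _) _, ?_⟩, fun Q => ?_, ?_⟩
    · rw [show x (i, j i) = S.block x i (j i) from rfl, (hy i).2, Pi.smul_apply, smul_eq_mul,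
        inv_mul_cancel₀ (hy i).1]
    · have h := hy 0
      rw [Fin.val_zero, zero_nsmul] at h
      rw [show x (0, Q) = S.block x 0 Q from rfl, h.2, Pi.smul_apply, smul_eq_mul,
        mul_comm _ (S.cd 0 (j 0)), mul_inv_cancel_left₀ h.1]
    · intro p i q o hi hq ho Q R
      obtain ⟨d₁, -, hB⟩ := S.bil_spec ((i : ℕ) • y) y
      obtain ⟨d₂, -, hq'⟩ := S.lin_spec ((q : ℕ) • y)
      obtain ⟨d₃, -, hp'⟩ := S.lin_spec ((p : ℕ) • y)
      have hpar : parFun S.M S.s ((i : ℕ) • y) y =
          coord S.M S.s ((q : ℕ) • y) * coord S.M S.s ((p : ℕ) • y) := by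
        rw [parFun, hq, hi, ← succ_nsmul, succ_nsmul y p, add_sub_cancel_right]
      rw [eval_crossPoly, (hy i).2, (hy q).2, (hy p).2, (hy o).2, ho, one_nsmul]
      simp only [pairs_smul, map_smul, LinearMap.smul_apply, hB, hq', hp', hpar, Pi.smul_apply,
        Pi.mul_apply, smul_eq_mul]
      ring

/-- Two points with the same first block agree. -/
theorem eq_of_block_one {n : ℕ} (hn : 1 ≤ n) {j : Fin (n + 1) → S.T} {x x' : S.W n → K}
    (hx : x ∈ S.graphSet n j) (hx' : x' ∈ S.graphSet n j) {o : Fin (n + 1)} (ho : (o : ℕ) = 1)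
    (h : S.block x o = S.block x' o) : x = x' := by
  obtain ⟨y, hy⟩ := (S.mem_graphSet_iff hn).mp hx
  obtain ⟨y', hy'⟩ := (S.mem_graphSet_iff hn).mp hx'
  rw [(hy o).2, (hy' o).2, ho, one_nsmul, one_nsmul] at h
  have hj := (hy o).1
  rw [ho, one_nsmul] at hj
  have hcases := eq_or_eq_neg_of_smul_coord S.isBig' S.large' (inv_ne_zero hj) h
  funext ⟨i, Q⟩
  show S.block x i Q = S.block x' i Q
  rw [(hy i).2, (hy' i).2]
  rcases hcases with rfl | rfl
  · rfl
  · obtain ⟨a, ha, hneg⟩ := sameLine_coord_neg S.isBig' S.s' ((i : ℕ) • y')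
    rw [show (i : ℕ) • -y' = -((i : ℕ) • y') from
        map_neg (nsmulAddMonoidHom (α := Pic0 K F) (i : ℕ)) y',
      show S.cd (-((i : ℕ) • y')) = a • S.cd ((i : ℕ) • y') from hneg]
    simp only [Pi.smul_apply, smul_eq_mul]
    field_simp

end Setup

end FermatAgent.Torsion27
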