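import Fermat.Agent.Torsion27.Valuation
import Mathlib.RingTheory.Trace.Basic
import Mathlib.RingTheory.DedekindDomain.IntegralClosure
import Mathlib.RingTheory.MvPolynomial.Basic
import Mathlib.Algebra.MvPolynomial.NoZeroDivisors
import Mathlib.RingTheory.Polynomial.UniqueFactorization
import Mathlib.RingTheory.Valuation.ExtendToLocalization
import Mathlib.RingTheory.IntegralClosure.IntegrallyClosed

/-!
# Growth of the spaces of functions of bounded weight

For `L` finite of degree `m` over the rational function field in `g` variables the space of elements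
bounded by the `d`-th power of `max (1, |t_i|)` has dimension `m d ^ g` up to constants.
-/

set_option autoImplicit false

noncomputable section

open MvPolynomial
open scoped nonZeroDivisors

namespace FermatAgent.Torsion27

variable {K : Type*} [Field K] {g : ℕ}

variable (K g) in
/-- The degree as a valuation. -/
def degVal : Valuation (MvPolynomial (Fin g) K) (WithZero (Multiplicative ℤ)) :=
  haveI := Classical.decEq (MvPolynomial (Fin g) K)
  { toFun p := if p = 0 then 0 else WithZero.exp (p.totalDegree : ℤ)
    map_zero' := if_pos rfl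
    map_one' := by rw [if_neg one_ne_zero, totalDegree_one]; rfl
    map_mul' p q := by
      by_cases hp : p = 0
      · simp [hp]
      by_cases hq : q = 0
      · simp [hq]
      rw [if_neg hp, if_neg hq, if_neg (mul_ne_zero hp hq), totalDegree_mul_of_isDomain hp hq,
        Nat.cast_add, WithZero.exp_add]
    map_add_le_max' p q := by
      by_cases hpq : p + q = 0
      · simp [hpq]
      by_cases hp : p = 0
      · simp [hp]
      by_cases hq : q = 0
      · simp [hq]
      rw [if_neg hp, if_neg hq, if_neg hpq]
      rcases le_total p.totalDegree q.totalDegree with h | h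
      · exact le_max_of_le_right (WithZero.exp_le_exp.mpr (by
          exact_mod_cast (totalDegree_add p q).trans (max_le h le_rfl)))
      · exact le_max_of_le_left (WithZero.exp_le_exp.mpr (by
          exact_mod_cast (totalDegree_add p q).trans (max_le le_rfl h))) }

theorem degVal_apply {p : MvPolynomial (Fin g) K} (hp : p ≠ 0) :
    degVal K g p = WithZero.exp (p.totalDegree : ℤ) := if_neg hp

theorem degVal_supp : (MvPolynomial (Fin g) K)⁰ ≤ (degVal K g).supp.primeCompl := fun p hp => by
  have hp0 : p ≠ 0 := nonZeroDivisors.ne_zero hp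
  show ¬ degVal K g p = 0
  rw [degVal_apply hp0]
  exact WithZero.exp_ne_zero

local notation "P" => MvPolynomial (Fin g) K
local notation "E" => FractionRing (MvPolynomial (Fin g) K)

variable {L : Type*} [Field L] [Algebra K L] [Algebra (FractionRing (MvPolynomial (Fin g) K)) L]

variable (K g L) in
/-- The tuple `(1, t₁, …, t_g)`. -/
def baseTuple : Option (Fin g) → L :=
  fun o => o.elim 1 fun i => algebraMap E L (algebraMap P E (X i))

variable [IsScalarTower K (FractionRing (MvPolynomial (Fin g) K)) L]

theorem aeval_baseTuple (p : P) :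
    aeval (baseTuple K g L) (rename some p) = algebraMap E L (algebraMap P E p) := by
  rw [aeval_rename]
  have h : aeval (baseTuple K g L ∘ some) = (IsScalarTower.toAlgHom K E L).comp
      (IsScalarTower.toAlgHom K P E) := MvPolynomial.algHom_ext fun i => by
    rw [aeval_X]; rfl
  rw [h]; rfl

theorem map_mem_growth_baseTuple (p : P) {N : ℕ} (hN : p.totalDegree ≤ N) :
    algebraMap E L (algebraMap P E p) ∈ growth K (baseTuple K g L) N := by
  rw [← aeval_baseTuple]
  exact aeval_mem_growth (j := none) rfl _ ((totalDegree_rename_le _ _).trans hN)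

variable [FiniteDimensional (FractionRing (MvPolynomial (Fin g) K)) L]

/-- The trace of a bounded element is a polynomial of bounded degree. -/
theorem exists_trace_eq (hg : 0 < g) {h : L} {D : ℕ} (hh : h ∈ growth K (baseTuple K g L) D) :
    ∃ p : P, p.totalDegree ≤ D ∧ algebraMap P E p = Algebra.trace E L h := by
  let : Algebra P L := ((algebraMap E L).comp (algebraMap P E)).toAlgebra
  have : IsScalarTower P E L := IsScalarTower.of_algebraMap_eq fun _ => rfl
  have hc : ∀ c : K, algebraMap P L (C c) = algebraMap K L c := fun c => by
    show algebraMap E L (algebraMap P E (algebraMap K P c)) = _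
    rw [← IsScalarTower.algebraMap_apply K P E, ← IsScalarTower.algebraMap_apply K E L]
  have hint : IsIntegral P h := isIntegral_of_forall_mem fun V hV => by
    have hK : OverConst K V := fun c => hc c ▸ hV (C c)
    refine (V.valuation_le_one_iff _).mp ((hh V hK).trans (pow_le_one' (wt_le fun o => ?_) _))
    cases o with
    | none => exact (map_one V.valuation).le
    | some i => exact (V.valuation_le_one_iff _).mpr (hV (X i))
  obtain ⟨p, hp⟩ := IsIntegrallyClosed.isIntegral_iff.mp (Algebra.isIntegral_trace (L := E) hint)
  refine ⟨p, ?_, hp⟩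
  by_cases hp0 : p = 0
  · simp [hp0]
  -- the place at infinity
  set w := (degVal K g).extendToLocalization degVal_supp E
  have hwP : ∀ q : P, w (algebraMap P E q) = degVal K g q := fun q =>
    Valuation.extendToLocalization_apply_map_apply _ _ _ q
  let O := w.valuationSubring
  set i₀ : Fin g := ⟨0, hg⟩
  set s : E := algebraMap P E (X i₀)
  have hX : ∀ i : Fin g, w (algebraMap P E (X i)) = WithZero.exp (1 : ℤ) := fun i => by
    rw [hwP, degVal_apply (X_ne_zero i), totalDegree_X, Nat.cast_one]
  have hs : s ≠ 0 := fun h0 => by
    have := hX i₀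
    rw [show algebraMap P E (X i₀) = 0 from h0, map_zero] at this
    exact WithZero.exp_ne_zero this.symm
  have hsL : algebraMap E L s ≠ 0 := (map_ne_zero _).mpr hs
  let : Algebra O L := ((algebraMap E L).comp (algebraMap O E)).toAlgebra
  have : IsScalarTower O E L := IsScalarTower.of_algebraMap_eq fun _ => rfl
  have hO : ∀ {e : E}, w e ≤ 1 → ∀ {V : ValuationSubring L},
      (∀ r : O, algebraMap O L r ∈ V) → algebraMap E L e ∈ V := fun {e} he {V} hV => hV ⟨e, he⟩
  have hint2 : IsIntegral O (h * (algebraMap E L s)⁻¹ ^ D) := isIntegral_of_forall_mem fun V hV => by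
    have hK : OverConst K V := fun c => by
      have := hO (e := algebraMap P E (C c)) (by
        rw [hwP]
        rcases eq_or_ne c 0 with rfl | hc0
        · simp
        · rw [degVal_apply (by simpa using hc0), totalDegree_C]
          exact le_rfl) hV
      rwa [← MvPolynomial.algebraMap_eq, ← IsScalarTower.algebraMap_apply K P E,
        ← IsScalarTower.algebraMap_apply K E L] at this
    have hwt : wt V (baseTuple K g L) ≤ V.valuation (algebraMap E L s) := wt_le fun o => by
      suffices H : baseTuple K g L o * (algebraMap E L s)⁻¹ ∈ V by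
        have := (V.valuation_le_one_iff _).mpr H
        rw [map_mul, map_inv₀, mul_inv_le_iff₀ (zero_lt_iff.mpr ((map_ne_zero _).mpr hsL)),
          one_mul] at this
        exact this
      rw [← map_inv₀]
      cases o with
      | none =>
        show (1 : L) * _ ∈ V
        rw [one_mul]
        refine hO ?_ hV
        rw [map_inv₀, hX, ← WithZero.exp_neg]
        exact WithZero.exp_le_exp.mpr (by norm_num)
      | some i =>
        show algebraMap E L _ * _ ∈ V
        rw [← map_mul]
        refine hO ?_ hV
        rw [map_mul, map_inv₀, hX, hX, mul_inv_cancel₀ WithZero.exp_ne_zero]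
    rw [← V.valuation_le_one_iff, map_mul, map_pow, map_inv₀, inv_pow,
      mul_inv_le_iff₀ (pow_pos (zero_lt_iff.mpr ((map_ne_zero _).mpr hsL)) _), one_mul]
    exact (hh V hK).trans (pow_le_pow_left' hwt D)
  have htr : IsIntegral O (algebraMap P E p * s⁻¹ ^ D) := by
    have := Algebra.isIntegral_trace (L := E) hint2
    rwa [← map_inv₀, ← map_pow, mul_comm h, ← Algebra.smul_def, map_smul, smul_eq_mul, ← hp,
      mul_comm] at this
  obtain ⟨o, ho⟩ := IsIntegrallyClosed.isIntegral_iff.mp htr
  have h1 : w (algebraMap P E p * s⁻¹ ^ D) ≤ 1 := ho ▸ o.2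
  rw [map_mul, map_pow, map_inv₀, hwP, degVal_apply hp0, hX, ← WithZero.exp_neg,
    ← WithZero.exp_nsmul, ← WithZero.exp_add, ← WithZero.exp_zero, WithZero.exp_le_exp,
    nsmul_eq_mul] at h1
  omega

variable (K g) in
theorem finrank_restrictTotalDegree_le (N : ℕ) :
    Module.finrank K (restrictTotalDegree (Fin g) K N) ≤ (N + 1) ^ g := by
  let Φ : restrictTotalDegree (Fin g) K N →ₗ[K] ((Fin g → Fin (N + 1)) → K) :=
    LinearMap.pi fun e => (MvPolynomial.lcoeff K (Finsupp.equivFunOnFinite.symm fun i => (e i : ℕ))).comp
      (Submodule.subtype _)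
  have hinj : Function.Injective Φ := (injective_iff_map_eq_zero Φ).mpr fun q hq => by
    refine Subtype.ext (MvPolynomial.ext _ _ fun d => ?_)
    show coeff d (q : P) = 0
    by_contra hd
    have hdeg : ∀ i, d i ≤ N := fun i =>
      ((monomial_le_degreeOf i (mem_support_iff.mpr hd)).trans
        (degreeOf_le_totalDegree _ i)).trans ((mem_restrictTotalDegree _ _ _).mp q.2)
    have := congrFun hq fun i => (⟨d i, Nat.lt_succ_of_le (hdeg i)⟩ : Fin (N + 1))
    simp only [Φ, LinearMap.pi_apply, LinearMap.comp_apply, lcoeff_apply, Submodule.coe_subtype,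
      Pi.zero_apply] at this
    rw [show (Finsupp.equivFunOnFinite.symm fun i => d i) = d from
      Finsupp.equivFunOnFinite.symm_apply_apply d] at this
    exact hd this
  exact (LinearMap.finrank_le_finrank_of_injective hinj).trans (by simp)

/-- The dimension of the growth spaces. -/
theorem exists_growth_bounds [Algebra.IsSeparable (FractionRing (MvPolynomial (Fin g) K)) L] (hg : 0 < g) :
    ∃ e : ℕ, ∀ d : ℕ,
    FiniteDimensional K (growth K (baseTuple K g L) d) ∧
      Module.finrank K (growth K (baseTuple K g L) d) ≤ Module.finrank E L * (d + e + 1) ^ g ∧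
      ∀ q : ℕ, g * q + e ≤ d →
        Module.finrank E L * (q + 1) ^ g ≤ Module.finrank K (growth K (baseTuple K g L) d) := by
  classical
  let : Algebra P L := ((algebraMap E L).comp (algebraMap P E)).toAlgebra
  have : IsScalarTower P E L := IsScalarTower.of_algebraMap_eq fun _ => rfl
  obtain ⟨S, b, hb⟩ := FiniteDimensional.exists_is_basis_integral P E L
  have hm : Module.finrank E L = Fintype.card S := Module.finrank_eq_card_basis b
  choose e he using fun x : S => exists_mem_growth_of_isIntegral (K := K) (a := baseTuple K g L)
    (j := none) rfl (A := P) (fun r => ⟨rename some r, aeval_baseTuple r⟩) (hb x)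
  set e₀ := Finset.univ.sup e
  have heb : ∀ x : S, b x ∈ growth K (baseTuple K g L) e₀ := fun x =>
    growth_mono (j := none) rfl (Finset.le_sup (Finset.mem_univ x)) (he x)
  refine ⟨e₀, fun d => ?_⟩
  let T : Submodule K E := (restrictTotalDegree (Fin g) K (d + e₀)).map
    (IsScalarTower.toAlgHom K P E).toLinearMap
  have hT : Module.finrank K T ≤ (d + e₀ + 1) ^ g :=
    (Submodule.finrank_map_le _ _).trans (finrank_restrictTotalDegree_le K g _)
  let Φ₀ : growth K (baseTuple K g L) d →ₗ[K] (S → E) := LinearMap.pi fun x =>
    (((Algebra.traceForm E L).flip (b x)).restrictScalars K).comp (Submodule.subtype _)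
  have hΦ₀ : ∀ f x, Φ₀ f x = Algebra.trace E L ((f : L) * b x) := fun f x => rfl
  let Φ : growth K (baseTuple K g L) d →ₗ[K] (S → T) := LinearMap.pi fun x =>
    ((LinearMap.proj x).comp Φ₀).codRestrict T fun f => by
      obtain ⟨p, hp, hpe⟩ := exists_trace_eq hg (mul_mem_growth f.2 (heb x))
      exact ⟨p, (mem_restrictTotalDegree _ _ _).mpr hp, hpe⟩
  have hΦ : Function.Injective Φ := (injective_iff_map_eq_zero Φ).mpr fun f hf => by
    refine Subtype.ext ((traceForm_nondegenerate E L).1 _ fun y => ?_)
    have hx : Algebra.traceForm E L (f : L) = 0 := b.ext fun x =>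
      congrArg Subtype.val (congrFun hf x)
    rw [hx]
    rfl
  have : Module.Finite K (restrictTotalDegree (Fin g) K (d + e₀)) := inferInstance
  have : Module.Finite K T := Module.Finite.map _ _
  have hfin : FiniteDimensional K (growth K (baseTuple K g L) d) :=
    Module.Finite.of_injective Φ hΦ
  refine ⟨hfin, ?_, fun q hq => ?_⟩
  · refine (LinearMap.finrank_le_finrank_of_injective hΦ).trans ?_
    rw [Module.finrank_pi_fintype, Finset.sum_const, smul_eq_mul, hm, Finset.card_univ]
    exact Nat.mul_le_mul_left _ hT
  · let mon : (Fin g → Fin (q + 1)) → E := fun v =>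
      algebraMap P E (monomial (Finsupp.equivFunOnFinite.symm fun i => (v i : ℕ)) 1)
    have hmon : LinearIndependent K mon := by
      refine ((MvPolynomial.basisMonomials (Fin g) K).linearIndependent.comp
        (fun v : Fin g → Fin (q + 1) => Finsupp.equivFunOnFinite.symm fun i => (v i : ℕ))
        fun v v' h => funext fun i => Fin.ext (congrFun
          (Finsupp.equivFunOnFinite.symm.injective h) i)).map' (IsScalarTower.toAlgHom K P E).toLinearMap
        (LinearMap.ker_eq_bot.mpr (IsFractionRing.injective P E))
    have hli := linearIndependent_smul hmon b.linearIndependent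
    have hmem : ∀ p : (Fin g → Fin (q + 1)) × S, mon p.1 • b p.2 ∈ growth K (baseTuple K g L) d := by
      intro p
      rw [Algebra.smul_def]
      refine growth_mono (j := none) rfl hq (mul_mem_growth ?_ (heb p.2))
      refine map_mem_growth_baseTuple _ ?_
      rw [totalDegree_monomial _ one_ne_zero, Finsupp.sum_fintype _ _ fun _ => rfl]
      refine (Finset.sum_le_card_nsmul _ _ q fun i _ => ?_).trans (by simp)
      simpa using Nat.le_of_lt_succ (p.1 i).2
    have := hfin
    have hli' : LinearIndependent K fun p => (⟨_, hmem p⟩ : growth K (baseTuple K g L) d) :=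
      LinearIndependent.of_comp (Submodule.subtype _) hli
    have := hli'.fintype_card_le_finrank
    rw [Fintype.card_prod, Fintype.card_fun, Fintype.card_fin, Fintype.card_fin, mul_comm, ← hm] at this
    exact this

end FermatAgent.Torsion27
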