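import Fermat.Agent.Torsion27.Count
import Fermat.Agent.Torsion27.GraphWeight
import Fermat.Agent.MW.MulDiv.Divisible

/-!
# The order of the prime power torsion of `Pic⁰`
-/

set_option autoImplicit false

noncomputable section

open AlgebraicCurve FermatAgent.Curve FermatAgent.MW

namespace FermatAgent.Torsion27

variable {K F : Type*} [Field K] [Field F] [Algebra K F] [IsAlgClosed K] [IsFunctionField1 K F]

theorem exists_setup [CharZero K] : Nonempty (Setup K F) := by
  have := RR.infinite_place (K := K) (F := F)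
  obtain ⟨M, G₀, s, s', hM, hG₀, hs, hs'⟩ := exists_isBig_large (Classical.arbitrary (Place K F))
  exact ⟨⟨M, G₀, s, s', hM, hG₀, hs, hs'⟩⟩

omit [IsAlgClosed K] [IsFunctionField1 K F] in
theorem natCard_torsion_eq (n : ℕ) :
    Nat.card (Pic0.torsion K F n) = Nat.card (nsmulAddMonoidHom (α := Pic0 K F) n).ker :=
  Nat.card_congr (Equiv.subtypeEquivRight fun x => by
    show x ∈ Pic0.torsion K F n ↔ n • x = 0
    rw [Pic0.mem_torsion, natCast_zsmul])

theorem eq_zero_of_genus_eq_zero (hg : genusFF K F = 0) (x : Pic0 K F) : x = 0 := by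
  have := RR.infinite_place (K := K) (F := F)
  obtain ⟨E, hE, hE0, hdeg, rfl⟩ := RR.pic0_exists_rep (Classical.arbitrary (Place K F)) x
  have hz : E = 0 := eq_zero_of_nonneg_of_degree_nonpos hE0 (by omega)
  refine (mk_eq_of_sub_mem_principal (D' := 0) ?_).trans rfl
  rw [ZeroMemClass.coe_zero, sub_zero]
  show E - Finsupp.single _ ((genusFF K F : ℕ) : ℤ) ∈ _
  rw [hz, hg, Nat.cast_zero, Finsupp.single_zero, sub_zero]
  exact zero_mem _

theorem natCard_ker_pow_eq [CharZero K] {l : ℕ} (hl : 1 ≤ l) (k : ℕ) :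
    Nat.card (nsmulAddMonoidHom (α := Pic0 K F) (l ^ k)).ker =
      Nat.card (nsmulAddMonoidHom (α := Pic0 K F) l).ker ^ k := by
  obtain ⟨S⟩ := exists_setup (K := K) (F := F)
  exact natCard_ker_pow (exists_nsmul_eq_of_finite (S.finite_torsion hl)) k

/-- The prime power torsion from the growth of the torsion up to constants. -/
theorem natCard_torsion_pow_of_bounds [CharZero K] {l : ℕ} (hl : 1 ≤ l) {C : ℕ}
    (h : ∀ k : ℕ,
      Nat.card (nsmulAddMonoidHom (α := Pic0 K F) (l ^ k)).ker ≤ C * (l ^ k) ^ (2 * genusFF K F) ∧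
      (l ^ k) ^ (2 * genusFF K F) ≤ C * Nat.card (nsmulAddMonoidHom (α := Pic0 K F) (l ^ k)).ker)
    (k : ℕ) : Nat.card (Pic0.torsion K F (l ^ k)) = l ^ (2 * genusFF K F * k) := by
  have hf : Nat.card (nsmulAddMonoidHom (α := Pic0 K F) l).ker = l ^ (2 * genusFF K F) := by
    refine eq_of_pow_bounds (C := C) (fun k => ?_) fun k => ?_
    · rw [← natCard_ker_pow_eq hl, pow_right_comm]
      exact (h k).1
    · rw [← natCard_ker_pow_eq hl, pow_right_comm]
      exact (h k).2
  rw [natCard_torsion_eq, natCard_ker_pow_eq hl, hf, ← pow_mul]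

theorem natCard_torsion_pow_of_genus_eq_zero (hg : genusFF K F = 0) (l k : ℕ) :
    Nat.card (Pic0.torsion K F (l ^ k)) = l ^ (2 * genusFF K F * k) := by
  rw [hg, mul_zero, zero_mul, pow_zero, Nat.card_eq_one_iff_unique]
  exact ⟨⟨fun a b => Subtype.ext (by
    rw [eq_zero_of_genus_eq_zero hg (a : Pic0 K F), eq_zero_of_genus_eq_zero hg (b : Pic0 K F)])⟩,
    inferInstance⟩

end FermatAgent.Torsion27
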