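import Fermat.Agent.MW.Constancy

/-!
# Properties of classes that are finite or everywhere true on lines

A form in the coordinates vanishes on a line `P ↦ a + [P - P₁]` finitely often or identically;
such a property holds everywhere as soon as it holds at the sums of general tuples.
-/

set_option autoImplicit false

noncomputable section

open AlgebraicCurve FermatAgent.Curve FermatAgent.MW MvPolynomial

namespace FermatAgent.Torsion27

variable {K F : Type*} [Field K] [Field F] [Algebra K F] [IsAlgClosed K] [IsFunctionField1 K F]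

/-- On every line the property is finite or everywhere true. -/
def FinOrAllLine (p : Pic0 K F → Prop) : Prop :=
  ∀ a P₁, {P : Place K F | p (a + classOf P P₁)}.Finite ∨ ∀ P, p (a + classOf P P₁)

/-- Vanishing of a form at the coordinates. -/
theorem finOrAllLine_eval [CharZero K] {M : Divisor K F} (hM : IsBig M)
    {s : Finset (Place K F)} {p : MvPolynomial (Fin (rk M) → s) K} {n : ℕ}
    (hp : p.IsHomogeneous n) : FinOrAllLine fun y => eval (coord M s y) p = 0 := by
  intro a P₁
  by_contra hcon
  push Not at hcon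
  obtain ⟨hinf, P₀, hP₀⟩ := hcon
  set a₀ := a + classOf P₀ P₁ with ha₀
  obtain ⟨f, U, hU, hPU, hf⟩ := exists_line_coords hM (s := s) a₀ P₀
  have hval : ∀ P ∈ U, aeval f p ∈ P.toValuationSubring ∧ ∃ κ : K, κ ≠ 0 ∧
      valueAt P (aeval f p) = κ ^ n * eval (coord M s (a₀ + classOf P P₀)) p := fun P hP => by
    obtain ⟨hm, κ, hκ, he⟩ := hf P hP
    obtain ⟨h1, h2⟩ := aeval_mem_and_valueAt P hm p
    exact ⟨h1, κ, hκ, by rw [h2, he, eval_smul_of_isHomogeneous hp]⟩
  have hne : aeval f p ≠ 0 := fun h0 => by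
    obtain ⟨-, κ, hκ, h2⟩ := hval P₀ hPU
    rw [h0, classOf_self, add_zero, show valueAt P₀ (0 : F) = 0 from map_zero (evalHom P₀)] at h2
    exact mul_ne_zero (pow_ne_zero _ hκ) hP₀ h2.symm
  refine hinf ((hU.union (RR.finite_ord_ne_zero (K := K) (aeval f p))).subset fun P hP => ?_)
  by_cases hPU' : P ∈ U
  · obtain ⟨h1, κ, -, h2⟩ := hval P hPU'
    have hz : valueAt P (aeval f p) = 0 := by
      rw [h2, show a₀ + classOf P P₀ = a + classOf P P₁ by
        rw [ha₀, add_assoc, add_comm (classOf P₀ P₁), classOf_add],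
        show eval (coord M s (a + classOf P P₁)) p = 0 from hP, mul_zero]
    rcases (valueAt_eq_zero_iff P h1).mp hz with h' | h'
    · exact absurd h' hne
    · exact Or.inr (ne_of_gt h')
  · exact Or.inl hPU'

/-- The class of a tuple of places. -/
def tupleClass (P₀ : Place K F) {n : ℕ} (P : Fin n → Place K F) : Pic0 K F :=
  ∑ i, classOf (P i) P₀

theorem tupleClass_cons (P₀ : Place K F) {n : ℕ} (x : Place K F) (P : Fin n → Place K F) :
    tupleClass P₀ (Fin.cons x P) = classOf x P₀ + tupleClass P₀ P := by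
  simp [tupleClass, Fin.sum_univ_succ]

omit [IsAlgClosed K] [IsFunctionField1 K F] in
/-- Effective divisors are sums of places. -/
theorem exists_tuple_sum_eq [IsAlgClosed K] [IsFunctionField1 K F] (n : ℕ) {E : Divisor K F}
    (hE : 0 ≤ E) (hd : Divisor.degree E = n) :
    ∃ P : Fin n → Place K F, ∑ i, Finsupp.single (P i) (1 : ℤ) = E := by
  induction n generalizing E with
  | zero =>
    refine ⟨Fin.elim0, ?_⟩
    by_contra hne
    rw [Fin.sum_univ_zero] at hne
    obtain ⟨v, hv⟩ : ∃ v, (0 : Divisor K F) v < E v := by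
      by_contra hall
      push Not at hall
      exact hne (le_antisymm hE (Finsupp.le_def.mpr hall))
    have h1 : Finsupp.single v (1 : ℤ) ≤ E := Finsupp.le_def.mpr fun w => by
      rcases eq_or_ne w v with rfl | hw
      · rw [Finsupp.single_eq_same]; simp only [Finsupp.coe_zero, Pi.zero_apply] at hv; omega
      · simpa [hw] using Finsupp.le_def.mp hE w
    have := RR.degree_mono h1
    rw [RR.degree_single] at this
    omega
  | succ n ih =>
    obtain ⟨v, hv⟩ : ∃ v, (0 : Divisor K F) v < E v := by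
      by_contra hall
      push Not at hall
      have := RR.degree_mono (Finsupp.le_def.mpr hall)
      rw [map_zero] at this
      omega
    have h1 : Finsupp.single v (1 : ℤ) ≤ E := Finsupp.le_def.mpr fun w => by
      rcases eq_or_ne w v with rfl | hw
      · rw [Finsupp.single_eq_same]; simp only [Finsupp.coe_zero, Pi.zero_apply] at hv; omega
      · simpa [hw] using Finsupp.le_def.mp hE w
    obtain ⟨P, hP⟩ := ih (E := E - Finsupp.single v 1) (sub_nonneg.mpr h1)
      (by rw [map_sub, hd, RR.degree_single]; push_cast; ring)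
    exact ⟨Fin.cons v P, by simp [Fin.sum_univ_succ, hP]⟩

theorem tupleClass_eq_mk (P₀ : Place K F) {n : ℕ} (P : Fin n → Place K F) :
    ∃ h : ∑ i, Finsupp.single (P i) (1 : ℤ) - Finsupp.single P₀ (n : ℤ) ∈
        Divisor.degZero (K := K) (F := F),
      tupleClass P₀ P = Pic0.mk ⟨_, h⟩ := by
  have h : ∑ i, Finsupp.single (P i) (1 : ℤ) - Finsupp.single P₀ (n : ℤ) ∈
      Divisor.degZero (K := K) (F := F) := Divisor.mem_degZero.mpr (by
    simp [map_sum, FermatAgent.Curve.deg_eq_one])
  refine ⟨h, ?_⟩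
  induction n with
  | zero =>
    refine (?_ : (0 : Pic0 K F) = _)
    exact ((mk_eq_of_sub_mem_principal (D' := 0) (by simp [zero_mem])).trans rfl).symm
  | succ n ih =>
    have h' : ∑ i, Finsupp.single (Fin.tail P i) (1 : ℤ) - Finsupp.single P₀ (n : ℤ) ∈
        Divisor.degZero (K := K) (F := F) := Divisor.mem_degZero.mpr (by
      simp [map_sum, FermatAgent.Curve.deg_eq_one])
    conv_lhs => rw [← Fin.cons_self_tail P, tupleClass_cons, ih _ h', classOf, ← Pic0.mk_add]
    congr 1
    refine Subtype.ext ?_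
    show (Finsupp.single (P 0) (1 : ℤ) - Finsupp.single P₀ 1) +
      (∑ i, Finsupp.single (Fin.tail P i) (1 : ℤ) - Finsupp.single P₀ (n : ℤ)) =
        ∑ i, Finsupp.single (P i) (1 : ℤ) - Finsupp.single P₀ ((n + 1 : ℕ) : ℤ)
    rw [Fin.sum_univ_succ, Nat.cast_succ, Finsupp.single_add]
    simp only [Fin.tail]
    abel

theorem exists_tupleClass_eq (P₀ : Place K F) (y : Pic0 K F) :
    ∃ P : Fin (genusFF K F) → Place K F, tupleClass P₀ P = y := by
  obtain ⟨E, hE, hE0, hd, rfl⟩ := RR.pic0_exists_rep P₀ y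
  obtain ⟨P, rfl⟩ := exists_tuple_sum_eq _ hE0 hd
  obtain ⟨h, he⟩ := tupleClass_eq_mk P₀ P
  exact ⟨P, he⟩

end FermatAgent.Torsion27
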