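import Mathlib.RingTheory.Valuation.ValuationSubring
import Mathlib.RingTheory.Valuation.LocalSubring
import Mathlib.RingTheory.IntegralClosure.IsIntegralClosure.Basic
import Mathlib.Algebra.MvPolynomial.Degrees
import Mathlib.RingTheory.MvPolynomial.Homogeneous
import Fermat.Agent.MW.AlgSet

/-!
# Weights of tuples at all valuations over the ground field
-/

set_option autoImplicit false

noncomputable section

open MvPolynomial

namespace FermatAgent.Torsion27

variable {K : Type*} [Field K] {L : Type*} [Field L] [Algebra K L]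

/-- The constants are integral for the valuation ring. -/
def OverConst (K : Type*) [Field K] {L : Type*} [Field L] [Algebra K L] (V : ValuationSubring L) :
    Prop := ∀ c : K, algebraMap K L c ∈ V

theorem OverConst.val_le_one {V : ValuationSubring L} (hV : OverConst K V) (c : K) :
    V.valuation (algebraMap K L c) ≤ 1 :=
  (V.valuation_le_one_iff _).mpr (hV c)

/-- The weight of a tuple at a valuation ring. -/
def wt (V : ValuationSubring L) {ι : Type*} [Fintype ι] (a : ι → L) : V.ValueGroup :=
  Finset.univ.sup fun j => V.valuation (a j)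

section Wt

variable (V : ValuationSubring L) {ι : Type*} [Fintype ι] (a : ι → L)

theorem val_le_wt (j : ι) : V.valuation (a j) ≤ wt V a :=
  Finset.le_sup (f := fun j => V.valuation (a j)) (Finset.mem_univ j)

theorem exists_wt_eq [Nonempty ι] : ∃ j, wt V a = V.valuation (a j) := by
  obtain ⟨j, -, h⟩ := Finset.exists_mem_eq_sup Finset.univ Finset.univ_nonempty
    fun j => V.valuation (a j)
  exact ⟨j, h⟩

variable {V a}

theorem one_le_wt {j : ι} (h : a j = 1) : 1 ≤ wt V a := by
  have := val_le_wt V a j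
  rwa [h, map_one] at this

theorem wt_le {B : V.ValueGroup} (h : ∀ j, V.valuation (a j) ≤ B) : wt V a ≤ B :=
  Finset.sup_le fun j _ => h j

theorem wt_ne_zero {j : ι} (h : a j ≠ 0) : wt V a ≠ 0 := fun h0 => by
  have := val_le_wt V a j
  rw [h0, le_zero_iff, map_eq_zero] at this
  exact h this

theorem wt_smul (c : L) : wt V (c • a) = V.valuation c * wt V a := by
  rcases isEmpty_or_nonempty ι with hι | hι
  · have h0 : ∀ b : ι → L, wt V b = 0 := fun b => le_antisymm (wt_le fun j => isEmptyElim j) zero_le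
    rw [h0, h0, mul_zero]
  refine le_antisymm (wt_le fun j => ?_) ?_
  · rw [Pi.smul_apply, smul_eq_mul, map_mul]
    exact mul_le_mul_right (val_le_wt V a j) _
  · obtain ⟨j, hj⟩ := exists_wt_eq V a
    rw [hj, ← map_mul]
    exact val_le_wt V (c • a) j

theorem val_aeval_le (hV : OverConst K V) {σ : Type*} {x : σ → L} {B : V.ValueGroup} (hB : 1 ≤ B)
    (hx : ∀ i, V.valuation (x i) ≤ B) (p : MvPolynomial σ K) {N : ℕ} (hN : p.totalDegree ≤ N) :
    V.valuation (aeval x p) ≤ B ^ N := by
  rw [aeval_def, eval₂_eq]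
  refine Valuation.map_sum_le _ fun e he => ?_
  rw [map_mul, map_prod]
  refine (mul_le_of_le_one_left zero_le (hV.val_le_one _)).trans ?_
  calc ∏ i ∈ e.support, V.valuation (x i ^ e i) ≤ ∏ i ∈ e.support, B ^ e i :=
        Finset.prod_le_prod' fun i _ => by rw [map_pow]; exact pow_le_pow_left' (hx i) _
    _ = B ^ (e.sum fun _ n => n) := by rw [Finset.prod_pow_eq_pow_sum]; rfl
    _ ≤ B ^ N := pow_le_pow_right' hB ((le_totalDegree he).trans hN)

end Wt

/-- Roots of a monic polynomial are bounded by the coefficients. -/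
theorem val_le_of_monic {V : ValuationSubring L} {x : L} {B : V.ValueGroup} (hB : 1 ≤ B)
    {p : Polynomial L} (hm : p.Monic) (h0 : p.eval x = 0)
    (hc : ∀ i < p.natDegree, V.valuation (p.coeff i) ≤ B) : V.valuation x ≤ B := by
  by_contra hlt
  rw [not_le] at hlt
  have hx1 : 1 ≤ V.valuation x := hB.trans hlt.le
  have hsum : x ^ p.natDegree = -∑ i ∈ Finset.range p.natDegree, p.coeff i * x ^ i := by
    rw [Polynomial.eval_eq_sum_range, Finset.sum_range_succ, hm.coeff_natDegree, one_mul] at h0
    linear_combination h0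
  have key : V.valuation (x ^ p.natDegree) < V.valuation (x ^ p.natDegree) := by
    nth_rw 1 [hsum]
    rw [Valuation.map_neg]
    refine Valuation.map_sum_lt _ ?_ fun i hi => ?_
    · rw [map_pow]
      exact pow_ne_zero _ fun h => by simp [h] at hx1
    · rw [Finset.mem_range] at hi
      rw [map_mul, map_pow, map_pow]
      have hpos : 0 < V.valuation x ^ i := pow_pos (zero_lt_one.trans_le hx1) i
      calc V.valuation (p.coeff i) * V.valuation x ^ i ≤ B * V.valuation x ^ i :=
            mul_le_mul_left (hc i hi) _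
        _ < V.valuation x * V.valuation x ^ i := mul_lt_mul_of_pos_right hlt hpos
        _ = V.valuation x ^ (i + 1) := (pow_succ' _ i).symm
        _ ≤ V.valuation x ^ p.natDegree := pow_le_pow_right' hx1 hi
  exact lt_irrefl _ key

/-- An element in every valuation ring containing a subring is integral over it. -/
theorem isIntegral_of_forall_mem {R : Type*} [CommRing R] [Algebra R L] {x : L}
    (h : ∀ V : ValuationSubring L, (∀ r : R, algebraMap R L r ∈ V) → x ∈ V) : IsIntegral R x := by
  by_contra hx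
  have : IsIntegrallyClosedIn (integralClosure R L).toSubring L :=
    inferInstanceAs (IsIntegrallyClosedIn (integralClosure R L) L)
  obtain ⟨V, hV, hxV⟩ := Subring.exists_le_valuationSubring_of_isIntegrallyClosedIn
    (R := (integralClosure R L).toSubring) (x := x) hx
  exact hxV (h V fun r => hV (show algebraMap R L r ∈ integralClosure R L from isIntegral_algebraMap))

/-! ### Growth spaces -/

variable (K) in
/-- Elements bounded by the `d`-th power of the weight of a tuple. -/
def growth {ι : Type*} [Fintype ι] (a : ι → L) (d : ℕ) : Submodule K L where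
  carrier := {f | ∀ V : ValuationSubring L, OverConst K V → V.valuation f ≤ wt V a ^ d}
  zero_mem' := fun V _ => by rw [map_zero]; exact zero_le
  add_mem' := fun hf hg V hV => Valuation.map_add_le _ (hf V hV) (hg V hV)
  smul_mem' := fun c f hf V hV => by
    rw [Algebra.smul_def, map_mul]
    exact (mul_le_of_le_one_left zero_le (hV.val_le_one c)).trans (hf V hV)

variable {ι : Type*} [Fintype ι] {a : ι → L}

theorem mul_mem_growth {d e : ℕ} {f g : L} (hf : f ∈ growth K a d) (hg : g ∈ growth K a e) :
    f * g ∈ growth K a (d + e) := fun V hV => by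
  rw [map_mul, pow_add]
  exact mul_le_mul' (hf V hV) (hg V hV)

theorem growth_mono {j : ι} (hj : a j = 1) {d e : ℕ} (h : d ≤ e) :
    growth K a d ≤ growth K a e := fun _ hf V hV =>
  (hf V hV).trans (pow_le_pow_right' (one_le_wt hj) h)

theorem aeval_mem_growth {j : ι} (hj : a j = 1) (p : MvPolynomial ι K) {N : ℕ}
    (hN : p.totalDegree ≤ N) : aeval a p ∈ growth K a N := fun V hV =>
  val_aeval_le hV (one_le_wt hj) (val_le_wt V a) p hN

/-- Elements integral over the polynomials in the tuple lie in some growth space. -/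
theorem exists_mem_growth_of_isIntegral {j : ι} (hj : a j = 1) {A : Type*} [CommRing A]
    [Algebra A L] (hA : ∀ r : A, ∃ p : MvPolynomial ι K, aeval a p = algebraMap A L r) {x : L}
    (hx : IsIntegral A x) : ∃ e, x ∈ growth K a e := by
  classical
  obtain ⟨P, hPm, hP⟩ := hx
  choose p hp using fun i => hA (P.coeff i)
  refine ⟨(Finset.range (P.natDegree + 1)).sup fun i => (p i).totalDegree, fun V hV => ?_⟩
  refine val_le_of_monic (one_le_pow_of_one_le' (one_le_wt hj) _) (hPm.map (algebraMap A L))
    (by rwa [Polynomial.eval_map]) fun i hi => ?_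
  rw [Polynomial.coeff_map, ← hp i]
  refine aeval_mem_growth hj _ ?_ V hV
  exact Finset.le_sup (f := fun i => (p i).totalDegree) (Finset.mem_range.mpr
    (Nat.lt_succ_of_lt (hi.trans_le (Polynomial.natDegree_map_le ..))))

/-! ### Polynomials without common zero -/

theorem aeval_smul_of_isHomogeneous {σ : Type*} {p : MvPolynomial σ K} {n : ℕ}
    (hp : p.IsHomogeneous n) (c : L) (x : σ → L) : aeval (c • x) p = c ^ n * aeval x p := by
  rw [aeval_def, aeval_def, eval₂_eq, eval₂_eq, Finset.mul_sum]
  refine Finset.sum_congr rfl fun d hd => ?_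
  rw [hp.degree_eq_sum_deg_support hd, ← Finset.prod_pow_eq_pow_sum]
  simp only [Pi.smul_apply, smul_eq_mul, mul_pow, Finset.prod_mul_distrib]
  ring

variable (L) in
/-- The points over `L` of a cone. -/
def conePts {σ : Type*} (Z : Set (σ → K)) : Set (σ → L) :=
  {v | ∀ np ∈ MW.formsOf Z, aeval v np.2 = 0}

theorem smul_mem_conePts {σ : Type*} {Z : Set (σ → K)} {v : σ → L} (hv : v ∈ conePts L Z) (c : L) :
    c • v ∈ conePts L Z := fun np hnp => by
  rw [aeval_smul_of_isHomogeneous hnp.1, hv np hnp, mul_zero]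

variable [IsAlgClosed K]

/-- Forms without common zero off the vertices attain the product of the weights. -/
theorem wt_aeval_eq {σ τ κ : Type*} [Fintype σ] [Fintype τ] [Fintype κ] {Z : Set (σ → K)}
    (hZ : MW.IsAlg Z) (hZc : MW.IsCone Z) {W : Set (τ → K)} (hW : MW.IsAlg W) (hWc : MW.IsCone W)
    (F : κ → MvPolynomial (σ ⊕ τ) K) {d₁ d₂ : ℕ}
    (hF : ∀ Q (c c' : L) (v : σ → L) (w : τ → L),
      aeval (Sum.elim (c • v) (c' • w)) (F Q) = c ^ d₁ * c' ^ d₂ * aeval (Sum.elim v w) (F Q))
    (h0 : ∀ v ∈ Z, ∀ w ∈ W, v ≠ 0 → w ≠ 0 → ∃ Q, eval (Sum.elim v w) (F Q) ≠ 0)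
    {v : σ → L} {w : τ → L} (hv : v ∈ conePts L Z) (hw : w ∈ conePts L W) (hv0 : v ≠ 0)
    (hw0 : w ≠ 0) {V : ValuationSubring L} (hV : OverConst K V) :
    wt V (fun Q => aeval (Sum.elim v w) (F Q)) = wt V v ^ d₁ * wt V w ^ d₂ := by
  classical
  obtain ⟨j₀, hj₀⟩ := Function.ne_iff.mp hv0
  obtain ⟨k₀, hk₀⟩ := Function.ne_iff.mp hw0
  have : Nonempty σ := ⟨j₀⟩
  have : Nonempty τ := ⟨k₀⟩
  obtain ⟨j, hj⟩ := exists_wt_eq V v
  obtain ⟨k, hk⟩ := exists_wt_eq V w
  have hvj : v j ≠ 0 := fun h => wt_ne_zero (V := V) hj₀ (by rw [hj, h, map_zero])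
  have hwk : w k ≠ 0 := fun h => wt_ne_zero (V := V) hk₀ (by rw [hk, h, map_zero])
  set v' := (v j)⁻¹ • v
  set w' := (w k)⁻¹ • w
  have hvv : v = v j • v' := (smul_inv_smul₀ hvj v).symm
  have hww : w = w k • w' := (smul_inv_smul₀ hwk w).symm
  have hle : ∀ i, V.valuation (Sum.elim v' w' i) ≤ 1 := fun i => by
    rcases i with i | i <;>
      simp only [Sum.elim_inl, Sum.elim_inr, v', w', Pi.smul_apply, smul_eq_mul, map_mul, map_inv₀]
    · rw [← hj]
      exact inv_mul_le_one_of_le₀ (val_le_wt V v i) zero_le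
    · rw [← hk]
      exact inv_mul_le_one_of_le₀ (val_le_wt V w i) zero_le
  have hle' : ∀ p, V.valuation (aeval (Sum.elim v' w') p) ≤ 1 := fun p => by
    have := val_aeval_le hV le_rfl hle p le_rfl
    rwa [one_pow] at this
  have hone : wt V (fun Q => aeval (Sum.elim v' w') (F Q)) = 1 := by
    refine le_antisymm (wt_le fun Q => hle' _) ?_
    by_contra hlt
    rw [not_le] at hlt
    let G : Set (MvPolynomial (σ ⊕ τ) K) := Set.range F ∪
      ((fun np : ℕ × MvPolynomial σ K => rename Sum.inl np.2) '' MW.formsOf Z ∪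
        ((fun np : ℕ × MvPolynomial τ K => rename Sum.inr np.2) '' MW.formsOf W ∪
          {X (Sum.inl j) - 1, X (Sum.inr k) - 1}))
    have hG : Ideal.span G = ⊤ := by
      have hzero : zeroLocus K (Ideal.span G) = ∅ := Set.eq_empty_iff_forall_notMem.mpr fun x hx => by
        have hx' : ∀ p ∈ G, eval x p = 0 := fun p hp => by
          simpa [aeval_eq_eval] using hx p (Ideal.subset_span hp)
        have hxv : x ∘ Sum.inl ∈ Z := MW.mem_of_forms_vanish hZ hZc fun np hnp => by
          rw [← eval_rename]
          exact hx' _ (Or.inr (Or.inl ⟨np, hnp, rfl⟩))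
        have hxw : x ∘ Sum.inr ∈ W := MW.mem_of_forms_vanish hW hWc fun np hnp => by
          rw [← eval_rename]
          exact hx' _ (Or.inr (Or.inr (Or.inl ⟨np, hnp, rfl⟩)))
        have hxj := hx' (X (Sum.inl j) - 1) (Or.inr (Or.inr (Or.inr (Or.inl rfl))))
        have hxk := hx' (X (Sum.inr k) - 1) (Or.inr (Or.inr (Or.inr (Or.inr rfl))))
        rw [map_sub, eval_X, map_one, sub_eq_zero] at hxj hxk
        obtain ⟨Q, hQ⟩ := h0 _ hxv _ hxw
          (fun h => one_ne_zero (hxj.symm.trans (congrFun h j)))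
          (fun h => one_ne_zero (hxk.symm.trans (congrFun h k)))
        rw [Sum.elim_comp_inl_inr] at hQ
        exact hQ (hx' _ (Or.inl ⟨Q, rfl⟩))
      have hrad := vanishingIdeal_zeroLocus_eq_radical (k := K) (K := K) (Ideal.span G)
      rw [hzero] at hrad
      refine Ideal.radical_eq_top.mp (hrad.symm.trans (eq_top_iff.mpr fun p _ => ?_))
      simp
    have hspan : ∀ p ∈ Ideal.span G, V.valuation (aeval (Sum.elim v' w') p) < 1 := by
      intro p hp
      induction hp using Submodule.span_induction with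
      | mem p hp =>
        rcases hp with ⟨Q, rfl⟩ | ⟨np, hnp, rfl⟩ | ⟨np, hnp, rfl⟩ | rfl | rfl
        · exact (val_le_wt V (fun Q => aeval (Sum.elim v' w') (F Q)) Q).trans_lt hlt
        · rw [aeval_rename, Sum.elim_comp_inl, smul_mem_conePts hv _ np hnp, map_zero]
          exact zero_lt_one
        · rw [aeval_rename, Sum.elim_comp_inr, smul_mem_conePts hw _ np hnp, map_zero]
          exact zero_lt_one
        · simp [v', hvj]
        · simp [w', hwk]
      | zero => simp
      | add p q _ _ hp hq =>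
        rw [map_add]
        exact Valuation.map_add_lt _ hp hq
      | smul c p _ hp =>
        rw [smul_eq_mul, map_mul, map_mul]
        exact (mul_le_of_le_one_left zero_le (hle' c)).trans_lt hp
    have := hspan 1 (hG ▸ Submodule.mem_top)
    simp at this
  have hfun : (fun Q => aeval (Sum.elim v w) (F Q)) =
      (v j ^ d₁ * w k ^ d₂) • fun Q => aeval (Sum.elim v' w') (F Q) := funext fun Q => by
    conv_lhs => rw [hvv, hww]
    exact hF Q _ _ _ _
  rw [hfun, wt_smul, hone, mul_one, map_mul, map_pow, map_pow, hj, hk]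

end FermatAgent.Torsion27
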